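/-
S55 leaf 34gt-CYCLO-GLOBAL-TOWER (helper87), file 1: the character of the cyclotomic `ℤ_p`-tower
on `G_ℚ = Gal(ℚ̄/ℚ)`.

* `gam p m : G_ℚ →* (ℤ/p^(m+1))ˣ`, `σ ↦ (cycChar (p^(m+1)) σ)^(p-1)`, with range `Γ_m = Gamma p m`
  (helper90's group), compatible with the reductions `red`, sending a Frobenius at `q ≠ p` to
  `⟨q⟩ = angle m q` and killing inertia at `q ≠ p`;
* the generator `gen p m = 1 + p` of `Γ_m`, the isomorphism
  `dlog : Γ_m ≃* Multiplicative (ℤ/p^m)` (`1 + p ↦ 1`), compatible with the reductions;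
* `towerChar p hp2 m : G_ℚ →* Multiplicative (ℤ/p^m)` (surjective), with the lift compatibility in
  the literal form consumed by `GlobalInv91.carry_lift_sub_carry_isCob₂` and
  `CycloRecip37.DescendK.S_carry_eq_zero`.

Built on helper46's `CycloTower46.Char.cycChar` (global mod-`N` cyclotomic character).
-/
import Mathlib
import Fermat.Agent.S55.CycloTower46.Char
import Fermat.Agent.S55.CycloRecip90.Compat
import Fermat.Agent.S55.GlobalInv91.Carry

set_option autoImplicit false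

namespace Fermat.Agent.S55.CycloGlobal87

open Fermat.Agent.Lib.FrobeniusExists Fermat.Agent.S55.CycloTower46.Global
  Fermat.Agent.S55.CycloTower46.Char Fermat.Agent.S55.CycloRecip90
  Fermat.Agent.S55.GlobalInv91

variable (p : ℕ) [hp : Fact p.Prime]

instance neZero_prime_pow (m : ℕ) : NeZero (p ^ m) := ⟨pow_ne_zero _ hp.out.ne_zero⟩

instance neZero_prime_pow_mul (m s : ℕ) : NeZero (p ^ m * p ^ s) :=
  ⟨mul_ne_zero (pow_ne_zero _ hp.out.ne_zero) (pow_ne_zero _ hp.out.ne_zero)⟩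

/-! ### the `Γ_m`-valued character -/

/-- `σ ↦ (cycChar (p^(m+1)) σ)^(p-1)`: the character of `Gal(ℚ_m/ℚ)`, `ℚ_m` the `m`-th layer of
the cyclotomic `ℤ_p`-extension of `ℚ`. -/
noncomputable def gam (m : ℕ) : GQ →* (ZMod (p ^ (m + 1)))ˣ :=
  (powMonoidHom (p - 1)).comp (cycChar (p ^ (m + 1)))

theorem gam_apply (m : ℕ) (σ : GQ) : gam p m σ = cycChar (p ^ (m + 1)) σ ^ (p - 1) := rfl

theorem gam_mem_Gamma (m : ℕ) (σ : GQ) : gam p m σ ∈ Gamma p m := ⟨_, rfl⟩

/-- **the range of `gam` is `Γ_m`.** -/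
theorem range_gam (m : ℕ) : (gam p m).range = Gamma p m := by
  rw [gam, MonoidHom.range_comp, MonoidHom.range_eq_top.mpr cycChar_surjective,
    ← MonoidHom.range_eq_map]
  rfl

/-- compatibility with the reductions `(ℤ/p^(n+1))ˣ → (ℤ/p^(m+1))ˣ`. -/
theorem red_gam {m n : ℕ} (h : m ≤ n) (σ : GQ) : red p h (gam p n σ) = gam p m σ := by
  rw [gam_apply, gam_apply, map_pow]
  congr 1
  exact cycChar_map (pow_dvd_pow p (Nat.succ_le_succ h)) σ

/-- **a Frobenius at `q ≠ p` goes to `⟨q⟩`.** -/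
theorem gam_of_isFrobeniusAt (m : ℕ) {q : ℕ} (hq : q.Prime) (hqp : q ≠ p)
    (A : ValuationSubring Qb) (hA : A.LiesOverPrime q) {σ : GQ} (h : A.IsFrobeniusAt σ q) :
    gam p m σ = angle (p := p) m q ((Nat.coprime_primes hq hp.out).2 hqp) := by
  have hN : ¬ q ∣ p ^ (m + 1) := fun hd =>
    hqp ((Nat.prime_dvd_prime_iff_eq hq hp.out).mp (hq.dvd_of_dvd_pow hd))
  rw [gam_apply, angle]
  congr 1
  apply Units.ext
  rw [cycChar_of_isFrobeniusAt hq A hA h hN, ZMod.coe_unitOfCoprime]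

/-- **inertia at `q ≠ p` is killed.** -/
theorem gam_of_mem_inertia (m : ℕ) {q : ℕ} (hq : q.Prime) (hqp : q ≠ p)
    (A : ValuationSubring Qb) (hA : A.LiesOverPrime q) {σ : GQ}
    (hσ : σ ∈ A.inertiaSubgroupIn ℚ) : gam p m σ = 1 := by
  have hN : ¬ q ∣ p ^ (m + 1) := fun hd =>
    hqp ((Nat.prime_dvd_prime_iff_eq hq hp.out).mp (hq.dvd_of_dvd_pow hd))
  rw [gam_apply, cycChar_of_mem_inertia hq A hA hσ hN, one_pow]

/-- the kernel of `gam` contains `Gal(ℚ̄/ℚ(μ_{p^(m+1)}))`. -/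
theorem fixingSubgroup_cycloField_le_ker_gam (m : ℕ) :
    (cycloField (p ^ (m + 1))).fixingSubgroup ≤ (gam p m).ker := by
  intro σ hσ
  rw [← ker_cycChar, MonoidHom.mem_ker] at hσ
  rw [MonoidHom.mem_ker, gam_apply, hσ, one_pow]

/-! ### the generator `1 + p` of `Γ_m` -/

omit hp in
theorem coprime_one_add_self : (1 + p).Coprime p := by
  rw [Nat.coprime_add_self_left]
  exact Nat.coprime_one_left p

/-- the class of `1 + p` in `(ℤ/p^(m+1))ˣ`. -/
noncomputable def gen (m : ℕ) : (ZMod (p ^ (m + 1)))ˣ :=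
  ZMod.unitOfCoprime (1 + p) (Nat.Coprime.pow_right _ (coprime_one_add_self p))

omit hp in
theorem coe_gen (m : ℕ) : ((gen p m : (ZMod (p ^ (m + 1)))ˣ) : ZMod (p ^ (m + 1))) = 1 + p := by
  rw [gen, ZMod.coe_unitOfCoprime]
  push_cast
  rfl

theorem red_gen {m n : ℕ} (h : m ≤ n) : red p h (gen p n) = gen p m :=
  red_unitOfCoprime h (1 + p) (coprime_one_add_self p)

/-- `1 + p` has order `p^m` in `(ℤ/p^(m+1))ˣ` (`p` odd). -/
theorem orderOf_gen (hp2 : p ≠ 2) (m : ℕ) : orderOf (gen p m) = p ^ m := by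
  rw [← orderOf_units, coe_gen]
  exact ZMod.orderOf_one_add_prime hp.out hp2 m

theorem gen_pow_card (hp2 : p ≠ 2) (m : ℕ) : gen p m ^ p ^ m = 1 := by
  rw [← orderOf_gen p hp2 m]; exact pow_orderOf_eq_one _

theorem gen_pow_mod (hp2 : p ≠ 2) (m k : ℕ) : gen p m ^ (k % p ^ m) = gen p m ^ k := by
  have := pow_mod_orderOf (gen p m) k
  rwa [orderOf_gen p hp2 m] at this

theorem gen_mem_Gamma (hp2 : p ≠ 2) (m : ℕ) : gen p m ∈ Gamma p m := by
  -- `p - 1` is invertible modulo `p^m`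
  have hcop : Nat.Coprime (p - 1) (p ^ m) := by
    apply Nat.Coprime.pow_right
    rw [Nat.coprime_comm, Nat.Prime.coprime_iff_not_dvd hp.out]
    intro hd
    have h2 := hp.out.two_le
    have := Nat.le_of_dvd (by omega) hd
    omega
  have hpm : 1 < p ^ m ∨ p ^ m = 1 := by
    rcases Nat.eq_zero_or_pos m with h0 | h0
    · right; rw [h0, pow_zero]
    · left; exact Nat.one_lt_pow h0.ne' hp.out.one_lt
  rcases hpm with hpm | hpm
  · obtain ⟨a, -, ha⟩ := Nat.exists_mul_mod_eq_one_of_coprime hcop hpm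
    refine ⟨gen p m ^ a, ?_⟩
    rw [powMonoidHom_apply, ← pow_mul, mul_comm a, ← gen_pow_mod p hp2, ha, pow_one]
  · have : gen p m = 1 := by
      have := gen_pow_card p hp2 m
      rwa [hpm, pow_one] at this
    rw [this]; exact one_mem _

/-- **`Γ_m` is generated by `1 + p`.** -/
theorem zpowers_gen (hp2 : p ≠ 2) (m : ℕ) : Subgroup.zpowers (gen p m) = Gamma p m := by
  apply Subgroup.eq_of_le_of_card_ge
  · rw [Subgroup.zpowers_le]; exact gen_mem_Gamma p hp2 m
  · rw [Nat.card_zpowers, orderOf_gen p hp2 m, card_Gamma hp2 m]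

/-! ### the discrete logarithm `Γ_m ≃* Multiplicative (ℤ/p^m)` -/

/-- `k ↦ (1+p)^k`, `Multiplicative (ℤ/p^m) →* Γ_m`. -/
noncomputable def expG (hp2 : p ≠ 2) (m : ℕ) : Multiplicative (ZMod (p ^ m)) →* Gamma p m where
  toFun k := ⟨gen p m ^ (Multiplicative.toAdd k).val,
    Subgroup.pow_mem _ (gen_mem_Gamma p hp2 m) _⟩
  map_one' := by
    apply Subtype.ext
    simp
  map_mul' a b := by
    apply Subtype.ext
    change gen p m ^ (Multiplicative.toAdd a + Multiplicative.toAdd b).val =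
      gen p m ^ (Multiplicative.toAdd a).val * gen p m ^ (Multiplicative.toAdd b).val
    rw [ZMod.val_add, ← pow_add, gen_pow_mod p hp2]

theorem coe_expG (hp2 : p ≠ 2) (m : ℕ) (k : Multiplicative (ZMod (p ^ m))) :
    ((expG p hp2 m k : Gamma p m) : (ZMod (p ^ (m + 1)))ˣ) =
      gen p m ^ (Multiplicative.toAdd k).val := rfl

theorem expG_injective (hp2 : p ≠ 2) (m : ℕ) : Function.Injective (expG p hp2 m) := by
  intro a b hab
  have h1 : gen p m ^ (Multiplicative.toAdd a).val = gen p m ^ (Multiplicative.toAdd b).val :=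
    congrArg Subtype.val hab
  have ha : (Multiplicative.toAdd a).val < orderOf (gen p m) := by
    rw [orderOf_gen p hp2 m]; exact ZMod.val_lt _
  have hb : (Multiplicative.toAdd b).val < orderOf (gen p m) := by
    rw [orderOf_gen p hp2 m]; exact ZMod.val_lt _
  have := pow_injOn_Iio_orderOf (Set.mem_Iio.mpr ha) (Set.mem_Iio.mpr hb) h1
  exact Multiplicative.toAdd.injective (ZMod.val_injective _ this)

theorem expG_bijective (hp2 : p ≠ 2) (m : ℕ) : Function.Bijective (expG p hp2 m) := by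
  refine (expG_injective p hp2 m).bijective_of_nat_card_le ?_
  rw [card_Gamma hp2 m, Nat.card_eq_fintype_card, Fintype.card_multiplicative, ZMod.card]

/-- **the discrete logarithm** `Γ_m ≃* Multiplicative (ℤ/p^m)`, `1 + p ↦ 1`. -/
noncomputable def dlog (hp2 : p ≠ 2) (m : ℕ) : Gamma p m ≃* Multiplicative (ZMod (p ^ m)) :=
  (MulEquiv.ofBijective (expG p hp2 m) (expG_bijective p hp2 m)).symm

theorem expG_dlog (hp2 : p ≠ 2) (m : ℕ) (x : Gamma p m) : expG p hp2 m (dlog p hp2 m x) = x :=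
  (MulEquiv.ofBijective (expG p hp2 m) (expG_bijective p hp2 m)).apply_symm_apply x

theorem dlog_expG (hp2 : p ≠ 2) (m : ℕ) (k : Multiplicative (ZMod (p ^ m))) :
    dlog p hp2 m (expG p hp2 m k) = k :=
  (MulEquiv.ofBijective (expG p hp2 m) (expG_bijective p hp2 m)).symm_apply_apply k

/-- **specification of `dlog`**: `x = (1+p)^(dlog x)`. -/
theorem gen_pow_dlog (hp2 : p ≠ 2) (m : ℕ) (x : Gamma p m) :
    gen p m ^ (Multiplicative.toAdd (dlog p hp2 m x)).val = (x : (ZMod (p ^ (m + 1)))ˣ) := by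
  rw [← coe_expG p hp2, expG_dlog]

/-- uniqueness: `x = (1+p)^k` forces `dlog x = k mod p^m`. -/
theorem dlog_eq_of_gen_pow (hp2 : p ≠ 2) (m : ℕ) (x : Gamma p m) (k : ℕ)
    (hk : gen p m ^ k = (x : (ZMod (p ^ (m + 1)))ˣ)) :
    Multiplicative.toAdd (dlog p hp2 m x) = (k : ZMod (p ^ m)) := by
  have : x = expG p hp2 m (Multiplicative.ofAdd (k : ZMod (p ^ m))) := by
    apply Subtype.ext
    rw [coe_expG, toAdd_ofAdd, ZMod.val_natCast, ← hk, gen_pow_mod p hp2]
  rw [this, dlog_expG, toAdd_ofAdd]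

theorem dlog_gen (hp2 : p ≠ 2) (m : ℕ) :
    Multiplicative.toAdd (dlog p hp2 m ⟨gen p m, gen_mem_Gamma p hp2 m⟩) = 1 := by
  have := dlog_eq_of_gen_pow p hp2 m ⟨gen p m, gen_mem_Gamma p hp2 m⟩ 1 (pow_one _)
  simpa using this

/-- **compatibility of `dlog` with the reductions**: for `m ≤ n` and `x ∈ Γ_n`,
`dlog_m (red x) = dlog_n x mod p^m`. -/
theorem val_dlog_red (hp2 : p ≠ 2) {m n : ℕ} (h : m ≤ n) (x : Gamma p n) :
    (Multiplicative.toAdd (dlog p hp2 m ⟨red p h x, red_mem_Gamma h x.2⟩)).val =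
      (Multiplicative.toAdd (dlog p hp2 n x)).val % p ^ m := by
  have h1 : gen p m ^ (Multiplicative.toAdd (dlog p hp2 n x)).val =
      ((⟨red p h x, red_mem_Gamma h x.2⟩ : Gamma p m) : (ZMod (p ^ (m + 1)))ˣ) := by
    change _ = red p h x
    rw [← gen_pow_dlog p hp2 n x, map_pow, red_gen]
  rw [dlog_eq_of_gen_pow p hp2 m _ _ h1, ZMod.val_natCast]

/-! ### the tower character -/

/-- `gam` with values in the subgroup `Γ_m`. -/
noncomputable def gamG (m : ℕ) : GQ →* Gamma p m :=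
  (gam p m).codRestrict (Gamma p m) (gam_mem_Gamma p m)

theorem coe_gamG (m : ℕ) (σ : GQ) : ((gamG p m σ : Gamma p m) : (ZMod (p ^ (m + 1)))ˣ) = gam p m σ :=
  rfl

theorem gamG_surjective (m : ℕ) : Function.Surjective (gamG p m) := by
  intro x
  have hx : (x : (ZMod (p ^ (m + 1)))ˣ) ∈ (gam p m).range := by rw [range_gam]; exact x.2
  obtain ⟨σ, hσ⟩ := hx
  exact ⟨σ, Subtype.ext hσ⟩

/-- **the character of the cyclotomic `ℤ_p`-tower, level `m`**:
`G_ℚ →* Multiplicative (ℤ/p^m)`. -/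
noncomputable def towerChar (hp2 : p ≠ 2) (m : ℕ) : GQ →* Multiplicative (ZMod (p ^ m)) :=
  (dlog p hp2 m).toMonoidHom.comp (gamG p m)

theorem towerChar_apply (hp2 : p ≠ 2) (m : ℕ) (σ : GQ) :
    towerChar p hp2 m σ = dlog p hp2 m (gamG p m σ) := rfl

/-- **specification**: `gam σ = (1+p)^(towerChar σ)`. -/
theorem gen_pow_towerChar (hp2 : p ≠ 2) (m : ℕ) (σ : GQ) :
    gen p m ^ (chiVal (towerChar p hp2 m) σ).val = gam p m σ := by
  rw [chiVal, towerChar_apply, gen_pow_dlog, coe_gamG]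

theorem towerChar_surjective (hp2 : p ≠ 2) (m : ℕ) : Function.Surjective (towerChar p hp2 m) :=
  (dlog p hp2 m).surjective.comp (gamG_surjective p m)

theorem ker_towerChar (hp2 : p ≠ 2) (m : ℕ) : (towerChar p hp2 m).ker = (gam p m).ker := by
  ext σ
  rw [MonoidHom.mem_ker, MonoidHom.mem_ker, towerChar_apply,
    MulEquiv.map_eq_one_iff, ← coe_gamG, OneMemClass.coe_eq_one]

/-- **lift compatibility** (the hypothesis `h` of `GlobalInv91.carry_lift_sub_carry_isCob₂`, up to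
the identification `p^(m+s) = p^m * p^s`). -/
theorem towerChar_lift (hp2 : p ≠ 2) (m s : ℕ) (σ : GQ) :
    (chiVal (towerChar p hp2 m) σ).val = (chiVal (towerChar p hp2 (m + s)) σ).val % p ^ m := by
  have h : m ≤ m + s := Nat.le_add_right m s
  have := val_dlog_red p hp2 h (gamG p (m + s) σ)
  rw [chiVal, chiVal, towerChar_apply, towerChar_apply, ← this]
  congr 3
  apply Subtype.ext
  exact (red_gam p h σ).symm

/-- the level `m + s` character with values in `Multiplicative (ℤ/(p^m * p^s))` (the binder of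
`CycloRecip37.DescendK.S_carry_eq_zero`). -/
noncomputable def towerCharMul (hp2 : p ≠ 2) (m s : ℕ) :
    GQ →* Multiplicative (ZMod (p ^ m * p ^ s)) :=
  (AddMonoidHom.toMultiplicative
    (ZMod.ringEquivCongr (pow_add p m s)).toAddMonoidHom).comp (towerChar p hp2 (m + s))

theorem val_chiVal_towerCharMul (hp2 : p ≠ 2) (m s : ℕ) (σ : GQ) :
    (chiVal (towerCharMul p hp2 m s) σ).val = (chiVal (towerChar p hp2 (m + s)) σ).val := by
  change (ZMod.ringEquivCongr (pow_add p m s) (chiVal (towerChar p hp2 (m + s)) σ)).val = _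
  exact ZMod.ringEquivCongr_val _ _

/-- **lift compatibility, `p^m * p^s` form** (hypothesis `hlift` of `S_carry_eq_zero`). -/
theorem towerCharMul_lift (hp2 : p ≠ 2) (m s : ℕ) (σ : GQ) :
    (chiVal (towerChar p hp2 m) σ).val = (chiVal (towerCharMul p hp2 m s) σ).val % p ^ m := by
  rw [val_chiVal_towerCharMul, towerChar_lift]

theorem towerCharMul_surjective (hp2 : p ≠ 2) (m s : ℕ) :
    Function.Surjective (towerCharMul p hp2 m s) := by
  intro x
  obtain ⟨σ, hσ⟩ := towerChar_surjective p hp2 (m + s)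
    (Multiplicative.ofAdd ((ZMod.ringEquivCongr (pow_add p m s)).symm (Multiplicative.toAdd x)))
  refine ⟨σ, ?_⟩
  change Multiplicative.ofAdd ((ZMod.ringEquivCongr (pow_add p m s))
    (Multiplicative.toAdd (towerChar p hp2 (m + s) σ))) = x
  rw [hσ, toAdd_ofAdd, RingEquiv.apply_symm_apply, ofAdd_toAdd]

/-! ### Frobenius and inertia -/

/-- **value on a Frobenius at `q ≠ p`**: `dlog ⟨q⟩`. -/
theorem towerChar_of_isFrobeniusAt (hp2 : p ≠ 2) (m : ℕ) {q : ℕ} (hq : q.Prime) (hqp : q ≠ p)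
    (A : ValuationSubring Qb) (hA : A.LiesOverPrime q) {σ : GQ} (h : A.IsFrobeniusAt σ q) :
    towerChar p hp2 m σ =
      dlog p hp2 m ⟨angle (p := p) m q ((Nat.coprime_primes hq hp.out).2 hqp),
        angle_mem_Gamma m q _⟩ := by
  rw [towerChar_apply]
  congr 1
  apply Subtype.ext
  rw [coe_gamG]
  exact gam_of_isFrobeniusAt p m hq hqp A hA h

/-- **inertia at `q ≠ p` is killed.** -/
theorem towerChar_of_mem_inertia (hp2 : p ≠ 2) (m : ℕ) {q : ℕ} (hq : q.Prime) (hqp : q ≠ p)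
    (A : ValuationSubring Qb) (hA : A.LiesOverPrime q) {σ : GQ}
    (hσ : σ ∈ A.inertiaSubgroupIn ℚ) : towerChar p hp2 m σ = 1 := by
  rw [← MonoidHom.mem_ker, ker_towerChar, MonoidHom.mem_ker]
  exact gam_of_mem_inertia p m hq hqp A hA hσ

end Fermat.Agent.S55.CycloGlobal87
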