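/-
S55 leaf 34gt-CYCLO-GLOBAL-TOWER (helper87), file 2: the `m`-th layer `ℚ_m ⊆ ℚ̄` of the cyclotomic
`ℤ_p`-extension of `ℚ`, as the fixed field of the kernel of `gam p m`:
`Gal(ℚ̄/ℚ_m) = ker (gam p m) = ker (towerChar p hp2 m)`, `ℚ_m ⊆ ℚ(μ_{p^(m+1)})`, `[ℚ_m : ℚ] = p^m`,
`ℚ_m/ℚ` Galois, unramified outside `S ∋ p` (so `ℚ_m` is an `S`-level), `ℚ_m ⊆ ℚ_{m+1}`.
-/
import Mathlib
import Fermat.Agent.S55.CycloGlobal87.Tower

set_option autoImplicit false

namespace Fermat.Agent.S55.CycloGlobal87

open Fermat.Agent.Lib.FrobeniusExists Fermat.Agent.S55.CycloTower46.Global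
  Fermat.Agent.S55.CycloTower46.Char Fermat.Agent.S55.CycloRecip90
  Fermat.Agent.S55.GlobalInv91

attribute [local instance] isAlgebraic_Qb isAlgClosure_Qb isGalois_Qb

variable (p : ℕ) [hp : Fact p.Prime]

/-- **the `m`-th layer of the cyclotomic `ℤ_p`-extension of `ℚ`** (inside `ℚ̄`). -/
noncomputable def towerField (m : ℕ) : IntermediateField ℚ Qb :=
  IntermediateField.fixedField (gam p m).ker

theorem mem_towerField_iff (m : ℕ) (x : Qb) :
    x ∈ towerField p m ↔ ∀ σ : GQ, gam p m σ = 1 → σ x = x := by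
  rw [towerField, IntermediateField.mem_fixedField_iff]
  rfl

theorem finiteDimensional_cycloField_pow (m : ℕ) :
    FiniteDimensional ℚ (cycloField (p ^ (m + 1))) :=
  finiteDimensional_cycloField (pow_ne_zero _ hp.out.ne_zero)

/-- the kernel of `gam` is open (it contains `Gal(ℚ̄/ℚ(μ_{p^(m+1)}))`) -/
theorem isOpen_ker_gam (m : ℕ) : IsOpen ((gam p m).ker : Set GQ) := by
  haveI := finiteDimensional_cycloField_pow p m
  exact Subgroup.isOpen_mono (fixingSubgroup_cycloField_le_ker_gam p m)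
    (cycloField (p ^ (m + 1))).fixingSubgroup_isOpen

/-- **`Gal(ℚ̄/ℚ_m) = ker (gam p m)`.** -/
theorem fixingSubgroup_towerField (m : ℕ) :
    (towerField p m).fixingSubgroup = (gam p m).ker := by
  have hcl : IsClosed ((gam p m).ker : Set GQ) :=
    Subgroup.isClosed_of_isOpen _ (isOpen_ker_gam p m)
  exact InfiniteGalois.fixingSubgroup_fixedField ⟨(gam p m).ker, hcl⟩

theorem fixingSubgroup_towerField' (hp2 : p ≠ 2) (m : ℕ) :
    (towerField p m).fixingSubgroup = (towerChar p hp2 m).ker := by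
  rw [fixingSubgroup_towerField, ker_towerChar]

theorem mem_fixingSubgroup_towerField_iff (m : ℕ) (σ : GQ) :
    σ ∈ (towerField p m).fixingSubgroup ↔ gam p m σ = 1 := by
  rw [fixingSubgroup_towerField, MonoidHom.mem_ker]

/-- **`ℚ_m ⊆ ℚ(μ_{p^(m+1)})`.** -/
theorem towerField_le_cycloField (m : ℕ) : towerField p m ≤ cycloField (p ^ (m + 1)) := by
  have h := fixingSubgroup_cycloField_le_ker_gam p m
  have h2 : IntermediateField.fixedField (gam p m).ker ≤
      IntermediateField.fixedField (cycloField (p ^ (m + 1))).fixingSubgroup :=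
    IntermediateField.fixedField_antitone h
  rwa [InfiniteGalois.fixedField_fixingSubgroup] at h2

instance finiteDimensional_towerField (m : ℕ) : FiniteDimensional ℚ (towerField p m) := by
  haveI := finiteDimensional_cycloField_pow p m
  exact FiniteDimensional.of_injective
    (IntermediateField.inclusion (towerField_le_cycloField p m)).toLinearMap
    (IntermediateField.inclusion_injective (towerField_le_cycloField p m))

/-- **`[ℚ_m : ℚ] = p^m`** (`p` odd). -/
theorem finrank_towerField (hp2 : p ≠ 2) (m : ℕ) : Module.finrank ℚ (towerField p m) = p ^ m := by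
  rw [IntermediateField.finrank_eq_fixingSubgroup_index, fixingSubgroup_towerField,
    Subgroup.index_ker, range_gam, card_Gamma hp2 m]

/-- **`ℚ_m/ℚ` is normal.** -/
theorem map_towerField_le (m : ℕ) (σ : GQ) :
    (towerField p m).map (σ : Qb →ₐ[ℚ] Qb) ≤ towerField p m := by
  intro x hx
  obtain ⟨y, hy, rfl⟩ := hx
  have hy' : y ∈ towerField p m := hy
  rw [mem_towerField_iff] at hy'
  rw [mem_towerField_iff]
  intro τ hτ
  have h1 : gam p m (σ⁻¹ * τ * σ) = 1 := by
    rw [map_mul, map_mul, hτ, mul_one, ← map_mul, inv_mul_cancel, map_one]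
  have h2 := hy' _ h1
  have h3 : σ ((σ⁻¹ * τ * σ) y) = σ y := by rw [h2]
  simpa [AlgEquiv.mul_apply] using h3

instance normal_towerField (m : ℕ) : Normal ℚ (towerField p m) := by
  have key := IntermediateField.normal_iff_forall_map_le'.mpr (map_towerField_le p m)
  convert key
  exact Subsingleton.elim _ _

instance isGalois_towerField (m : ℕ) : IsGalois ℚ (towerField p m) := ⟨⟩

/-- **`ℚ_m` is unramified outside every `S ∋ p`**: it is an `S`-level. -/
theorem towerField_isUnramifiedOutside (S : Finset Nat.Primes) (hpS : (⟨p, hp.out⟩ : Nat.Primes) ∈ S)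
    (m : ℕ) : (towerField p m).IsUnramifiedOutside S :=
  (cycloField_prime_pow_isUnramifiedOutside S ⟨p, hp.out⟩ hpS (m + 1)).of_le
    (towerField_le_cycloField p m)

/-- `ker (gam p n) ≤ ker (gam p m)` for `m ≤ n`. -/
theorem ker_gam_anti {m n : ℕ} (h : m ≤ n) : (gam p n).ker ≤ (gam p m).ker := by
  intro σ hσ
  rw [MonoidHom.mem_ker] at hσ ⊢
  rw [← red_gam p h σ, hσ, map_one]

/-- **`ℚ_m ⊆ ℚ_n` for `m ≤ n`.** -/
theorem towerField_mono {m n : ℕ} (h : m ≤ n) : towerField p m ≤ towerField p n :=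
  IntermediateField.fixedField_antitone (ker_gam_anti p h)

/-- `ℚ_0 = ℚ`. -/
theorem towerField_zero (hp2 : p ≠ 2) : towerField p 0 = ⊥ := by
  have h := finrank_towerField p hp2 0
  rw [pow_zero] at h
  exact IntermediateField.finrank_eq_one_iff.mp h

end Fermat.Agent.S55.CycloGlobal87
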