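/-
S55 leaf 34gt-CYCLO-GLOBAL-TOWER (helper87), file 3: the tower character at a finite level
`Gal(L/ℚ)` (helper73's `Idele73.Basic` vocabulary) and its restriction to the decomposition groups.

* `towerCharL p hp2 m L h : GalL L →* Multiplicative (ℤ/p^m)` for every normal `L ⊇ ℚ_m`, with
  `towerCharL (resL L σ) = towerChar σ`, surjective, kernel, lift compatibility (both forms);
* decomposition groups: for `q ≠ p` the image of `G_q` under the tower character is the cyclic
  group generated by `dlog ⟨q⟩` (every element of `G_q` acts on the roots of unity of order prime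
  to `q` as a power of Frobenius: helper93's `UnrExt93.exists_actsAs`); for `q = p` the tower
  character is ONTO on `G_p` (total ramification: helper46's `localCycChar_surjective_prime_pow`).
-/
import Mathlib
import Fermat.Agent.S55.CycloGlobal87.Field
import Fermat.Agent.S55.Idele73.Basic
import Fermat.Agent.S55.UnrExt93.FrobChar

set_option autoImplicit false

namespace Fermat.Agent.S55.CycloGlobal87

open Fermat.Agent.Lib.FrobeniusExists Fermat.Agent.S55.CycloTower46.Global
  Fermat.Agent.S55.CycloTower46.Char Fermat.Agent.S55.CycloTower46.Local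
  Fermat.Agent.S55.CycloRecip90 Fermat.Agent.S55.GlobalInv91

open Fermat.Agent.S55.Idele73.Basic (Qbar GalL resL resL_apply resL_surjective locHom)

attribute [local instance] isAlgebraic_Qb isAlgClosure_Qb isGalois_Qb

variable (p : ℕ) [hp : Fact p.Prime]

/-! ### the decomposition groups: `q ≠ p` -/

section Local

variable (q : ℕ) [hq : Fact q.Prime]

/-- every element of `G_q` acts on the roots of unity of order `N` prime to `q` as a power of the
Frobenius `η ↦ η^q`. -/
theorem exists_pow_forall_rootOfUnity {N : ℕ} (hN : ¬ q ∣ N) (τ : Gq q) :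
    ∃ j : ℕ, ∀ η : PadicAlgCl q, η ^ N = 1 → τ η = η ^ (q ^ j) := by
  classical
  have hN0 : N ≠ 0 := fun h0 => hN (h0 ▸ dvd_zero q)
  obtain ⟨a, ha, hQ⟩ := Fermat.Agent.S55.UnrExt93.resCard_pos_pow (q := q)
    (⊥ : IntermediateField ℚ_[q] (PadicAlgCl q))
  set Q := Fermat.Agent.S55.UnrExt93.resCard q (⊥ : IntermediateField ℚ_[q] (PadicAlgCl q))
    with hQdef
  -- `Q` is prime to `N`, so `N ∣ Q ^ n - 1` for some `n > 0`
  have hcop : Nat.Coprime Q N := by
    rw [hQ]
    exact Nat.Coprime.pow_left _ ((Nat.Prime.coprime_iff_not_dvd hq.out).mpr hN)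
  obtain ⟨n, hn, hdvd⟩ : ∃ n : ℕ, 0 < n ∧ N ∣ Q ^ n - 1 := by
    rcases Nat.lt_or_ge 1 N with h1 | h1
    · refine ⟨N.totient, Nat.totient_pos.mpr (by omega), ?_⟩
      have := Nat.ModEq.pow_totient hcop
      have hQpos : 0 < Q := by rw [hQ]; exact pow_pos hq.out.pos _
      exact (Nat.modEq_iff_dvd' (Nat.one_le_pow _ _ hQpos)).mp this.symm
    · have hN1 : N = 1 := by omega
      refine ⟨1, one_pos, ?_⟩
      rw [hN1]
      exact one_dvd _
  have hτ : τ ∈ (⊥ : IntermediateField ℚ_[q] (PadicAlgCl q)).fixingSubgroup := by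
    rw [IntermediateField.fixingSubgroup_bot]; exact Subgroup.mem_top τ
  obtain ⟨i, -, hi⟩ := Fermat.Agent.S55.UnrExt93.exists_actsAs
    (K := (⊥ : IntermediateField ℚ_[q] (PadicAlgCl q))) hn hτ
  refine ⟨a * i, fun η hη => ?_⟩
  have hη' : η ^ (Q ^ n - 1) = 1 := by
    obtain ⟨k, hk⟩ := hdvd
    rw [hk, pow_mul, hη, one_pow]
  rw [hi η hη', ← hQdef, hQ, ← pow_mul]

/-- **the image of `G_q` under the mod-`N` cyclotomic character (`q ∤ N`) is generated by the
class of `q`.** -/
theorem range_localCycChar {N : ℕ} [NeZero N] (hN : q.Coprime N) :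
    (localCycChar q N).range = Subgroup.zpowers (ZMod.unitOfCoprime q hN) := by
  have hqN : ¬ q ∣ N := fun hd => hq.out.one_lt.ne' (Nat.Coprime.eq_one_of_dvd hN hd)
  apply le_antisymm
  · rintro _ ⟨τ, rfl⟩
    obtain ⟨j, hj⟩ := exists_pow_forall_rootOfUnity q hqN τ
    have : localCycChar q N τ = ZMod.unitOfCoprime q hN ^ j := by
      apply Units.ext
      symm
      refine localCycChar_unique q τ _ fun η hη => ?_
      rw [hj η hη, Units.val_pow_eq_pow_val, ZMod.coe_unitOfCoprime, ← Nat.cast_pow,
        ZMod.val_natCast]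
      conv_lhs => rw [← Nat.mod_add_div (q ^ j) N]
      rw [pow_add, pow_mul, hη, one_pow, mul_one]
    rw [this]
    exact Subgroup.pow_mem _ (Subgroup.mem_zpowers _) j
  · rw [Subgroup.zpowers_le]
    obtain ⟨τ, hτ⟩ := exists_local_frobenius q
    refine ⟨τ, ?_⟩
    apply Units.ext
    rw [ZMod.coe_unitOfCoprime]
    refine localCycChar_frobenius q fun η hη => ?_
    obtain ⟨ζ, hζ, rfl⟩ := exists_padicEmbedding_eq_of_pow_eq_one q (NeZero.ne N) hη
    rw [← padicEmbedding_localGaloisToGlobal, hτ N hqN ζ hζ, map_pow]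

/-- **the image of `G_q` (`q ≠ p`) under `gam` is generated by `⟨q⟩`.** -/
theorem range_gam_comp_local (m : ℕ) (hqp : q ≠ p) :
    ((gam p m).comp (localGaloisToGlobal q)).range =
      Subgroup.zpowers (angle (p := p) m q ((Nat.coprime_primes hq.out hp.out).2 hqp)) := by
  have hcop : q.Coprime (p ^ (m + 1)) :=
    Nat.Coprime.pow_right _ ((Nat.coprime_primes hq.out hp.out).2 hqp)
  have h1 : (gam p m).comp (localGaloisToGlobal q) =
      (powMonoidHom (p - 1)).comp (localCycChar q (p ^ (m + 1))) := rfl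
  rw [h1, MonoidHom.range_comp, range_localCycChar q hcop, MonoidHom.map_zpowers]
  rfl

/-- **the image of `G_q` (`q ≠ p`) under the tower character is generated by `dlog ⟨q⟩`.** -/
theorem range_towerChar_comp_local (hp2 : p ≠ 2) (m : ℕ) (hqp : q ≠ p) :
    ((towerChar p hp2 m).comp (localGaloisToGlobal q)).range =
      Subgroup.zpowers (dlog p hp2 m
        ⟨angle (p := p) m q ((Nat.coprime_primes hq.out hp.out).2 hqp), angle_mem_Gamma m q _⟩) := by
  ext x
  constructor
  · rintro ⟨τ, rfl⟩
    have hmem : gam p m (localGaloisToGlobal q τ) ∈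
        ((gam p m).comp (localGaloisToGlobal q)).range := ⟨τ, rfl⟩
    rw [range_gam_comp_local p q m hqp, Subgroup.mem_zpowers_iff] at hmem
    obtain ⟨k, hk⟩ := hmem
    rw [Subgroup.mem_zpowers_iff]
    refine ⟨k, ?_⟩
    rw [MonoidHom.comp_apply, towerChar_apply, ← map_zpow]
    congr 1
    apply Subtype.ext
    rw [coe_gamG, ← hk]
    rfl
  · intro hx
    rw [Subgroup.mem_zpowers_iff] at hx
    obtain ⟨k, rfl⟩ := hx
    have hmem : angle (p := p) m q ((Nat.coprime_primes hq.out hp.out).2 hqp) ^ k ∈
        ((gam p m).comp (localGaloisToGlobal q)).range := by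
      rw [range_gam_comp_local p q m hqp]
      exact Subgroup.zpow_mem _ (Subgroup.mem_zpowers _) k
    obtain ⟨τ, hτ⟩ := hmem
    refine ⟨τ, ?_⟩
    rw [MonoidHom.comp_apply, towerChar_apply, ← map_zpow]
    congr 1
    apply Subtype.ext
    rw [coe_gamG]
    exact hτ

end Local

/-! ### the decomposition group at `p`: total ramification -/

/-- **the tower character is onto on `G_p`.** -/
theorem gam_comp_local_surjective_onto_Gamma (m : ℕ) (x : (ZMod (p ^ (m + 1)))ˣ)
    (hx : x ∈ Gamma p m) : ∃ τ : Gq p, gam p m (localGaloisToGlobal p τ) = x := by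
  obtain ⟨y, rfl⟩ := hx
  obtain ⟨τ, hτ⟩ := localCycChar_surjective_prime_pow p m y
  refine ⟨τ, ?_⟩
  rw [gam_apply, ← localCycChar_apply, hτ]
  rfl

theorem towerChar_comp_local_surjective (hp2 : p ≠ 2) (m : ℕ) :
    Function.Surjective ((towerChar p hp2 m).comp (localGaloisToGlobal p)) := by
  intro k
  obtain ⟨x, rfl⟩ := (dlog p hp2 m).surjective k
  obtain ⟨τ, hτ⟩ := gam_comp_local_surjective_onto_Gamma p m x x.2
  refine ⟨τ, ?_⟩
  rw [MonoidHom.comp_apply, towerChar_apply]
  congr 1
  exact Subtype.ext hτ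

/-! ### finite levels -/

section Level

variable (L : IntermediateField ℚ Qbar) [Normal ℚ L]

theorem ker_resL : (resL L).ker = L.fixingSubgroup := by
  ext σ
  rw [MonoidHom.mem_ker, IntermediateField.mem_fixingSubgroup_iff]
  constructor
  · intro hσ x hx
    have := resL_apply L σ ⟨x, hx⟩
    rw [hσ] at this
    exact this.symm
  · intro hσ
    ext x
    rw [resL_apply]
    exact hσ x x.2

variable (hp2 : p ≠ 2) (m : ℕ) (h : towerField p m ≤ L)

include h in
theorem ker_resL_le_ker_towerChar : (resL L).ker ≤ (towerChar p hp2 m).ker := by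
  rw [ker_resL, ← fixingSubgroup_towerField' p hp2 m]
  exact IntermediateField.fixingSubgroup_antitone h

/-- **the tower character at the finite level `Gal(L/ℚ)`, `L ⊇ ℚ_m`.** -/
noncomputable def towerCharL : GalL L →* Multiplicative (ZMod (p ^ m)) :=
  (resL L).liftOfSurjective (resL_surjective L)
    ⟨towerChar p hp2 m, ker_resL_le_ker_towerChar p L hp2 m h⟩

theorem towerCharL_resL (σ : GQ) :
    towerCharL p L hp2 m h (resL L σ) = towerChar p hp2 m σ :=
  MonoidHom.liftOfRightInverse_comp_apply _ _ _ _ σ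

theorem towerCharL_comp_resL :
    (towerCharL p L hp2 m h).comp (resL L) = towerChar p hp2 m :=
  MonoidHom.ext (towerCharL_resL p L hp2 m h)

theorem towerCharL_surjective : Function.Surjective (towerCharL p L hp2 m h) := by
  intro k
  obtain ⟨σ, rfl⟩ := towerChar_surjective p hp2 m k
  exact ⟨resL L σ, towerCharL_resL p L hp2 m h σ⟩

/-- the kernel of `towerCharL`: the elements fixing `ℚ_m`. -/
theorem towerCharL_eq_one_iff (g : GalL L) :
    towerCharL p L hp2 m h g = 1 ↔ ∀ x : L, (x : Qbar) ∈ towerField p m → g x = x := by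
  obtain ⟨σ, rfl⟩ := resL_surjective L g
  rw [towerCharL_resL, ← MonoidHom.mem_ker, ← fixingSubgroup_towerField' p hp2 m,
    IntermediateField.mem_fixingSubgroup_iff]
  constructor
  · intro hσ x hx
    apply Subtype.ext
    rw [resL_apply]
    exact hσ x hx
  · intro hσ x hx
    have := hσ ⟨x, h hx⟩ hx
    rw [← resL_apply L σ ⟨x, h hx⟩, this]

/-- composition with `locHom q L` does not depend on `L`. -/
theorem towerCharL_comp_locHom (q : ℕ) [Fact q.Prime] :
    (towerCharL p L hp2 m h).comp (locHom q L) =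
      (towerChar p hp2 m).comp (localGaloisToGlobal q) := by
  rw [locHom, ← MonoidHom.comp_assoc, towerCharL_comp_resL]

/-- **`q ≠ p`: the image of the decomposition group at level `L` is generated by `dlog ⟨q⟩`.** -/
theorem range_towerCharL_comp_locHom (q : ℕ) [hq : Fact q.Prime] (hqp : q ≠ p) :
    ((towerCharL p L hp2 m h).comp (locHom q L)).range =
      Subgroup.zpowers (dlog p hp2 m
        ⟨angle (p := p) m q ((Nat.coprime_primes hq.out hp.out).2 hqp), angle_mem_Gamma m q _⟩) := by
  rw [towerCharL_comp_locHom, range_towerChar_comp_local p q hp2 m hqp]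

/-- **`q = p`: the tower character is onto on the decomposition group at level `L`.** -/
theorem towerCharL_comp_locHom_surjective :
    Function.Surjective ((towerCharL p L hp2 m h).comp (locHom p L)) := by
  rw [towerCharL_comp_locHom]
  exact towerChar_comp_local_surjective p hp2 m

/-- **lift compatibility at level `L`** (`L ⊇ ℚ_{m+s}`). -/
theorem towerCharL_lift (s : ℕ) (h' : towerField p (m + s) ≤ L) (g : GalL L) :
    (chiVal (towerCharL p L hp2 m h) g).val =
      (chiVal (towerCharL p L hp2 (m + s) h') g).val % p ^ m := by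
  obtain ⟨σ, rfl⟩ := resL_surjective L g
  rw [chiVal, chiVal, towerCharL_resL, towerCharL_resL]
  exact towerChar_lift p hp2 m s σ

/-- the level `m + s` character at level `L` with values in `Multiplicative (ℤ/(p^m * p^s))`. -/
noncomputable def towerCharMulL (s : ℕ) (h' : towerField p (m + s) ≤ L) :
    GalL L →* Multiplicative (ZMod (p ^ m * p ^ s)) :=
  (AddMonoidHom.toMultiplicative
    (ZMod.ringEquivCongr (pow_add p m s)).toAddMonoidHom).comp (towerCharL p L hp2 (m + s) h')

theorem towerCharMulL_resL (s : ℕ) (h' : towerField p (m + s) ≤ L) (σ : GQ) :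
    towerCharMulL p L hp2 m s h' (resL L σ) = towerCharMul p hp2 m s σ := by
  rw [towerCharMulL, MonoidHom.comp_apply, towerCharL_resL]
  rfl

/-- **lift compatibility at level `L`, `p^m * p^s` form** (`hlift` of
`CycloRecip37.DescendK.S_carry_eq_zero`). -/
theorem towerCharMulL_lift (s : ℕ) (h' : towerField p (m + s) ≤ L) (g : GalL L) :
    (chiVal (towerCharL p L hp2 m h) g).val =
      (chiVal (towerCharMulL p L hp2 m s h') g).val % p ^ m := by
  obtain ⟨σ, rfl⟩ := resL_surjective L g
  rw [chiVal, chiVal, towerCharL_resL, towerCharMulL_resL]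
  exact towerCharMul_lift p hp2 m s σ

/-- value on the restriction of a Frobenius at `q ≠ p`. -/
theorem towerCharL_of_isFrobeniusAt {q : ℕ} (hq : q.Prime) (hqp : q ≠ p)
    (A : ValuationSubring Qb) (hA : A.LiesOverPrime q) {σ : GQ} (hσ : A.IsFrobeniusAt σ q) :
    towerCharL p L hp2 m h (resL L σ) =
      dlog p hp2 m ⟨angle (p := p) m q ((Nat.coprime_primes hq hp.out).2 hqp),
        angle_mem_Gamma m q _⟩ := by
  rw [towerCharL_resL]
  exact towerChar_of_isFrobeniusAt p hp2 m hq hqp A hA hσ

end Level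

end Fermat.Agent.S55.CycloGlobal87
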