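/-
S55 leaf 34k-TOWER-OVER-K (helper87): the RE-INDEXED tower character over a level field `K`.

The global tower character `χ_M` restricted to `H = Gal(Ω/K)` is not onto when
`K ∩ ℚ_∞ = ℚ_j ≠ ℚ`: its image is `p^j · ℤ/p^M`.  Dividing by `p^j` gives a character of `H` ONTO
`ℤ/p^m`, `m = M - j`, with the same kernel and — by `GlobalInv91.carry_eq_of_val_eq_mul` — the SAME
carry cocycles.  This is the seam between the sum formula of 34 (stated for the restricted global
character) and the tower lemma of 35 (stated for an onto character with `chiVal χ s = 1`).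

Part 1: pure group theory (`divChar`).  Part 2: the instance for `towerCharL` on subgroups of
`GalL Ω` (helper73's vocabulary).
-/
import Mathlib
import Fermat.Agent.S55.CycloGlobal87.Level

set_option autoImplicit false

namespace Fermat.Agent.S55.CycloGlobal87

open Fermat.Agent.S55.GlobalInv91

/-! ### Part 1: dividing a character by `p^j` -/

section DivChar

universe u

variable {p : ℕ} [hp : Fact p.Prime] {H : Type u} [Group H]

/-- a natural number computation: for `x`, `y` divisible by `d`,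
`((x + y) % (d * n)) / d ≡ x / d + y / d (mod n)`. -/
theorem div_add_mod_aux {d n x y : ℕ} (hd : 0 < d) (hx : d ∣ x) (hy : d ∣ y) :
    ((x + y) % (d * n)) / d = (x / d + y / d) % n := by
  obtain ⟨x', rfl⟩ := hx
  obtain ⟨y', rfl⟩ := hy
  rw [← mul_add, Nat.mul_mod_mul_left, Nat.mul_div_cancel_left _ hd, Nat.mul_div_cancel_left _ hd,
    Nat.mul_div_cancel_left _ hd]

variable (j m : ℕ) (χ : H →* Multiplicative (ZMod (p ^ j * p ^ m)))
  (hdiv : ∀ h : H, p ^ j ∣ (chiVal χ h).val)

/-- **the character `χ / p^j`** of a character `χ` to `ℤ/(p^j * p^m)` with values in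
`p^j · ℤ/(p^j * p^m)`. -/
noncomputable def divChar : H →* Multiplicative (ZMod (p ^ m)) where
  toFun h := Multiplicative.ofAdd ((((chiVal χ h).val / p ^ j : ℕ) : ZMod (p ^ m)))
  map_one' := by
    rw [chiVal_one, ZMod.val_zero, Nat.zero_div, Nat.cast_zero, ofAdd_zero]
  map_mul' a b := by
    rw [← ofAdd_add, chiVal_mul, ZMod.val_add,
      div_add_mod_aux (pow_pos hp.out.pos j) (hdiv a) (hdiv b)]
    congr 1
    rw [← Nat.cast_add, ZMod.natCast_mod]

theorem chiVal_divChar (h : H) :
    chiVal (divChar j m χ hdiv) h = (((chiVal χ h).val / p ^ j : ℕ) : ZMod (p ^ m)) := rfl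

theorem val_chiVal_divChar (h : H) :
    (chiVal (divChar j m χ hdiv) h).val = (chiVal χ h).val / p ^ j := by
  rw [chiVal_divChar, ZMod.val_natCast_of_lt]
  rw [Nat.div_lt_iff_lt_mul (pow_pos hp.out.pos j)]
  have := ZMod.val_lt (chiVal χ h)
  calc (chiVal χ h).val < p ^ j * p ^ m := this
    _ = p ^ m * p ^ j := mul_comm _ _

/-- **`χ = p^j · (χ / p^j)`**: the hypothesis `h` of `GlobalInv91.carry_eq_of_val_eq_mul` with
`d = p^j`, `n = p^m`. -/
theorem val_eq_mul_val_divChar (h : H) :
    (chiVal χ h).val = p ^ j * (chiVal (divChar j m χ hdiv) h).val := by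
  rw [val_chiVal_divChar, Nat.mul_div_cancel' (hdiv h)]

theorem divChar_eq_one_iff (h : H) : divChar j m χ hdiv h = 1 ↔ χ h = 1 := by
  have e1 : divChar j m χ hdiv h = 1 ↔ (chiVal (divChar j m χ hdiv) h).val = 0 := by
    rw [ZMod.val_eq_zero]
    exact ⟨fun h1 => by rw [chiVal, h1, toAdd_one], fun h1 => by
      have : Multiplicative.ofAdd (chiVal (divChar j m χ hdiv) h) = Multiplicative.ofAdd 0 := by
        rw [h1]
      simpa [chiVal] using this⟩
  have e2 : χ h = 1 ↔ (chiVal χ h).val = 0 := by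
    rw [ZMod.val_eq_zero]
    exact ⟨fun h1 => by rw [chiVal, h1, toAdd_one], fun h1 => by
      have : Multiplicative.ofAdd (chiVal χ h) = Multiplicative.ofAdd 0 := by rw [h1]
      simpa [chiVal] using this⟩
  rw [e1, e2, val_eq_mul_val_divChar j m χ hdiv h, mul_eq_zero]
  constructor
  · intro h0; exact Or.inr h0
  · rintro (h0 | h0)
    · exact absurd h0 (pow_ne_zero _ hp.out.ne_zero)
    · exact h0

/-- **same kernel.** -/
theorem ker_divChar : (divChar j m χ hdiv).ker = χ.ker := by
  ext h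
  rw [MonoidHom.mem_ker, MonoidHom.mem_ker, divChar_eq_one_iff]

/-- **`χ / p^j` is onto** as soon as some value of `χ` is not divisible by `p^(j+1)`. -/
theorem divChar_surjective (hex : ∃ h : H, ¬ p ^ (j + 1) ∣ (chiVal χ h).val) :
    Function.Surjective (divChar j m χ hdiv) := by
  obtain ⟨h₀, hh₀⟩ := hex
  -- the value at `h₀` is a unit of `ZMod (p^m)`
  have hcop : Nat.Coprime (chiVal (divChar j m χ hdiv) h₀).val (p ^ m) := by
    apply Nat.Coprime.pow_right
    rw [Nat.coprime_comm, Nat.Prime.coprime_iff_not_dvd hp.out]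
    intro hd
    apply hh₀
    rw [val_eq_mul_val_divChar j m χ hdiv h₀, pow_succ]
    exact Nat.mul_dvd_mul_left _ hd
  intro x
  -- solve `k * v ≡ x`
  set v := (chiVal (divChar j m χ hdiv) h₀).val with hv
  have hunit : IsUnit ((v : ℕ) : ZMod (p ^ m)) := (ZMod.isUnit_iff_coprime _ _).mpr hcop
  obtain ⟨u, hu⟩ := hunit
  refine ⟨h₀ ^ ((↑u⁻¹ * Multiplicative.toAdd x : ZMod (p ^ m))).val, ?_⟩
  apply Multiplicative.toAdd.injective
  rw [map_pow, toAdd_pow]
  have hval : Multiplicative.toAdd (divChar j m χ hdiv h₀) = ((v : ℕ) : ZMod (p ^ m)) := by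
    rw [hv]
    exact (ZMod.natCast_zmod_val _).symm
  rw [hval, ← hu, nsmul_eq_mul, ZMod.natCast_zmod_val]
  rw [mul_comm, ← mul_assoc, Units.mul_inv, one_mul]

/-- an element mapped to the generator `1`. -/
theorem exists_chiVal_divChar_eq_one (hex : ∃ h : H, ¬ p ^ (j + 1) ∣ (chiVal χ h).val) :
    ∃ s : H, chiVal (divChar j m χ hdiv) s = 1 := by
  obtain ⟨s, hs⟩ := divChar_surjective j m χ hdiv hex (Multiplicative.ofAdd 1)
  exact ⟨s, by rw [chiVal, hs, toAdd_ofAdd]⟩

/-- **the carry cocycles of `χ` and of `χ / p^j` coincide.** -/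
theorem carry_divChar {k : Type u} [CommRing k] (C : Rep k H) (a : C) :
    carry C χ a = carry C (divChar j m χ hdiv) a :=
  carry_eq_of_val_eq_mul C (divChar j m χ hdiv) χ (val_eq_mul_val_divChar j m χ hdiv) a

end DivChar

/-! ### lifts -/

section DivLift

universe u

variable {p : ℕ} [hp : Fact p.Prime] {H : Type u} [Group H]

/-- **lift compatibility of the divided characters**: if `χ'` (level `p^j * p^(m+s)`) lifts `χ`
(level `p^j * p^m`) then `χ' / p^j` lifts `χ / p^j`. -/
theorem divChar_lift (j m s : ℕ) (χ : H →* Multiplicative (ZMod (p ^ j * p ^ m)))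
    (hdiv : ∀ h : H, p ^ j ∣ (chiVal χ h).val)
    (χ' : H →* Multiplicative (ZMod (p ^ j * p ^ (m + s))))
    (hdiv' : ∀ h : H, p ^ j ∣ (chiVal χ' h).val)
    (hlift : ∀ h : H, (chiVal χ h).val = (chiVal χ' h).val % (p ^ j * p ^ m)) (h : H) :
    (chiVal (divChar j m χ hdiv) h).val =
      (chiVal (divChar j (m + s) χ' hdiv') h).val % p ^ m := by
  rw [val_chiVal_divChar, val_chiVal_divChar, hlift h]
  obtain ⟨x', hx'⟩ := hdiv' h
  rw [hx', Nat.mul_mod_mul_left, Nat.mul_div_cancel_left _ (pow_pos hp.out.pos j),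
    Nat.mul_div_cancel_left _ (pow_pos hp.out.pos j)]

end DivLift

/-! ### Part 2: the tower character over a level field `K = Ω^H` -/

section OverK

open Fermat.Agent.Lib.FrobeniusExists Fermat.Agent.S55.CycloRecip90

open Fermat.Agent.S55.Idele73.Basic (Qbar GalL resL resL_apply resL_surjective locHom)

variable (p : ℕ) [hp : Fact p.Prime] (hp2 : p ≠ 2)

/-- lift compatibility of `towerChar`, `m ≤ n` form. -/
theorem towerChar_lift_le {m n : ℕ} (hmn : m ≤ n) (σ : GQ) :
    (chiVal (towerChar p hp2 m) σ).val = (chiVal (towerChar p hp2 n) σ).val % p ^ m := by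
  obtain ⟨s, rfl⟩ := Nat.exists_eq_add_of_le hmn
  exact towerChar_lift p hp2 m s σ

variable (Ω : IntermediateField ℚ Qbar) [Normal ℚ Ω]

/-- lift compatibility of `towerCharL`, `m ≤ n` form. -/
theorem towerCharL_lift_le {m n : ℕ} (hmn : m ≤ n) (hn : towerField p n ≤ Ω) (g : GalL Ω) :
    (chiVal (towerCharL p Ω hp2 m ((towerField_mono p hmn).trans hn)) g).val =
      (chiVal (towerCharL p Ω hp2 n hn) g).val % p ^ m := by
  obtain ⟨σ, rfl⟩ := resL_surjective Ω g
  rw [chiVal, chiVal, towerCharL_resL, towerCharL_resL]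
  exact towerChar_lift_le p hp2 hmn σ

theorem val_chiVal_towerCharMulL (j m : ℕ) (h : towerField p (j + m) ≤ Ω) (g : GalL Ω) :
    (chiVal (towerCharMulL p Ω hp2 j m h) g).val =
      (chiVal (towerCharL p Ω hp2 (j + m) h) g).val := by
  change (ZMod.ringEquivCongr (pow_add p j m) (chiVal (towerCharL p Ω hp2 (j + m) h) g)).val = _
  exact ZMod.ringEquivCongr_val _ _

theorem towerCharL_eq_one_iff_val (m : ℕ) (h : towerField p m ≤ Ω) (g : GalL Ω) :
    towerCharL p Ω hp2 m h g = 1 ↔ (chiVal (towerCharL p Ω hp2 m h) g).val = 0 := by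
  rw [ZMod.val_eq_zero]
  exact ⟨fun h1 => by rw [chiVal, h1, toAdd_one], fun h1 => by
    have : Multiplicative.ofAdd (chiVal (towerCharL p Ω hp2 m h) g) = Multiplicative.ofAdd 0 := by
      rw [h1]
    simpa [chiVal] using this⟩

/-- `g` fixes `ℚ_j` iff `p^j` divides the value of the level `j + m` character at `g`. -/
theorem towerCharL_eq_one_iff_dvd (j m : ℕ) (h : towerField p (j + m) ≤ Ω) (g : GalL Ω) :
    towerCharL p Ω hp2 j ((towerField_mono p (Nat.le_add_right j m)).trans h) g = 1 ↔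
      p ^ j ∣ (chiVal (towerCharMulL p Ω hp2 j m h) g).val := by
  rw [towerCharL_eq_one_iff_val, towerCharL_lift_le p hp2 Ω (Nat.le_add_right j m) h g,
    val_chiVal_towerCharMulL, Nat.dvd_iff_mod_eq_zero]

variable (H : Subgroup (GalL Ω)) (j m : ℕ) (h : towerField p (j + m) ≤ Ω)
  (hj : ∀ g ∈ H, towerCharL p Ω hp2 j ((towerField_mono p (Nat.le_add_right j m)).trans h) g = 1)

/-- **the tower character over `K = Ω^H`, `K ⊇ ℚ_j`**: the level `j + m` global tower character on
`H = Gal(Ω/K)`, divided by `p^j`. -/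
noncomputable def towerCharK : H →* Multiplicative (ZMod (p ^ m)) :=
  divChar j m ((towerCharMulL p Ω hp2 j m h).comp H.subtype)
    (fun g => (towerCharL_eq_one_iff_dvd p hp2 Ω j m h (g : GalL Ω)).mp (hj g g.2))

/-- **value relation**: `χ_{j+m}(g) = p^j · χ^K_m(g)`. -/
theorem val_towerCharMulL_eq (g : H) :
    (chiVal (towerCharMulL p Ω hp2 j m h) (g : GalL Ω)).val =
      p ^ j * (chiVal (towerCharK p hp2 Ω H j m h hj) g).val :=
  val_eq_mul_val_divChar j m ((towerCharMulL p Ω hp2 j m h).comp H.subtype) _ g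

/-- **kernel**: the elements of `H` fixing `ℚ_{j+m}`. -/
theorem towerCharK_eq_one_iff (g : H) :
    towerCharK p hp2 Ω H j m h hj g = 1 ↔ towerCharL p Ω hp2 (j + m) h (g : GalL Ω) = 1 := by
  rw [towerCharK, divChar_eq_one_iff, MonoidHom.comp_apply, Subgroup.coe_subtype,
    towerCharL_eq_one_iff_val]
  have e : towerCharMulL p Ω hp2 j m h (g : GalL Ω) = 1 ↔
      (chiVal (towerCharMulL p Ω hp2 j m h) (g : GalL Ω)).val = 0 := by
    rw [ZMod.val_eq_zero]
    exact ⟨fun h1 => by rw [chiVal, h1, toAdd_one], fun h1 => by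
      have : Multiplicative.ofAdd (chiVal (towerCharMulL p Ω hp2 j m h) (g : GalL Ω)) =
          Multiplicative.ofAdd 0 := by rw [h1]
      simpa [chiVal] using this⟩
  rw [e, val_chiVal_towerCharMulL]

/-- **the tower character over `K` is onto** when `K ⊉ ℚ_{j+1}` (and `m ≥ 1`). -/
theorem towerCharK_surjective (hm : 1 ≤ m)
    (hex : ∃ g ∈ H, towerCharL p Ω hp2 (j + 1)
      ((towerField_mono p (Nat.add_le_add_left hm j)).trans h) g ≠ 1) :
    Function.Surjective (towerCharK p hp2 Ω H j m h hj) := by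
  apply divChar_surjective
  obtain ⟨g, hg, hne⟩ := hex
  refine ⟨⟨g, hg⟩, fun hd => hne ?_⟩
  rw [towerCharL_eq_one_iff_val, towerCharL_lift_le p hp2 Ω (Nat.add_le_add_left hm j) h g,
    ← val_chiVal_towerCharMulL]
  have hd' : p ^ (j + 1) ∣ (chiVal (towerCharMulL p Ω hp2 j m h) g).val := hd
  exact Nat.mod_eq_zero_of_dvd hd'

theorem exists_chiVal_towerCharK_eq_one (hm : 1 ≤ m)
    (hex : ∃ g ∈ H, towerCharL p Ω hp2 (j + 1)
      ((towerField_mono p (Nat.add_le_add_left hm j)).trans h) g ≠ 1) :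
    ∃ s : H, chiVal (towerCharK p hp2 Ω H j m h hj) s = 1 := by
  obtain ⟨s, hs⟩ := towerCharK_surjective p hp2 Ω H j m h hj hm hex (Multiplicative.ofAdd 1)
  exact ⟨s, by rw [chiVal, hs, toAdd_ofAdd]⟩

/-- **the carry cocycles over `K`**: those of the restricted global character of level `j + m`
(the objects of the sum formula of 34) are those of the onto character `towerCharK`
(the objects of the tower lemma of 35). -/
theorem carry_towerCharK {k : Type} [CommRing k] (C : Rep k H) (a : C) :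
    carry C ((towerCharMulL p Ω hp2 j m h).comp H.subtype) a =
      carry C (towerCharK p hp2 Ω H j m h hj) a :=
  carry_divChar j m _ _ C a

/-- **lift compatibility over `K`** (the `hlift` of `S_carry_eq_zero` /
`carry_lift_sub_carry_isCob₂` for the re-indexed family, `p^(m+s)` form). -/
theorem towerCharK_lift (s : ℕ) (h' : towerField p (j + (m + s)) ≤ Ω)
    (hj' : ∀ g ∈ H, towerCharL p Ω hp2 j
      ((towerField_mono p (Nat.le_add_right j (m + s))).trans h') g = 1) (g : H) :
    (chiVal (towerCharK p hp2 Ω H j m h hj) g).val =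
      (chiVal (towerCharK p hp2 Ω H j (m + s) h' hj') g).val % p ^ m := by
  apply divChar_lift
  intro g
  change (chiVal (towerCharMulL p Ω hp2 j m h) (g : GalL Ω)).val =
    (chiVal (towerCharMulL p Ω hp2 j (m + s) h') (g : GalL Ω)).val % (p ^ j * p ^ m)
  rw [val_chiVal_towerCharMulL, val_chiVal_towerCharMulL, ← pow_add]
  have hle : j + m ≤ j + (m + s) := by omega
  exact towerCharL_lift_le p hp2 Ω hle h' (g : GalL Ω)

end OverK

/-! ### the level of `K ∩ ℚ_∞` inside `ℚ_M` -/

section Level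

open Fermat.Agent.Lib.FrobeniusExists

open Fermat.Agent.S55.Idele73.Basic (Qbar GalL resL resL_apply resL_surjective locHom)

variable (p : ℕ) [hp : Fact p.Prime] (hp2 : p ≠ 2)
  (Ω : IntermediateField ℚ Qbar) [Normal ℚ Ω] (H : Subgroup (GalL Ω))

theorem towerChar_zero (σ : GQ) : towerChar p hp2 0 σ = 1 := by
  haveI : Subsingleton (ZMod (p ^ 0)) := by
    rw [pow_zero]; infer_instance
  exact Multiplicative.toAdd.injective (Subsingleton.elim _ _)

/-- **the level `j` of `K ∩ ℚ_∞` inside `ℚ_M`** (`K = Ω^H`, `ℚ_M ⊆ Ω`): `H` fixes `ℚ_j`, and if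
`j < M` then `H` does not fix `ℚ_{j+1}`. -/
theorem exists_towerLevel (M : ℕ) (hM : towerField p M ≤ Ω) :
    ∃ (j : ℕ) (hjM : j ≤ M),
      (∀ g ∈ H, towerCharL p Ω hp2 j ((towerField_mono p hjM).trans hM) g = 1) ∧
      ∀ hlt : j + 1 ≤ M, ∃ g ∈ H,
        towerCharL p Ω hp2 (j + 1) ((towerField_mono p hlt).trans hM) g ≠ 1 := by
  classical
  let P : ℕ → Prop := fun j => ∀ σ : GQ, resL Ω σ ∈ H → towerChar p hp2 j σ = 1
  have hP0 : P 0 := fun σ _ => towerChar_zero p hp2 σ
  have hspec : P (Nat.findGreatest P M) := Nat.findGreatest_spec (Nat.zero_le M) hP0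
  have hle : Nat.findGreatest P M ≤ M := Nat.findGreatest_le M
  refine ⟨Nat.findGreatest P M, hle, ?_, ?_⟩
  · intro g hg
    obtain ⟨σ, rfl⟩ := resL_surjective Ω g
    rw [towerCharL_resL]
    exact hspec σ hg
  · intro hlt
    have hnot : ¬ P (Nat.findGreatest P M + 1) :=
      Nat.findGreatest_is_greatest (Nat.lt_succ_self _) hlt
    simp only [P, not_forall] at hnot
    obtain ⟨σ, hσH, hσ⟩ := hnot
    refine ⟨resL Ω σ, hσH, ?_⟩
    rw [towerCharL_resL]
    exact hσ

end Level

end Fermat.Agent.S55.CycloGlobal87
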