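/-
S55 leaf 35b-CROSSING-LAYER (helper87, for helper91's 35-GEN instantiation): the crossing layer
`L·K_m / K` of a layer `L/K` with the cyclotomic tower layer `K_m/K`.

Part A (pure group theory): `G` a group (`Gal(Ω/K)`), `ψ : G →* Multiplicative (ZMod n)` an ONTO
character (`towerCharK`), `Z = ker ψ` (`Gal(Ω/K_m)`), `U ⊴ G` (`Gal(Ω/L)`), `V := U ⊓ Z`
(`Gal(Ω/L·K_m)`): `V ⊴ G`, `V ≤ U`, the character `χ` of `G ⧸ V` induced by `ψ` (onto, with an `s`,
`chiVal χ s = 1`, kernel `Z ⧸ V`), `U ⧸ V = subQ U V ↪ G ⧸ Z` is a cyclic group of order dividing `n`,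
`(subQ U V).index = U.index`.  These are the group-theoretic binders of
`GlobalInv91.alpha_trans / reciprocity_trans / hasse_trans`.

Part B (fields): the level `j` of `K ∩ ℚ_∞` is bounded by the `p`-part of `[K : ℚ]`
(`p^j ∣ H.index`), hence for every `e ≥ 1` and every level `Ω ⊇ ℚ_M`, `M ≥ v_p([K:ℚ]) + e`, the tower
character over `K` of level `e` exists on `H = Gal(Ω/K)` and is ONTO `ℤ/p^e`.
-/
import Mathlib
import Fermat.Agent.S55.CycloGlobal87.OverK
import Fermat.Agent.S55.GlobalInv91.DoubleQuot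

set_option autoImplicit false

namespace Fermat.Agent.S55.CycloGlobal87

open Fermat.Agent.S55.GlobalInv91

/-! ### Part A: group theory of the crossing layer -/

section Group

universe u

variable {G : Type u} [Group G] {n : ℕ} (ψ : G →* Multiplicative (ZMod n))

/-- the subgroup `V = U ⊓ ker ψ` (`↔ L·K_m`). -/
def crossV (U : Subgroup G) : Subgroup G := U ⊓ ψ.ker

instance crossV_normal (U : Subgroup G) [U.Normal] : (crossV ψ U).Normal := by
  unfold crossV; infer_instance

theorem crossV_le_left (U : Subgroup G) : crossV ψ U ≤ U := inf_le_left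

theorem crossV_le_ker (U : Subgroup G) : crossV ψ U ≤ ψ.ker := inf_le_right

theorem mem_crossV_iff (U : Subgroup G) (g : G) : g ∈ crossV ψ U ↔ g ∈ U ∧ ψ g = 1 := by
  rw [crossV, Subgroup.mem_inf, MonoidHom.mem_ker]

variable (V : Subgroup G) [V.Normal] (hV : V ≤ ψ.ker)

/-- the character of `G ⧸ V` induced by `ψ` (`V ≤ ker ψ`). -/
def quotChar : G ⧸ V →* Multiplicative (ZMod n) := QuotientGroup.lift V ψ hV

@[simp] theorem quotChar_mk (g : G) : quotChar ψ V hV (g : G ⧸ V) = ψ g := rfl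

theorem chiVal_quotChar_mk (g : G) : chiVal (quotChar ψ V hV) (g : G ⧸ V) = chiVal ψ g := rfl

theorem quotChar_surjective (hψ : Function.Surjective ψ) :
    Function.Surjective (quotChar ψ V hV) := fun x => by
  obtain ⟨g, rfl⟩ := hψ x
  exact ⟨(g : G ⧸ V), rfl⟩

/-- an element `s` of `G ⧸ V` with `chiVal χ s = 1`. -/
theorem exists_chiVal_quotChar_eq_one (hψ : Function.Surjective ψ) :
    ∃ s : G ⧸ V, chiVal (quotChar ψ V hV) s = 1 := by
  obtain ⟨s, hs⟩ := quotChar_surjective ψ V hV hψ (Multiplicative.ofAdd 1)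
  exact ⟨s, by rw [chiVal, hs, toAdd_ofAdd]⟩

/-- the kernel of the induced character is `Z ⧸ V`. -/
theorem ker_quotChar : (quotChar ψ V hV).ker = subQ ψ.ker V := by
  ext x
  induction x using QuotientGroup.induction_on with
  | H g =>
    rw [MonoidHom.mem_ker, quotChar_mk, Subgroup.mem_map]
    constructor
    · intro hg
      exact ⟨g, MonoidHom.mem_ker.mpr hg, rfl⟩
    · rintro ⟨g', hg', hgg'⟩
      have : quotChar ψ V hV ((QuotientGroup.mk' V) g') = quotChar ψ V hV (g : G ⧸ V) := by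
        rw [hgg']
      rw [QuotientGroup.mk'_apply, quotChar_mk, quotChar_mk, MonoidHom.mem_ker.mp hg'] at this
      exact this.symm

variable (U : Subgroup G) [U.Normal]

/-- **`U ⧸ V ↪ G ⧸ Z`**: the induced character is injective on `U ⧸ V` for `V = U ⊓ ker ψ`. -/
theorem quotChar_injOn_subQ :
    Function.Injective ((quotChar ψ (crossV ψ U) (crossV_le_ker ψ U)).comp
      (subQ U (crossV ψ U)).subtype) := by
  rw [injective_iff_map_eq_one]
  rintro ⟨x, hx⟩ hx1
  obtain ⟨u, hu, rfl⟩ := hx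
  apply Subtype.ext
  rw [MonoidHom.comp_apply, Subgroup.coe_subtype] at hx1
  change quotChar ψ (crossV ψ U) (crossV_le_ker ψ U) ((u : G ⧸ crossV ψ U)) = 1 at hx1
  rw [quotChar_mk] at hx1
  change ((u : G) : G ⧸ crossV ψ U) = 1
  rw [QuotientGroup.eq_one_iff, mem_crossV_iff]
  exact ⟨hu, hx1⟩

/-- **`U ⧸ V` is cyclic** (a subgroup of `ℤ/n`). -/
theorem isCyclic_subQ_crossV : IsCyclic (subQ U (crossV ψ U)) :=
  isCyclic_of_injective _ (quotChar_injOn_subQ ψ U)

/-- the order of `U ⧸ V` divides `n`. -/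
theorem card_subQ_crossV_dvd [NeZero n] : Nat.card (subQ U (crossV ψ U)) ∣ n := by
  have h := Subgroup.card_dvd_of_injective _ (quotChar_injOn_subQ ψ U)
  have hc : Nat.card (Multiplicative (ZMod n)) = n := by
    rw [Nat.card_eq_fintype_card, Fintype.card_multiplicative, ZMod.card]
  rwa [hc] at h

/-- **`[G ⧸ V : U ⧸ V] = [G : U]`.** -/
theorem index_subQ_crossV : (subQ U (crossV ψ U)).index = U.index := by
  apply Subgroup.index_map_eq _ (QuotientGroup.mk'_surjective _)
  rw [QuotientGroup.ker_mk']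
  exact crossV_le_left ψ U

end Group

/-! ### Part B: the tower layer over `K` exists and is onto -/

section Field

open Fermat.Agent.Lib.FrobeniusExists

open Fermat.Agent.S55.Idele73.Basic (Qbar GalL resL resL_apply resL_surjective locHom)

variable (p : ℕ) [hp : Fact p.Prime] (hp2 : p ≠ 2)
  (Ω : IntermediateField ℚ Qbar) [Normal ℚ Ω] (H : Subgroup (GalL Ω))

/-- the index of the kernel of the level `j` tower character in `Gal(Ω/ℚ)` is `p^j`. -/
theorem index_ker_towerCharL (j : ℕ) (h : towerField p j ≤ Ω) :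
    (towerCharL p Ω hp2 j h).ker.index = p ^ j := by
  rw [Subgroup.index_ker, MonoidHom.range_eq_top.mpr (towerCharL_surjective p Ω hp2 j h),
    Subgroup.card_top, Nat.card_eq_fintype_card, Fintype.card_multiplicative, ZMod.card]

/-- **(B2) `ℚ_j ⊆ K ⟹ p^j ∣ [K : ℚ]`**: the level of `K ∩ ℚ_∞` is bounded by the `p`-part of the
index of `H = Gal(Ω/K)`, independently of `Ω`. -/
theorem pow_dvd_index_of_towerCharL_eq_one (j : ℕ) (h : towerField p j ≤ Ω)
    (hj : ∀ g ∈ H, towerCharL p Ω hp2 j h g = 1) : p ^ j ∣ H.index := by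
  rw [← index_ker_towerCharL p hp2 Ω j h]
  exact Subgroup.index_dvd_of_le fun g hg => MonoidHom.mem_ker.mpr (hj g hg)

/-- **(B1)+(B2): the tower layer of degree `p^e` over `K = Ω^H` exists inside `Ω` as soon as
`Ω ⊇ ℚ_M` with `M ≥ (p-adic valuation of [K:ℚ]) + e`**: an ONTO character
`towerCharK … : H →* Multiplicative (ℤ/p^e)`. -/
theorem exists_onto_towerCharK (e : ℕ) (he : 1 ≤ e) (M : ℕ) (hM : towerField p M ≤ Ω)
    (hbound : ∀ j : ℕ, p ^ j ∣ H.index → j + e ≤ M) :
    ∃ (j : ℕ) (hje : j + e ≤ M)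
      (hj : ∀ g ∈ H, towerCharL p Ω hp2 j
        ((towerField_mono p (Nat.le_add_right j e)).trans
          ((towerField_mono p hje).trans hM)) g = 1),
      Function.Surjective
        (towerCharK p hp2 Ω H j e ((towerField_mono p hje).trans hM) hj) := by
  obtain ⟨j, hjM, hj, hex⟩ := exists_towerLevel p hp2 Ω H M hM
  have hdvd : p ^ j ∣ H.index := pow_dvd_index_of_towerCharL_eq_one p hp2 Ω H j _ hj
  have hje : j + e ≤ M := hbound j hdvd
  refine ⟨j, hje, hj, ?_⟩
  apply towerCharK_surjective p hp2 Ω H j e _ hj he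
  have hlt : j + 1 ≤ M := le_trans (Nat.add_le_add_left he j) hje
  exact hex hlt

end Field

end Fermat.Agent.S55.CycloGlobal87
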