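/-
S55 leaf 35j3-TOWER-LOCAL-DEG (helper87): the local degrees of the cyclotomic tower layer over a
level field `K` are divisible by arbitrarily large powers of `p` at EVERY prime `q` (including `q = p`
and the primes outside `S`), in the double-coset (`Mackey.twSub`) vocabulary of the idele module:
the producer of `hdeg` of (J3) (`Shapiro9.JSplit.rsMap_eq_zero_of_nsmul_eq_zero`,
`DegSum22.Bridge.rsMap_eq_zero_of_dvd`) and of `hpow` of (J3-ℤ)
(`IdeleCoh54.UnrLocal.res_isCob₂_of_nsmul`).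

Part 1: pure group theory.  Part 2: the image of the decomposition group at `q` under the level `M`
tower character has order divisible by `p^r` for `M ≥ M₀(p, q, r)` (independent of the level field
`Ω`).  Part 3: the consumer shapes.
-/
import Mathlib
import Fermat.Agent.S55.CycloGlobal87.Crossing
import Fermat.Agent.S55.Idele73.Mackey
import Fermat.Agent.S55.Idele73.Local
import Fermat.Agent.S55.CycloTower46.Arith

set_option autoImplicit false

namespace Fermat.Agent.S55.CycloGlobal87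

/-! ### Part 1: group theory -/

section Group

variable {G C : Type*} [Group G] [Group C] (χ : G →* C)

/-- `[A : A ∩ ker χ] = |χ(A)|`. -/
theorem relIndex_inf_ker (A : Subgroup G) : (A ⊓ χ.ker).relIndex A = Nat.card (A.map χ) := by
  rw [Subgroup.inf_relIndex_left, Subgroup.relIndex_ker]

/-- **the core estimate**: `C` a finite `p`-group, `D, H ≤ G`, `p^a ∣ [D : D ∩ ker χ]` and
`[D : H ∩ D] < p^(t+1)`; then `p^(a-t) ∣ [H ∩ D : H ∩ ker χ ∩ D]`. -/
theorem pow_dvd_relIndex_ker_inf {p : ℕ} [hp : Fact p.Prime] [Finite C] (hC : IsPGroup p C)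
    (D H : Subgroup G) {a t : ℕ} (ha : p ^ a ∣ χ.ker.relIndex D) (ht0 : H.relIndex D ≠ 0)
    (ht : H.relIndex D < p ^ (t + 1)) :
    p ^ (a - t) ∣ (H ⊓ χ.ker ⊓ D).relIndex (H ⊓ D) := by
  set K := χ.ker with hK
  set B := H ⊓ D with hB
  have e0 : H ⊓ K ⊓ D = B ⊓ K := by rw [hB, inf_right_comm]
  rw [e0]
  -- `[B : B ∩ K]` is a power of `p`
  obtain ⟨b, hb⟩ : ∃ b : ℕ, (B ⊓ K).relIndex B = p ^ b := by
    rw [relIndex_inf_ker]
    exact (IsPGroup.iff_card.mp (hC.to_subgroup (B.map χ)))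
  rw [hb]
  -- the two factorisations of `[D : B ∩ K]`
  have h1 : (B ⊓ K).relIndex B * B.relIndex D = (B ⊓ K).relIndex D :=
    Subgroup.relIndex_mul_relIndex _ _ _ inf_le_left inf_le_right
  have h2 : (B ⊓ K).relIndex (D ⊓ K) * (D ⊓ K).relIndex D = (B ⊓ K).relIndex D :=
    Subgroup.relIndex_mul_relIndex _ _ _ (inf_le_inf_right K inf_le_right) inf_le_left
  have h3 : (D ⊓ K).relIndex D = K.relIndex D := Subgroup.inf_relIndex_left D K
  have h4 : B.relIndex D = H.relIndex D := Subgroup.inf_relIndex_right H D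
  have h5 : p ^ a ∣ p ^ b * H.relIndex D := by
    rw [← h4, ← hb, h1, ← h2, h3]
    exact Dvd.dvd.mul_left ha _
  -- conclude
  apply pow_dvd_pow
  by_contra hlt
  push Not at hlt
  have hba : b ≤ a := by omega
  have h6 : p ^ (a - b) ∣ H.relIndex D := by
    have : p ^ b * p ^ (a - b) ∣ p ^ b * H.relIndex D := by
      rw [← pow_add, Nat.add_sub_cancel' hba]
      exact h5
    exact (Nat.mul_dvd_mul_iff_left (pow_pos hp.out.pos b)).mp this
  have h7 : p ^ (a - b) ≤ H.relIndex D := Nat.le_of_dvd (Nat.pos_of_ne_zero ht0) h6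
  have h8 : p ^ (a - b) < p ^ (t + 1) := lt_of_le_of_lt h7 ht
  have h9 : a - b < t + 1 := (Nat.pow_lt_pow_iff_right hp.out.one_lt).mp h8
  omega

/-- conjugation does not change the image under a character with commutative values. -/
theorem map_conj_map_eq {C' : Type*} [CommGroup C'] (χ' : G →* C') (D : Subgroup G) (y : G) :
    (D.map (MulAut.conj y).toMonoidHom).map χ' = D.map χ' := by
  rw [Subgroup.map_map]
  congr 1
  ext g
  simp [MulAut.conj_apply]

/-- in a finite cyclic group every element of a subgroup `B` is a `d`-th power, `d ∣ [A : B]`. -/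
theorem exists_pow_eq_of_dvd_index {A : Type*} [Group A] [IsCyclic A] [Finite A]
    (B : Subgroup A) {d : ℕ} (hd : d ∣ B.index) {s : A} (hs : s ∈ B) : ∃ a : A, a ^ d = s := by
  obtain ⟨g, hg⟩ := IsCyclic.exists_generator (α := A)
  obtain ⟨i, rfl⟩ : ∃ i : ℕ, g ^ i = s :=
    (Submonoid.mem_powers_iff _ _).mp ((mem_powers_iff_mem_zpowers).mpr (hg s))
  have hcard : orderOf g = Nat.card A := orderOf_eq_card_of_forall_mem_zpowers hg
  have hmul : Nat.card B * B.index = Nat.card A := Subgroup.card_mul_index B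
  have hpow : (g ^ i) ^ Nat.card B = 1 := by
    have h1 : (⟨g ^ i, hs⟩ : B) ^ Nat.card B = 1 := pow_card_eq_one'
    exact congrArg Subtype.val h1
  rw [← pow_mul] at hpow
  have h2 : Nat.card B * B.index ∣ Nat.card B * i := by
    rw [hmul, ← hcard, mul_comm]
    exact orderOf_dvd_of_pow_eq_one hpow
  have h3 : B.index ∣ i := (Nat.mul_dvd_mul_iff_left Nat.card_pos).mp h2
  obtain ⟨e, rfl⟩ := hd.trans h3
  exact ⟨g ^ e, by rw [← pow_mul, mul_comm]⟩

end Group

/-! ### Part 2: the image of the decomposition group under the tower character -/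

section Arith

open Fermat.Agent.Lib.FrobeniusExists Fermat.Agent.S55.CycloTower46.Global
  Fermat.Agent.S55.CycloTower46.Char Fermat.Agent.S55.CycloTower46.Local
  Fermat.Agent.S55.CycloRecip90 Fermat.Agent.S55.GlobalInv91

open Fermat.Agent.S55.Idele73.Basic (Qbar GalL resL resL_apply resL_surjective locHom)

variable (p : ℕ) [hp : Fact p.Prime] (hp2 : p ≠ 2) (q : ℕ) [hq : Fact q.Prime]

/-- `q ≠ p`: the `p`-part of the order of `⟨q⟩ = [q]^(p-1)` in `(ℤ/p^(M+1))ˣ` is unbounded. -/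
theorem exists_forall_pow_dvd_orderOf_angle (hqp : q ≠ p) (r : ℕ) :
    ∃ M₀, ∀ M ≥ M₀,
      p ^ r ∣ orderOf (angle (p := p) M q ((Nat.coprime_primes hq.out hp.out).2 hqp)) := by
  obtain ⟨n₀, hn₀⟩ :=
    Fermat.Agent.S55.CycloTower46.Arith.exists_forall_pow_dvd_orderOf (a := q) hp.out
      hq.out.two_le r
  refine ⟨n₀, fun M hM => ?_⟩
  have hcop : q.Coprime (p ^ (M + 1)) :=
    Nat.Coprime.pow_right _ ((Nat.coprime_primes hq.out hp.out).2 hqp)
  have h1 := hn₀ (M + 1) (by omega) (ZMod.unitOfCoprime q hcop) (ZMod.coe_unitOfCoprime q hcop)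
  have hp1 : p - 1 ≠ 0 := Nat.sub_ne_zero_of_lt hp.out.one_lt
  rw [angle, orderOf_pow' _ hp1]
  set o := orderOf (ZMod.unitOfCoprime q hcop) with ho
  have hg : Nat.gcd o (p - 1) ∣ p - 1 := Nat.gcd_dvd_right _ _
  have hcop2 : Nat.Coprime (p ^ r) (Nat.gcd o (p - 1)) := by
    apply Nat.Coprime.pow_left
    apply Nat.Coprime.coprime_dvd_right hg
    exact Nat.coprime_of_lt_prime hp1 (Nat.sub_lt hp.out.pos one_pos) hp.out
  have h2 : p ^ r ∣ Nat.gcd o (p - 1) * (o / Nat.gcd o (p - 1)) := by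
    rw [Nat.mul_div_cancel' (Nat.gcd_dvd_left _ _)]
    exact h1
  exact hcop2.dvd_of_dvd_mul_left h2

/-- **every prime `q`** (including `q = p`): the order of the image of `G_q` under the level `M`
tower character is divisible by `p^r` for all `M ≥ M₀(p, q, r)`. -/
theorem exists_pow_dvd_card_range_towerChar_local (r : ℕ) :
    ∃ M₀, ∀ M ≥ M₀,
      p ^ r ∣ Nat.card ((towerChar p hp2 M).comp (localGaloisToGlobal q)).range := by
  by_cases hqp : q = p
  · subst hqp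
    refine ⟨r, fun M hM => ?_⟩
    rw [MonoidHom.range_eq_top.mpr (towerChar_comp_local_surjective q hp2 M), Subgroup.card_top,
      Nat.card_eq_fintype_card, Fintype.card_multiplicative, ZMod.card]
    exact pow_dvd_pow q hM
  · obtain ⟨M₀, hM₀⟩ := exists_forall_pow_dvd_orderOf_angle p q hqp r
    refine ⟨M₀, fun M hM => ?_⟩
    rw [range_towerChar_comp_local p q hp2 M hqp, Nat.card_zpowers, MulEquiv.orderOf_eq,
      Subgroup.orderOf_mk]
    exact hM₀ M hM

/-- the same at a finite level `Ω ⊇ ℚ_M`; `M₀` does not depend on `Ω`. -/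
theorem exists_pow_dvd_card_range_towerCharL (r : ℕ) :
    ∃ M₀, ∀ M ≥ M₀, ∀ (Ω : IntermediateField ℚ Qbar) [Normal ℚ Ω] (h : towerField p M ≤ Ω),
      p ^ r ∣ Nat.card ((towerCharL p Ω hp2 M h).comp (locHom q Ω)).range := by
  obtain ⟨M₀, hM₀⟩ := exists_pow_dvd_card_range_towerChar_local p hp2 q r
  refine ⟨M₀, fun M hM Ω _ h => ?_⟩
  rw [towerCharL_comp_locHom]
  exact hM₀ M hM

end Arith

/-! ### Part 3: the consumer shapes -/

section Consumers

open Fermat.Agent.Lib.FrobeniusExists Fermat.Agent.S55.GlobalInv91 Fermat.Agent.S55.Idele73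

open Fermat.Agent.S55.Idele73.Basic (Qbar GalL resL resL_apply resL_surjective locHom)

section Mackey

variable {Γ G : Type} [Group Γ] [Group G] (φ : Γ →* G)

/-- the twisted subgroup `Γ_x = {τ | x⁻¹ φ(τ) x ∈ H}` is the pull-back of `H` along
`τ ↦ x⁻¹ φ(τ) x`. -/
theorem twSub_eq_comap (H : Subgroup G) (x : G) :
    Mackey.twSub φ H x = H.comap ((MulAut.conj x⁻¹).toMonoidHom.comp φ) := by
  ext τ
  rw [Mackey.mem_twSub, Subgroup.mem_comap]
  simp

/-- `[Γ_x^H : Γ_x^Z] = [H ∩ x⁻¹Dx : Z ∩ x⁻¹Dx]`, `D = φ(Γ)`. -/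
theorem relIndex_twSub (H Z : Subgroup G) (x : G) :
    (Mackey.twSub φ Z x).relIndex (Mackey.twSub φ H x) =
      Z.relIndex (H ⊓ φ.range.map (MulAut.conj x⁻¹).toMonoidHom) := by
  rw [twSub_eq_comap, twSub_eq_comap, Subgroup.relIndex_comap, Subgroup.map_comap_eq,
    MonoidHom.range_comp, inf_comm]

end Mackey

variable (p : ℕ) [hp : Fact p.Prime] (hp2 : p ≠ 2) (q : ℕ) [hq : Fact q.Prime]

theorem isPGroup_multiplicative_zmod (M : ℕ) : IsPGroup p (Multiplicative (ZMod (p ^ M))) := by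
  apply IsPGroup.of_card (n := M)
  rw [Nat.card_eq_fintype_card, Fintype.card_multiplicative, ZMod.card]

/-- **conjugate form**: for `M ≥ M₀(p, q, k, t)`, every level `Ω ⊇ ℚ_M`, every `H ≤ Gal(Ω/ℚ)` of
index `< p^(t+1)` and every conjugate `D^y` of the decomposition group `D = locHom q Ω (G_q)`:
`p^k ∣ [H ∩ D^y : H ∩ ker χ_M ∩ D^y]` (the local degree of `K_M/K`, `K = Ω^H`, at the place `y`). -/
theorem exists_level_pow_dvd_relIndex_conj (k t : ℕ) :
    ∃ M₀, ∀ M ≥ M₀, ∀ (Ω : IntermediateField ℚ Qbar) [Normal ℚ Ω] [FiniteDimensional ℚ Ω]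
      (h : towerField p M ≤ Ω) (H : Subgroup (GalL Ω)) (_hH : H.index < p ^ (t + 1))
      (y : GalL Ω),
      p ^ k ∣ (H ⊓ (towerCharL p Ω hp2 M h).ker ⊓
          (locHom q Ω).range.map (MulAut.conj y).toMonoidHom).relIndex
        (H ⊓ (locHom q Ω).range.map (MulAut.conj y).toMonoidHom) := by
  obtain ⟨M₀, hM₀⟩ := exists_pow_dvd_card_range_towerCharL p hp2 q (k + t)
  refine ⟨M₀, fun M hM Ω _ _ h H hH y => ?_⟩
  have hfin : H.index ≠ 0 := Subgroup.index_ne_zero_of_finite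
  have ht0 : H.relIndex ((locHom q Ω).range.map (MulAut.conj y).toMonoidHom) ≠ 0 :=
    Subgroup.index_ne_zero_of_finite
  have hle : H.relIndex ((locHom q Ω).range.map (MulAut.conj y).toMonoidHom) ≤ H.index := by
    have := Subgroup.relIndex_le_of_le_right
      (H := H) (K := (locHom q Ω).range.map (MulAut.conj y).toMonoidHom) (L := ⊤) le_top
      (by rw [Subgroup.relIndex_top_right]; exact hfin)
    rwa [Subgroup.relIndex_top_right] at this
  have ha : p ^ (k + t) ∣ (towerCharL p Ω hp2 M h).ker.relIndex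
      ((locHom q Ω).range.map (MulAut.conj y).toMonoidHom) := by
    rw [Subgroup.relIndex_ker, map_conj_map_eq, MonoidHom.map_range]
    exact hM₀ M hM Ω h
  have := pow_dvd_relIndex_ker_inf (towerCharL p Ω hp2 M h) (isPGroup_multiplicative_zmod p M)
    ((locHom q Ω).range.map (MulAut.conj y).toMonoidHom) H ha ht0 (lt_of_le_of_lt hle hH)
  rwa [Nat.add_sub_cancel] at this

/-- **`hdeg` of (J3)**, for ANY `φ` with the same range as `locHom q Ω` (e.g. `locHom q Ω` itself or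
the injective `Local.jE q Ω`): `p^k` divides all the local degrees
`[Γ_x^H : Γ_x^Z]`, `Z = H ⊓ ker χ_M`. -/
theorem exists_level_pow_dvd_relIndex_twSub_of_range (k t : ℕ) :
    ∃ M₀, ∀ M ≥ M₀, ∀ (Ω : IntermediateField ℚ Qbar) [Normal ℚ Ω] [FiniteDimensional ℚ Ω]
      (h : towerField p M ≤ Ω) (H : Subgroup (GalL Ω)) (_hH : H.index < p ^ (t + 1))
      {Γ : Type} [Group Γ] (φ : Γ →* GalL Ω) (_hφ : φ.range = (locHom q Ω).range) (x : GalL Ω),
      p ^ k ∣ (Mackey.twSub φ (H ⊓ (towerCharL p Ω hp2 M h).ker) x).relIndex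
        (Mackey.twSub φ H x) := by
  obtain ⟨M₀, hM₀⟩ := exists_level_pow_dvd_relIndex_conj p hp2 q k t
  refine ⟨M₀, fun M hM Ω _ _ h H hH Γ _ φ hφ x => ?_⟩
  have key := hM₀ M hM Ω h H hH x⁻¹
  rw [relIndex_twSub, hφ, ← Subgroup.inf_relIndex_right]
  have e : H ⊓ (towerCharL p Ω hp2 M h).ker ⊓
      (H ⊓ (locHom q Ω).range.map (MulAut.conj x⁻¹).toMonoidHom) =
      H ⊓ (towerCharL p Ω hp2 M h).ker ⊓
        (locHom q Ω).range.map (MulAut.conj x⁻¹).toMonoidHom := by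
    rw [inf_assoc, inf_assoc, ← inf_assoc _ H, inf_comm _ H, inf_assoc H, ← inf_assoc H H,
      inf_idem]
  rw [e]
  exact key

/-- `hdeg` for `φ = locHom q Ω`. -/
theorem exists_level_pow_dvd_relIndex_twSub (k t : ℕ) :
    ∃ M₀, ∀ M ≥ M₀, ∀ (Ω : IntermediateField ℚ Qbar) [Normal ℚ Ω] [FiniteDimensional ℚ Ω]
      (h : towerField p M ≤ Ω) (H : Subgroup (GalL Ω)) (_hH : H.index < p ^ (t + 1))
      (x : GalL Ω),
      p ^ k ∣ (Mackey.twSub (locHom q Ω) (H ⊓ (towerCharL p Ω hp2 M h).ker) x).relIndex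
        (Mackey.twSub (locHom q Ω) H x) := by
  obtain ⟨M₀, hM₀⟩ := exists_level_pow_dvd_relIndex_twSub_of_range p hp2 q k t
  exact ⟨M₀, fun M hM Ω _ _ h H hH x => hM₀ M hM Ω h H hH (locHom q Ω) rfl x⟩

/-- the decomposition group at the finite level: `jE` and `locHom` have the same range. -/
theorem range_jE (Ω : IntermediateField ℚ Qbar) [Normal ℚ Ω] :
    (Local.jE q Ω).range = (locHom q Ω).range := by
  rw [← Local.jE_comp_resE, MonoidHom.range_comp,
    MonoidHom.range_eq_top.mpr (Local.resE_surjective q Ω), ← MonoidHom.range_eq_map]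

/-- **`hdeg` for the injective `φ = Local.jE q Ω : Gal(E/ℚ_q) → Gal(Ω/ℚ)`** (the shape of
`Shapiro9.JSplit.rsMap_eq_zero_of_nsmul_eq_zero` and `DegSum22.Bridge.rsMap_eq_zero_of_dvd`,
with `M := H ⊓ ker χ_M`, `n := p^k`). -/
theorem exists_level_pow_dvd_relIndex_twSub_jE (k t : ℕ) :
    ∃ M₀, ∀ M ≥ M₀, ∀ (Ω : IntermediateField ℚ Qbar) [Normal ℚ Ω] [FiniteDimensional ℚ Ω]
      (h : towerField p M ≤ Ω) (H : Subgroup (GalL Ω)) (_hH : H.index < p ^ (t + 1))
      (x : GalL Ω),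
      p ^ k ∣ (Mackey.twSub (Local.jE q Ω) (H ⊓ (towerCharL p Ω hp2 M h).ker) x).relIndex
        (Mackey.twSub (Local.jE q Ω) H x) := by
  obtain ⟨M₀, hM₀⟩ := exists_level_pow_dvd_relIndex_twSub_of_range p hp2 q k t
  exact ⟨M₀, fun M hM Ω _ _ h H hH x => hM₀ M hM Ω h H hH (Local.jE q Ω) (range_jE q Ω) x⟩

/-- the kernel of the ONTO tower character over `K = Ω^H` (`OverK.towerCharK`), as a subgroup of
`Gal(Ω/ℚ)`, is `H ⊓ ker χ_{j+m}`. -/
theorem map_ker_towerCharK (Ω : IntermediateField ℚ Qbar) [Normal ℚ Ω] (H : Subgroup (GalL Ω))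
    (j m : ℕ) (h : towerField p (j + m) ≤ Ω)
    (hj : ∀ g ∈ H, towerCharL p Ω hp2 j
      ((towerField_mono p (Nat.le_add_right j m)).trans h) g = 1) :
    (towerCharK p hp2 Ω H j m h hj).ker.map H.subtype =
      H ⊓ (towerCharL p Ω hp2 (j + m) h).ker := by
  ext g
  rw [Subgroup.mem_map, Subgroup.mem_inf, MonoidHom.mem_ker]
  constructor
  · rintro ⟨g', hg', rfl⟩
    exact ⟨g'.2, (towerCharK_eq_one_iff p hp2 Ω H j m h hj g').mp (MonoidHom.mem_ker.mp hg')⟩
  · rintro ⟨hgH, hg1⟩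
    exact ⟨⟨g, hgH⟩, MonoidHom.mem_ker.mpr
      ((towerCharK_eq_one_iff p hp2 Ω H j m h hj ⟨g, hgH⟩).mpr hg1), rfl⟩

/-- **`hpow` of (J3-ℤ)** (`IdeleCoh54.UnrLocal.res_isCob₂_of_nsmul`, literal shape with
`M := H ⊓ ker χ_M`, `m := p^k`, `ψ := locHom q Ω`), for a prime `q` whose decomposition group
at the level `Ω` is CYCLIC (e.g. `q ∉ S` unramified in `Ω`, `FrobFin98.range_locHom_eq_zpowers`):
every stabiliser element of `H ⊓ ker χ_M` is the `p^k`-th power of a stabiliser element of `H`. -/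
theorem exists_level_hpow (k t : ℕ) :
    ∃ M₀, ∀ M ≥ M₀, ∀ (Ω : IntermediateField ℚ Qbar) [Normal ℚ Ω] [FiniteDimensional ℚ Ω]
      (h : towerField p M ≤ Ω) (H : Subgroup (GalL Ω)) (_hH : H.index < p ^ (t + 1))
      (_hcyc : IsCyclic (locHom q Ω).range)
      (s : ↥(H ⊓ (towerCharL p Ω hp2 M h).ker)) (γ : GalL Ω),
      γ * (s : GalL Ω) * γ⁻¹ ∈ (locHom q Ω).range →
        ∃ s' : H, γ * (s' : GalL Ω) * γ⁻¹ ∈ (locHom q Ω).range ∧
          (s : GalL Ω) = (s' : GalL Ω) ^ p ^ k := by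
  obtain ⟨M₀, hM₀⟩ := exists_level_pow_dvd_relIndex_conj p hp2 q k t
  refine ⟨M₀, fun M hM Ω _ _ h H hH hcyc s γ hs => ?_⟩
  have key := hM₀ M hM Ω h H hH γ⁻¹
  set D := (locHom q Ω).range with hD
  set Dy := D.map (MulAut.conj γ⁻¹).toMonoidHom with hDy
  have hmem : ∀ g : GalL Ω, g ∈ Dy ↔ γ * g * γ⁻¹ ∈ D := by
    intro g
    rw [hDy, Subgroup.mem_map]
    constructor
    · rintro ⟨d, hd, rfl⟩
      simpa [mul_assoc] using hd
    · intro hg
      exact ⟨γ * g * γ⁻¹, hg, by simp [mul_assoc]⟩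
  -- `Dy` and `A := H ⊓ Dy` are cyclic
  have : IsCyclic Dy :=
    isCyclic_of_surjective ((MulAut.conj γ⁻¹).toMonoidHom.subgroupMap D)
      ((MulAut.conj γ⁻¹).toMonoidHom.subgroupMap_surjective D)
  have : IsCyclic ↥(H ⊓ Dy) := Subgroup.isCyclic_of_le (inf_le_right : H ⊓ Dy ≤ Dy)
  -- `s` as an element of `A`, inside `B = (H ⊓ ker ⊓ Dy).subgroupOf A`
  have hsA : (s : GalL Ω) ∈ H ⊓ Dy := ⟨s.2.1, (hmem _).mpr hs⟩
  have hsB : (⟨(s : GalL Ω), hsA⟩ : ↥(H ⊓ Dy)) ∈
      (H ⊓ (towerCharL p Ω hp2 M h).ker ⊓ Dy).subgroupOf (H ⊓ Dy) := by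
    rw [Subgroup.mem_subgroupOf]
    exact ⟨s.2, (hmem _).mpr hs⟩
  obtain ⟨a, ha⟩ := exists_pow_eq_of_dvd_index _ key hsB
  refine ⟨⟨(a : GalL Ω), a.2.1⟩, (hmem _).mp a.2.2, ?_⟩
  have := congrArg Subtype.val ha
  simpa using this.symm

end Consumers

end Fermat.Agent.S55.CycloGlobal87
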