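/-
S55 leaf 35-D2-TOWER-LEVEL (helper87): the tower level `Ω_i · ℚ_M` of the D2 family
(`LimDesc99.D2.LevV S V`, helper99 / helper79) and its geometry:

* `towerGalLev`, `towerLevV i M ≤ i` with `ℚ_M ⊆ Ω_{towerLevV i M}`;
* `index_HV`, `exists_index_bound`: `[K : ℚ] = (HV S V j).index` does not depend on the level `j`;
* `exists_onto_towerCharK_HV`: at every deep enough level the ONTO tower character
  `Gal(Ω_j/K) → ℤ/p^e` (the `χ` of `GlobalInv91.FinLayerHyp`);
* the kernel `N = ker (Gal(Ω_i·ℚ_M/K) → Gal(Ω_i/K))` is a cyclic `p`-group, embedded in `ℤ/p^M` by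
  the tower character.
-/
import Mathlib
import Fermat.Agent.S55.LimDesc99.SCAdapter
import Fermat.Agent.S55.CycloGlobal87.Crossing
import Fermat.Agent.S55.CycloGlobal87.LocalDeg

set_option autoImplicit false
set_option linter.unusedSectionVars false

namespace Fermat.Agent.S55.CycloGlobal87.D2Level

open CategoryTheory groupCohomology
open Fermat.Agent.S55.Profin15 Fermat.Agent.S55.Idele73.Basic
open Fermat.Agent.S55.ESDiv20 hiding GQ Qb
open Fermat.Agent.S55.CS79.FamilyCS Fermat.Agent.S55.CS79.Limit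
open Fermat.Agent.S55.LimDesc99 Fermat.Agent.S55.LimDesc99.D2 Fermat.Agent.S55.CD3
open Fermat.Agent.S55.GlobalInv91 Fermat.Agent.S55.CycloGlobal87
open Fermat.Agent.Lib.FrobeniusExists (isAlgebraic_Qb isAlgClosure_Qb isGalois_Qb)

attribute [local instance] isAlgebraic_Qb isAlgClosure_Qb isGalois_Qb

variable (p : ℕ) [hp : Fact p.Prime] (hp2 : p ≠ 2) (S : Finset Nat.Primes)
  (hpS : (⟨p, hp.out⟩ : Nat.Primes) ∈ S)

/-- (L1) the `M`-th layer of the cyclotomic `ℤ_p`-extension as a Galois `S`-level. -/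
noncomputable def towerGalLev (M : ℕ) : GalLev S :=
  ⟨towerField p M, normal_towerField p M, towerField_isUnramifiedOutside p S hpS M⟩

theorem towerGalLev_field (M : ℕ) : (towerGalLev p S hpS M).1 = towerField p M := rfl

variable (V : Subgroup GQ)

/-- (L2) **the tower level `Ω_i · ℚ_M` over `V`.** -/
noncomputable def towerLevV (i : LevV S V) (M : ℕ) : LevV S V :=
  ⟨i.1.sup (towerGalLev p S hpS M),
    (GalLev.ker_mono (GalLev.sup_le_left i.1 (towerGalLev p S hpS M))).trans i.2⟩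

theorem towerLevV_field (i : LevV S V) (M : ℕ) :
    (towerLevV p S hpS V i M).1.1 = i.1.1 ⊔ towerField p M := rfl

theorem towerLevV_le (i : LevV S V) (M : ℕ) : towerLevV p S hpS V i M ≤ i :=
  GalLev.sup_le_left i.1 (towerGalLev p S hpS M)

theorem towerField_le_towerLevV (i : LevV S V) (M : ℕ) :
    towerField p M ≤ (towerLevV p S hpS V i M).1.1 :=
  (le_sup_right : towerField p M ≤ i.1.1 ⊔ towerField p M)

theorem le_towerLevV (i : LevV S V) (M : ℕ) : i.1.1 ≤ (towerLevV p S hpS V i M).1.1 :=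
  (le_sup_left : i.1.1 ≤ i.1.1 ⊔ towerField p M)

/-! ### (L3) the index of `Gal(Ω_j/K)` in `Gal(Ω_j/ℚ)` is `[K : ℚ]` -/

theorem index_HV (j : LevV S V) : (HV S V j).index = V.index :=
  Subgroup.index_map_eq _ (resL_surjective j.1.1) j.2

instance finiteDimensional_levV (j : LevV S V) : FiniteDimensional ℚ j.1.1 := j.1.unr.1

theorem index_ne_zero_of_levV (j : LevV S V) : V.index ≠ 0 := by
  rw [← index_HV S V j]
  exact Subgroup.index_ne_zero_of_finite

/-- the bound `t` of the local-degree theorems of `CycloGlobal87.LocalDeg` / `IdealSplit` /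
`JSplitSupp` is uniform in the level. -/
theorem exists_index_bound : ∃ t, ∀ j : LevV S V, (HV S V j).index < p ^ (t + 1) := by
  refine ⟨V.index, fun j => ?_⟩
  rw [index_HV]
  exact lt_of_lt_of_le (Nat.lt_pow_self hp.out.one_lt)
    (Nat.pow_le_pow_right hp.out.pos (Nat.le_succ _))

/-! ### (L4) the onto tower character over `K` at every deep enough level -/

/-- **the `χ` of `FinLayerHyp`**: for every degree `p^e` (`e ≥ 1`) and every level `Ω_j ⊇ ℚ_M`,
`M ≥ M₁(V, e)`, the tower character `Gal(Ω_j/K) → ℤ/p^e` (`OverK.towerCharK`) is ONTO. -/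
theorem exists_onto_towerCharK_HV (e : ℕ) (he : 1 ≤ e) :
    ∃ M₁, ∀ M ≥ M₁, ∀ (j : LevV S V) (hM : towerField p M ≤ j.1.1),
      ∃ (j₀ : ℕ) (hje : j₀ + e ≤ M)
        (hj : ∀ g ∈ HV S V j, towerCharL p j.1.1 hp2 j₀
          ((towerField_mono p (Nat.le_add_right j₀ e)).trans
            ((towerField_mono p hje).trans hM)) g = 1),
        Function.Surjective
          (towerCharK p hp2 j.1.1 (HV S V j) j₀ e ((towerField_mono p hje).trans hM) hj) := by
  refine ⟨V.index + e, fun M hM j hMj => ?_⟩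
  refine exists_onto_towerCharK p hp2 j.1.1 (HV S V j) e he M hMj (fun j₀ hj₀ => ?_)
  rw [index_HV] at hj₀
  have h1 : p ^ j₀ ≤ V.index :=
    Nat.le_of_dvd (Nat.pos_of_ne_zero (index_ne_zero_of_levV S V j)) hj₀
  have h2 : j₀ < p ^ j₀ := Nat.lt_pow_self hp.out.one_lt
  omega

/-! ### (L5) the kernel of `Gal(Ω_i·ℚ_M/K) → Gal(Ω_i/K)` -/

section Ker

variable (hV : IsOpenSub (globalLevels S) V) (hS : S.Nonempty)

/-- the projection of the datum at the level `j`: `σ ↦ σ|Ω_j`. -/
theorem coe_scFamV_p (j : LevV S V) (v : ↥V) :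
    Subtype.val (p := fun g : GalL j.1.1 => g ∈ HV S V j) (((scFamV S V hV hS).d j).p v) =
      resL j.1.1 (v : GQ) := rfl

/-- membership in the kernel of the transition map `Gal(Ω_j/K) → Gal(Ω_i/K)`. -/
theorem p_mem_ker_q_iff {i j : LevV S V} (h : j ≤ i) (v : ↥V) :
    ((scFamV S V hV hS).d j).p v ∈ (SCDatum.q ((scFamV S V hV hS).mono h)).ker ↔
      (v : GQ) ∈ i.1.1.fixingSubgroup := by
  rw [MonoidHom.mem_ker, SCDatum.q, Datum.q_p, ← resL_ker, MonoidHom.mem_ker]
  constructor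
  · intro h1
    have := congrArg Subtype.val h1
    exact this
  · intro h1
    exact Subtype.ext h1

/-- **the tower character is injective on `N = Gal(Ω_i·ℚ_M / Ω_i)`.** -/
theorem towerCharL_injOn_ker_q (i : LevV S V) (M : ℕ)
    (g : ↥(HV S V (towerLevV p S hpS V i M)))
    (hg : g ∈ (SCDatum.q ((scFamV S V hV hS).mono (towerLevV_le p S hpS V i M))).ker)
    (hχ : towerCharL p (towerLevV p S hpS V i M).1.1 hp2 M
      (towerField_le_towerLevV p S hpS V i M) (g : GalL (towerLevV p S hpS V i M).1.1) = 1) :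
    g = 1 := by
  obtain ⟨v, rfl⟩ := ((scFamV S V hV hS).d (towerLevV p S hpS V i M)).surj g
  have hg' := (p_mem_ker_q_iff S V hV hS (towerLevV_le p S hpS V i M) v).mp hg
  have hχ' : towerChar p hp2 M (v : GQ) = 1 := by
    rw [← towerCharL_resL p (towerLevV p S hpS V i M).1.1 hp2 M
      (towerField_le_towerLevV p S hpS V i M)]
    exact hχ
  have h2 : (v : GQ) ∈ (towerField p M).fixingSubgroup := by
    rw [fixingSubgroup_towerField' p hp2 M]
    exact MonoidHom.mem_ker.mpr hχ'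
  have h3 : (v : GQ) ∈ (towerLevV p S hpS V i M).1.1.fixingSubgroup := by
    rw [towerLevV_field, IntermediateField.fixingSubgroup_sup]
    exact ⟨hg', h2⟩
  rw [← resL_ker, MonoidHom.mem_ker] at h3
  exact Subtype.ext h3

/-- the tower character restricted to `N`. -/
noncomputable def towerCharN (i : LevV S V) (M : ℕ) :
    ↥(SCDatum.q ((scFamV S V hV hS).mono (towerLevV_le p S hpS V i M))).ker →*
      Multiplicative (ZMod (p ^ M)) :=
  ((towerCharL p (towerLevV p S hpS V i M).1.1 hp2 M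
    (towerField_le_towerLevV p S hpS V i M)).comp
      (HV S V (towerLevV p S hpS V i M)).subtype).comp
    (SCDatum.q ((scFamV S V hV hS).mono (towerLevV_le p S hpS V i M))).ker.subtype

theorem towerCharN_injective (i : LevV S V) (M : ℕ) :
    Function.Injective (towerCharN p hp2 S hpS V hV hS i M) := by
  rw [injective_iff_map_eq_one]
  intro g hg
  exact Subtype.ext (towerCharL_injOn_ker_q p hp2 S hpS V hV hS i M g.1 g.2 hg)

include hp2 in
/-- **`N = Gal(Ω_i·ℚ_M/Ω_i)` is cyclic.** -/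
theorem isCyclic_ker_q (i : LevV S V) (M : ℕ) :
    IsCyclic ↥(SCDatum.q ((scFamV S V hV hS).mono (towerLevV_le p S hpS V i M))).ker :=
  isCyclic_of_injective (towerCharN p hp2 S hpS V hV hS i M)
    (towerCharN_injective p hp2 S hpS V hV hS i M)

include hp2 in
/-- **`N` is a `p`-group.** -/
theorem isPGroup_ker_q (i : LevV S V) (M : ℕ) :
    IsPGroup p ↥(SCDatum.q ((scFamV S V hV hS).mono (towerLevV_le p S hpS V i M))).ker :=
  (isPGroup_multiplicative_zmod p M).of_injective (towerCharN p hp2 S hpS V hV hS i M)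
    (towerCharN_injective p hp2 S hpS V hV hS i M)

include hp2 in
/-- `|N| ∣ p^M`. -/
theorem card_ker_q_dvd (i : LevV S V) (M : ℕ) :
    Nat.card ↥(SCDatum.q ((scFamV S V hV hS).mono (towerLevV_le p S hpS V i M))).ker ∣ p ^ M := by
  have := Subgroup.card_dvd_of_injective (towerCharN p hp2 S hpS V hV hS i M)
    (towerCharN_injective p hp2 S hpS V hV hS i M)
  rwa [Nat.card_eq_fintype_card (α := Multiplicative (ZMod (p ^ M))), Fintype.card_multiplicative,
    ZMod.card] at this

/-- the index of the kernel of the transition map is the order of `Gal(Ω_i/K)`. -/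
theorem index_ker_q {i j : LevV S V} (h : j ≤ i) :
    (SCDatum.q ((scFamV S V hV hS).mono h)).ker.index = Nat.card ↥(HV S V i) := by
  have hsurj : Function.Surjective (SCDatum.q ((scFamV S V hV hS).mono h)) := by
    intro x
    obtain ⟨v, rfl⟩ := ((scFamV S V hV hS).d i).surj x
    exact ⟨((scFamV S V hV hS).d j).p v, Datum.q_p _ v⟩
  rw [Subgroup.index_ker, MonoidHom.range_eq_top.mpr hsurj, Subgroup.card_top]
  rfl

end Ker

/-! ### (L6) the tower character of `N = Gal(Ω_i·ℚ_M/Ω_i)` -/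

section Gen

/-- a bijective character to `ℤ/n` has a generator mapped to `1`. -/
theorem exists_generator_of_bijective {G : Type*} [Group G] {n : ℕ} [NeZero n]
    (χ : G →* Multiplicative (ZMod n)) (hχ : Function.Bijective χ) :
    ∃ g : G, (∀ x : G, x ∈ Subgroup.zpowers g) ∧ g ^ n = 1 ∧ chiVal χ g = 1 := by
  obtain ⟨g, hg⟩ := hχ.2 (Multiplicative.ofAdd 1)
  have hpow : ∀ k : ℕ, χ (g ^ k) = Multiplicative.ofAdd ((k : ℕ) : ZMod n) := by
    intro k
    rw [map_pow, hg, ← ofAdd_nsmul, nsmul_eq_mul, mul_one]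
  refine ⟨g, fun x => ?_, ?_, ?_⟩
  · refine ⟨((chiVal χ x).val : ℤ), ?_⟩
    apply hχ.1
    show χ (g ^ (((chiVal χ x).val : ℕ) : ℤ)) = χ x
    rw [zpow_natCast, hpow, ZMod.natCast_zmod_val]
    rfl
  · apply hχ.1
    rw [hpow, ZMod.natCast_self, map_one]
    rfl
  · rw [chiVal, hg, toAdd_ofAdd]

end Gen

section KerChar

variable (hV : IsOpenSub (globalLevels S) V) (hS : S.Nonempty)

/-- `N = Gal(Ω_i·ℚ_M/Ω_i)` as a subgroup of `Gal(Ω_j/ℚ)`, `Ω_j = Ω_i·ℚ_M`. -/
noncomputable abbrev kerQL (i : LevV S V) (M : ℕ) :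
    Subgroup (GalL (towerLevV p S hpS V i M).1.1) :=
  (SCDatum.q ((scFamV S V hV hS).mono (towerLevV_le p S hpS V i M))).ker.map
    (HV S V (towerLevV p S hpS V i M)).subtype

/-- **the tower character over the base `Ω_i` is BIJECTIVE on `N = Gal(Ω_i·ℚ_M/Ω_i)`**: with `j₁`
the level of `Ω_i ∩ ℚ_∞` inside `ℚ_M` and `e₁ = M - j₁`, `towerCharK : N → ℤ/p^{e₁}` is an
isomorphism. -/
theorem exists_towerCharK_kerQL_bijective (i : LevV S V) (M : ℕ) :
    ∃ (j₁ e₁ : ℕ) (_ : j₁ + e₁ = M)
      (h : towerField p (j₁ + e₁) ≤ (towerLevV p S hpS V i M).1.1)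
      (hj₁ : ∀ g ∈ kerQL p S hpS V hV hS i M,
        towerCharL p (towerLevV p S hpS V i M).1.1 hp2 j₁
          ((towerField_mono p (Nat.le_add_right j₁ e₁)).trans h) g = 1),
      Function.Bijective (towerCharK p hp2 (towerLevV p S hpS V i M).1.1
        (kerQL p S hpS V hV hS i M) j₁ e₁ h hj₁) := by
  obtain ⟨j₁, hj₁M, hj₁, hex⟩ := exists_towerLevel p hp2 (towerLevV p S hpS V i M).1.1
    (kerQL p S hpS V hV hS i M) M (towerField_le_towerLevV p S hpS V i M)
  obtain ⟨e₁, rfl⟩ := Nat.exists_eq_add_of_le hj₁M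
  refine ⟨j₁, e₁, rfl, towerField_le_towerLevV p S hpS V i (j₁ + e₁), hj₁, ?_, ?_⟩
  · -- injective
    rw [injective_iff_map_eq_one]
    intro g hg
    rw [towerCharK_eq_one_iff] at hg
    obtain ⟨g', hg', hgg'⟩ := g.2
    have := towerCharL_injOn_ker_q p hp2 S hpS V hV hS i (j₁ + e₁) g' hg' (by
      rw [show ((g' : ↥(HV S V (towerLevV p S hpS V i (j₁ + e₁)))) :
        GalL (towerLevV p S hpS V i (j₁ + e₁)).1.1) = (g : GalL _) from hgg']
      exact hg)
    apply Subtype.ext
    rw [← hgg', this]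
    rfl
  · -- surjective
    rcases Nat.eq_zero_or_pos e₁ with he | he
    · subst he
      intro x
      refine ⟨1, ?_⟩
      have : Subsingleton (ZMod (p ^ 0)) := by
        rw [pow_zero]; infer_instance
      exact Multiplicative.toAdd.injective (Subsingleton.elim _ _)
    · exact towerCharK_surjective p hp2 _ _ j₁ e₁ _ hj₁ he (hex (by omega))

/-- `N ≃ N.map subtype`. -/
noncomputable def kerQEquiv (i : LevV S V) (M : ℕ) :
    ↥(SCDatum.q ((scFamV S V hV hS).mono (towerLevV_le p S hpS V i M))).ker ≃*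
      ↥(kerQL p S hpS V hV hS i M) :=
  Subgroup.equivMapOfInjective _ _ (Subgroup.subtype_injective _)

theorem coe_kerQEquiv (i : LevV S V) (M : ℕ)
    (g : ↥(SCDatum.q ((scFamV S V hV hS).mono (towerLevV_le p S hpS V i M))).ker) :
    ((kerQEquiv p S hpS V hV hS i M g : ↥(kerQL p S hpS V hV hS i M)) :
      GalL (towerLevV p S hpS V i M).1.1) =
      Subtype.val (p := fun g : GalL (towerLevV p S hpS V i M).1.1 =>
        g ∈ HV S V (towerLevV p S hpS V i M)) g.1 := rfl

/-- **the binders `(g, hg, n, χN, hgn, hs)` of `GlobalInv91.alpha_extras_sesRes`** for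
`N = ker (Gal(Ω_i·ℚ_M/K) → Gal(Ω_i/K)) ≤ ↥(HV S V j)`: `n = p^{e₁}`, `χN` = the tower character over
the base `Ω_i` (transported along `N ≃ N.map subtype`), bijective, with a generator mapped to `1`. -/
theorem exists_alpha_char (i : LevV S V) (M : ℕ) :
    ∃ (j₁ e₁ : ℕ) (_ : j₁ + e₁ = M)
      (h : towerField p (j₁ + e₁) ≤ (towerLevV p S hpS V i M).1.1)
      (hj₁ : ∀ g ∈ kerQL p S hpS V hV hS i M,
        towerCharL p (towerLevV p S hpS V i M).1.1 hp2 j₁
          ((towerField_mono p (Nat.le_add_right j₁ e₁)).trans h) g = 1),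
      Function.Bijective ((towerCharK p hp2 (towerLevV p S hpS V i M).1.1
        (kerQL p S hpS V hV hS i M) j₁ e₁ h hj₁).comp
          (kerQEquiv p S hpS V hV hS i M).toMonoidHom) ∧
      ∃ g : ↥(SCDatum.q ((scFamV S V hV hS).mono (towerLevV_le p S hpS V i M))).ker,
        (∀ x, x ∈ Subgroup.zpowers g) ∧ g ^ (p ^ e₁) = 1 ∧
        chiVal ((towerCharK p hp2 (towerLevV p S hpS V i M).1.1
          (kerQL p S hpS V hV hS i M) j₁ e₁ h hj₁).comp
            (kerQEquiv p S hpS V hV hS i M).toMonoidHom) g = 1 := by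
  obtain ⟨j₁, e₁, hje, h, hj₁, hbij⟩ :=
    exists_towerCharK_kerQL_bijective p hp2 S hpS V hV hS i M
  have hb : Function.Bijective ((towerCharK p hp2 (towerLevV p S hpS V i M).1.1
      (kerQL p S hpS V hV hS i M) j₁ e₁ h hj₁).comp
        (kerQEquiv p S hpS V hV hS i M).toMonoidHom) :=
    hbij.comp (kerQEquiv p S hpS V hV hS i M).bijective
  exact ⟨j₁, e₁, hje, h, hj₁, hb, exists_generator_of_bijective _ hb⟩

end KerChar

end Fermat.Agent.S55.CycloGlobal87.D2Level
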