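/-
S55 leaf 35j3-TOWER-LOCAL-DEG, layer form (helper87): `hdeg` / `hpow` for the kernel `Zb = ker χ` of the
QUOTIENT tower character `χ = quotChar (towerCharK …) V hV : ↥H ⧸ V →* ℤ/p^m` — the literal binder of
`DegSum22.hsplit_layer` (`(Zb.comap (mk' V)).map H.subtype`) and of the `hsplit` fields of
`GlobalInv91.FinLayerHyp` / `LimDesc99.TowerModelHyp`.
-/
import Mathlib
import Fermat.Agent.S55.CycloGlobal87.LocalDeg

set_option autoImplicit false

namespace Fermat.Agent.S55.CycloGlobal87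

open Fermat.Agent.S55.GlobalInv91 Fermat.Agent.S55.Idele73

section Group

universe u

variable {G : Type u} [Group G] {n : ℕ} (ψ : G →* Multiplicative (ZMod n))
  (V : Subgroup G) [V.Normal] (hV : V ≤ ψ.ker)

/-- the preimage in `G` of the kernel of the induced character of `G ⧸ V` is `ker ψ`. -/
theorem comap_ker_quotChar :
    (quotChar ψ V hV).ker.comap (QuotientGroup.mk' V) = ψ.ker := by
  ext g
  rw [Subgroup.mem_comap, MonoidHom.mem_ker, MonoidHom.mem_ker, QuotientGroup.mk'_apply,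
    quotChar_mk]

end Group

section Field

open Fermat.Agent.Lib.FrobeniusExists

open Fermat.Agent.S55.Idele73.Basic (Qbar GalL resL resL_apply resL_surjective locHom)

variable (p : ℕ) [hp : Fact p.Prime] (hp2 : p ≠ 2) (q : ℕ) [hq : Fact q.Prime]

/-- the subgroup of `Gal(Ω/ℚ)` attached to the kernel of the quotient tower character over `K`:
`((ker χ).comap (mk' V)).map H.subtype = H ⊓ ker χ_{j+m}`. -/
theorem map_comap_ker_quotChar_towerCharK (Ω : IntermediateField ℚ Qbar) [Normal ℚ Ω]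
    (H : Subgroup (GalL Ω)) (j m : ℕ) (h : towerField p (j + m) ≤ Ω)
    (hj : ∀ g ∈ H, towerCharL p Ω hp2 j
      ((towerField_mono p (Nat.le_add_right j m)).trans h) g = 1)
    (V : Subgroup ↥H) [V.Normal] (hV : V ≤ (towerCharK p hp2 Ω H j m h hj).ker) :
    ((quotChar (towerCharK p hp2 Ω H j m h hj) V hV).ker.comap (QuotientGroup.mk' V)).map
        H.subtype = H ⊓ (towerCharL p Ω hp2 (j + m) h).ker := by
  rw [comap_ker_quotChar, map_ker_towerCharK]

/-- **`hdeg` of `DegSum22.hsplit_layer`, LITERALLY**, for `Zb := ker (quotChar (towerCharK …) V hV)`,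
`n := p^k`, any `φ` with the range of `locHom q Ω` (e.g. `Local.jE q Ω`), as soon as the level
`j + m` of the tower is `≥ M₀(p, q, k, t)` (`H.index < p^(t+1)`). -/
theorem exists_level_hdeg_layer (k t : ℕ) :
    ∃ M₀, ∀ (j m : ℕ), M₀ ≤ j + m →
      ∀ (Ω : IntermediateField ℚ Qbar) [Normal ℚ Ω] [FiniteDimensional ℚ Ω]
      (h : towerField p (j + m) ≤ Ω) (H : Subgroup (GalL Ω)) (_hH : H.index < p ^ (t + 1))
      (hj : ∀ g ∈ H, towerCharL p Ω hp2 j
        ((towerField_mono p (Nat.le_add_right j m)).trans h) g = 1)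
      (V : Subgroup ↥H) [V.Normal] (hV : V ≤ (towerCharK p hp2 Ω H j m h hj).ker)
      {Γ : Type} [Group Γ] (φ : Γ →* GalL Ω) (_hφ : φ.range = (locHom q Ω).range) (x : GalL Ω),
      p ^ k ∣ (Mackey.twSub φ
          (((quotChar (towerCharK p hp2 Ω H j m h hj) V hV).ker.comap
            (QuotientGroup.mk' V)).map H.subtype) x).relIndex (Mackey.twSub φ H x) := by
  obtain ⟨M₀, hM₀⟩ := exists_level_pow_dvd_relIndex_twSub_of_range p hp2 q k t
  refine ⟨M₀, fun j m hjm Ω _ _ h H hH hj V _ hV Γ _ φ hφ x => ?_⟩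
  rw [map_comap_ker_quotChar_towerCharK]
  exact hM₀ (j + m) hjm Ω h H hH φ hφ x

/-- **`hpow` of `IdeleCoh54.UnrLocal.res_isCob₂_of_nsmul` for the same `Z`** (cyclic decomposition
group at `q`, e.g. `q ∉ S`). -/
theorem exists_level_hpow_layer (k t : ℕ) :
    ∃ M₀, ∀ (j m : ℕ), M₀ ≤ j + m →
      ∀ (Ω : IntermediateField ℚ Qbar) [Normal ℚ Ω] [FiniteDimensional ℚ Ω]
      (h : towerField p (j + m) ≤ Ω) (H : Subgroup (GalL Ω)) (_hH : H.index < p ^ (t + 1))
      (hj : ∀ g ∈ H, towerCharL p Ω hp2 j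
        ((towerField_mono p (Nat.le_add_right j m)).trans h) g = 1)
      (V : Subgroup ↥H) [V.Normal] (hV : V ≤ (towerCharK p hp2 Ω H j m h hj).ker)
      (_hcyc : IsCyclic (locHom q Ω).range)
      (s : ↥(((quotChar (towerCharK p hp2 Ω H j m h hj) V hV).ker.comap
        (QuotientGroup.mk' V)).map H.subtype)) (γ : GalL Ω),
      γ * (s : GalL Ω) * γ⁻¹ ∈ (locHom q Ω).range →
        ∃ s' : H, γ * (s' : GalL Ω) * γ⁻¹ ∈ (locHom q Ω).range ∧
          (s : GalL Ω) = (s' : GalL Ω) ^ p ^ k := by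
  obtain ⟨M₀, hM₀⟩ := exists_level_hpow p hp2 q k t
  refine ⟨M₀, fun j m hjm Ω _ _ h H hH hj V _ hV hcyc s γ hs => ?_⟩
  have hmem : (s : GalL Ω) ∈ H ⊓ (towerCharL p Ω hp2 (j + m) h).ker := by
    rw [← map_comap_ker_quotChar_towerCharK p hp2 Ω H j m h hj V hV]
    exact s.2
  exact hM₀ (j + m) hjm Ω h H hH hcyc ⟨(s : GalL Ω), hmem⟩ γ hs

end Field

end Fermat.Agent.S55.CycloGlobal87
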