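/-
S55 leaf 35j3-TOWER-LOCAL-DEG, ideal part (helper87): the J-SPLIT of the ideal part
`I^S(Ω) = ⨁_{ℓ ∉ S} Coind ℤ` (helper44's `IdeleVal44.IS Ω S`) by a deep enough layer of the
cyclotomic tower.

`IdeleCoh54.IdealSys.res_isCob₂_of_nsmul_IS` asks its hypothesis `hpow` at EVERY `ℓ ∉ S` for one
subgroup `M`; for `M = H ⊓ ker χ_M` (tower layer) no single `M` works at all `ℓ` (the level needed
at `ℓ` is unbounded in `ℓ`).  But a cochain has finite support, and at the primes outside the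
support the component is `0`:

* `res_isCob₂_of_nsmul_IS_supp`: the support-restricted form of (J3) for the ideal part;
* `exists_level_hpow_finset`: `hpow` uniformly over a FINITE set of primes;
* `exists_level_res_isCob₂_IS` (+ the layer form `exists_level_res_isCob₂_IS_layer`): a cocycle of
  `H = Gal(Ω/K)` with values in `I^S(Ω)`, killed by `p^k` modulo coboundaries and supported in a
  finite set `T` of primes, becomes a coboundary on the tower layer `H ⊓ ker χ_M`, `M ≥ M₀(p,T,k,t)`.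
-/
import Mathlib
import Fermat.Agent.S55.IdeleCoh54.IdealSys
import Fermat.Agent.S55.IdeleCoh54.IdealInfl
import Fermat.Agent.S55.CycloGlobal87.LocalDegLayer
import Fermat.Agent.S55.FrobFin98.Cyclic

set_option autoImplicit false

namespace Fermat.Agent.S55.CycloGlobal87.IdealSplit

open groupCohomology Fermat.Agent.S55.GlobalInv91 Fermat.Agent.S55.CycloRecip37.DescendK
  Fermat.Agent.S55.IdeleCoh54 Fermat.Agent.S55.IdeleCoh54.IdealSys Fermat.Agent.S55.IdeleVal44
  Fermat.Agent.S55.CycloGlobal87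

open Fermat.Agent.S55.Idele73.Basic (Qbar GalL locHom)

attribute [local instance] factPrimes44

/-! ### (I1) the support-restricted (J3) for the ideal part -/

section Supp

variable (L : IntermediateField ℚ Qbar) [Normal ℚ L] [FiniteDimensional ℚ L]
  (S : Finset Nat.Primes)

/-- **(J3) for the ideal part, support-restricted**: `hpow` is only needed at the primes `ℓ ∉ S`
where the cochain has a non-zero component. -/
theorem res_isCob₂_of_nsmul_IS_supp {H M : Subgroup (GalL L)} (h : M ≤ H) (m : ℕ)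
    {c : H × H → IS L S} (hc : c ∈ cocycles₂ (resH (IS L S) H))
    (hm : IsCob₂ (resH (IS L S) H) (m • c))
    (hpow : ∀ (ℓ : OutS S), (∃ x : H × H, dsRep.toDS _ (c x) ℓ ≠ 0) →
      ∀ (s : M) (γ : GalL L), γ * s * γ⁻¹ ∈ (locHom ℓ.1.1 L).range →
        ∃ s' : H, γ * s' * γ⁻¹ ∈ (locHom ℓ.1.1 L).range ∧ (s : GalL L) = (s' : GalL L) ^ m) :
    IsCob₂ (resH (IS L S) M) (resCochain (IS L S) h c) := by
  refine isCob₂_ds (fun ℓ : OutS S => Zq L ℓ.1.1) M _ (fun ℓ => ?_)
  by_cases hℓ : ∃ x : H × H, dsRep.toDS _ (c x) ℓ ≠ 0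
  · -- the `ℓ`-component (helper54's argument)
    set cℓ : H × H → Zq L ℓ.1.1 := fun p => dsRep.toDS _ (c p) ℓ with hcℓ
    have hcℓmem : cℓ ∈ cocycles₂ (resH (Zq L ℓ.1.1) H) := by
      rw [mem_cocycles₂_iff] at hc ⊢
      intro a b j
      have := congrArg (fun x => dsRep.toDS _ x ℓ) (hc a b j)
      simpa [dsRep.toDS_add, dsRep.ρ_apply] using this
    have hmℓ : IsCob₂ (resH (Zq L ℓ.1.1) H) (m • cℓ) := by
      obtain ⟨x, hx⟩ := hm
      refine ⟨fun a => dsRep.toDS _ (x a) ℓ, fun a b => ?_⟩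
      have := congrArg (fun y => dsRep.toDS _ y ℓ) (hx a b)
      have e : dsRep.toDS (fun ℓ : OutS S => Zq L ℓ.1.1) ((m • c) (a, b)) ℓ = (m • cℓ) (a, b) :=
        rfl
      rw [← e, ← this]
      rfl
    exact UnrLocal.res_isCob₂_of_nsmul (locHom ℓ.1.1 L) H h m hcℓmem hmℓ (hpow ℓ hℓ)
  · -- the component vanishes identically
    push Not at hℓ
    refine ⟨fun _ => 0, fun a b => ?_⟩
    simp only [map_zero, sub_zero, add_zero]
    exact (hℓ _).symm

end Supp

/-! ### (I4) the support does not grow under inflation -/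

section Infl

open Fermat.Agent.S55.Idele73.Basic (resL)

variable (Ω Ω' : IntermediateField ℚ Qbar) [Normal ℚ Ω] [Normal ℚ Ω'] [FiniteDimensional ℚ Ω]
  [FiniteDimensional ℚ Ω'] (S : Finset Nat.Primes)
  (r : GalL Ω' →* GalL Ω) (hr : r.comp (resL Ω') = resL Ω)

/-- the inflation `I^S(Ω) → I^S(Ω')` (helper54's `IdealInfl.inflIS`) does not enlarge the support:
the set `T` of primes carrying a class at the starting level serves at every higher level. -/
theorem toDS_ne_zero_of_inflIS_ne_zero (z : IS Ω S) (ℓ : OutS S)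
    (h : dsRep.toDS _ (IdealInfl.inflIS Ω Ω' S r hr z) ℓ ≠ 0) : dsRep.toDS _ z ℓ ≠ 0 := by
  intro h0
  apply h
  rw [IdealInfl.inflIS_apply, h0, map_zero]

end Infl

/-! ### (I2) `hpow` uniformly over a finite set of primes -/

section Tower

open Fermat.Agent.Lib.FrobeniusExists

variable (p : ℕ) [hp : Fact p.Prime] (hp2 : p ≠ 2)

/-- a property holding eventually at each prime holds eventually, uniformly on a finite set of
primes. -/
theorem exists_uniform_level {P : Nat.Primes → ℕ → Prop}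
    (hP : ∀ ℓ : Nat.Primes, ∃ M₀, ∀ M ≥ M₀, P ℓ M) (T : Finset Nat.Primes) :
    ∃ M₀, ∀ M ≥ M₀, ∀ ℓ ∈ T, P ℓ M := by
  choose f hf using hP
  exact ⟨T.sup f, fun M hM ℓ hℓ => hf ℓ M (le_trans (Finset.le_sup hℓ) hM)⟩

/-- **`hpow` uniformly over a finite set `T` of primes.** -/
theorem exists_level_hpow_finset (T : Finset Nat.Primes) (k t : ℕ) :
    ∃ M₀, ∀ M ≥ M₀, ∀ ℓ ∈ T,
      ∀ (Ω : IntermediateField ℚ Qbar) [Normal ℚ Ω] [FiniteDimensional ℚ Ω]
      (h : towerField p M ≤ Ω) (H : Subgroup (GalL Ω)) (_hH : H.index < p ^ (t + 1))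
      (_hcyc : IsCyclic (locHom ℓ.1 Ω).range)
      (s : ↥(H ⊓ (towerCharL p Ω hp2 M h).ker)) (γ : GalL Ω),
      γ * (s : GalL Ω) * γ⁻¹ ∈ (locHom ℓ.1 Ω).range →
        ∃ s' : H, γ * (s' : GalL Ω) * γ⁻¹ ∈ (locHom ℓ.1 Ω).range ∧
          (s : GalL Ω) = (s' : GalL Ω) ^ p ^ k :=
  exists_uniform_level (fun ℓ => exists_level_hpow p hp2 ℓ.1 k t) T

/-! ### (I3) the ideal part splits on a deep tower layer -/

/-- **the J-SPLIT of the ideal part.**  `M₀` depends only on `(p, T, k, t)`: for every level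
`Ω ⊇ ℚ_M`, `M ≥ M₀`, unramified outside `S`, every `H = Gal(Ω/K)` of index `< p^(t+1)`, a 2-cocycle
of `H` with values in `I^S(Ω)`, with `p^k • c` a coboundary and with support in `T`, is a
coboundary on the tower layer `H ⊓ ker χ_M = Gal(Ω/K·ℚ_M)`. -/
theorem exists_level_res_isCob₂_IS (S : Finset Nat.Primes) (T : Finset Nat.Primes) (k t : ℕ) :
    ∃ M₀, ∀ M ≥ M₀,
      ∀ (Ω : IntermediateField ℚ Qbar) [Normal ℚ Ω] [FiniteDimensional ℚ Ω]
      (_hΩ : Ω.IsUnramifiedOutside S) (h : towerField p M ≤ Ω) (H : Subgroup (GalL Ω))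
      (_hH : H.index < p ^ (t + 1)) (c : H × H → IS Ω S)
      (_hc : c ∈ cocycles₂ (resH (IS Ω S) H))
      (_hm : IsCob₂ (resH (IS Ω S) H) (p ^ k • c))
      (_hsupp : ∀ ℓ : OutS S, (∃ x : H × H, dsRep.toDS _ (c x) ℓ ≠ 0) → ℓ.1 ∈ T),
      IsCob₂ (resH (IS Ω S) (H ⊓ (towerCharL p Ω hp2 M h).ker))
        (resCochain (IS Ω S) (inf_le_left : H ⊓ (towerCharL p Ω hp2 M h).ker ≤ H) c) := by
  obtain ⟨M₀, hM₀⟩ := exists_level_hpow_finset p hp2 T k t
  refine ⟨M₀, fun M hM Ω _ _ hΩ h H hH c hc hm hsupp => ?_⟩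
  refine res_isCob₂_of_nsmul_IS_supp Ω S inf_le_left (p ^ k) hc hm (fun ℓ hℓ s γ hs => ?_)
  have hunr : FrobFin98.IsUnrAt ℓ.1.1 Ω := FrobFin98.isUnrAt_of_isUnramifiedOutside ℓ.1.1 Ω hΩ ℓ.2
  exact hM₀ M hM ℓ.1 (hsupp ℓ hℓ) Ω h H hH (FrobFin98.isCyclic_range hunr) s γ hs

/-- transport of a coboundary statement along an equality of subgroups. -/
theorem isCob₂_resCochain_congr {k Γ : Type} [CommRing k] [Group Γ] (C : Rep k Γ)
    {H M M' : Subgroup Γ} (e : M = M') (h : M ≤ H) (h' : M' ≤ H) (c : H × H → C)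
    (hc : IsCob₂ (resH C M') (resCochain C h' c)) : IsCob₂ (resH C M) (resCochain C h c) := by
  subst e
  exact hc

/-- **the same for the kernel of the ONTO tower character over `K`** (`OverK.towerCharK`; the `χ`
of `GlobalInv91.FinLayerHyp` / `LimDesc99.TowerModelHyp` at `Γ := ↥H`), transported to
`Subgroup (GalL Ω)` by `H.subtype`. -/
theorem exists_level_res_isCob₂_IS_towerCharK (S : Finset Nat.Primes) (T : Finset Nat.Primes)
    (k t : ℕ) :
    ∃ M₀, ∀ (j m : ℕ), M₀ ≤ j + m →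
      ∀ (Ω : IntermediateField ℚ Qbar) [Normal ℚ Ω] [FiniteDimensional ℚ Ω]
      (_hΩ : Ω.IsUnramifiedOutside S) (h : towerField p (j + m) ≤ Ω) (H : Subgroup (GalL Ω))
      (_hH : H.index < p ^ (t + 1))
      (hj : ∀ g ∈ H, towerCharL p Ω hp2 j
        ((towerField_mono p (Nat.le_add_right j m)).trans h) g = 1)
      (c : H × H → IS Ω S) (_hc : c ∈ cocycles₂ (resH (IS Ω S) H))
      (_hm : IsCob₂ (resH (IS Ω S) H) (p ^ k • c))
      (_hsupp : ∀ ℓ : OutS S, (∃ x : H × H, dsRep.toDS _ (c x) ℓ ≠ 0) → ℓ.1 ∈ T),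
      IsCob₂ (resH (IS Ω S) ((towerCharK p hp2 Ω H j m h hj).ker.map H.subtype))
        (resCochain (IS Ω S) (Subgroup.map_subtype_le _) c) := by
  obtain ⟨M₀, hM₀⟩ := exists_level_res_isCob₂_IS p hp2 S T k t
  refine ⟨M₀, fun j m hjm Ω _ _ hΩ h H hH hj c hc hm hsupp => ?_⟩
  exact isCob₂_resCochain_congr (IS Ω S) (map_ker_towerCharK p hp2 Ω H j m h hj) _ inf_le_left c
    (hM₀ (j + m) hjm Ω hΩ h H hH c hc hm hsupp)

end Tower

end Fermat.Agent.S55.CycloGlobal87.IdealSplit
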