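/-
S55 seam 34 → 35 (helper87): the carry cochains/classes of the GLOBAL tower character of level
`j + m` restricted to `H = Gal(Ω/K)` (the objects of `CycloRecip37.TowerRecip.tower_reciprocity`
and of `SysH2.invJ_push₂_carryH2`, stated with `towerCharL p Ω hp2 (j + m) h`) are LITERALLY those of
the onto character `towerCharK` over `K` (the `χ` of `GlobalInv91.tower_layer`).
-/
import Mathlib
import Fermat.Agent.S55.CycloGlobal87.OverK

set_option autoImplicit false

namespace Fermat.Agent.S55.CycloGlobal87

open Fermat.Agent.S55.GlobalInv91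

section Generic

universe u v

variable {k Γ : Type u} [CommRing k] [Group Γ] (C : Rep.{v, u, u} k Γ)

/-- the carry cochain only depends on the modulus as a number and on the values `(χ g).val`. -/
theorem carry_eq_of_val_eq {n n' : ℕ} (hn : n = n') (χ : Γ →* Multiplicative (ZMod n))
    (χ' : Γ →* Multiplicative (ZMod n'))
    (h : ∀ g : Γ, (chiVal χ g).val = (chiVal χ' g).val) (a : C) :
    carry C χ a = carry C χ' a := by
  funext x
  rw [carry, carry]
  congr 1
  unfold carryNat
  rw [h x.1, h x.2, hn]

end Generic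

section Tower

open Fermat.Agent.Lib.FrobeniusExists

open Fermat.Agent.S55.Idele73.Basic (Qbar GalL resL resL_apply resL_surjective locHom)

variable (p : ℕ) [hp : Fact p.Prime] (hp2 : p ≠ 2)
  (Ω : IntermediateField ℚ Qbar) [Normal ℚ Ω] (H : Subgroup (GalL Ω)) (j m : ℕ)
  (h : towerField p (j + m) ≤ Ω)
  (hj : ∀ g ∈ H, towerCharL p Ω hp2 j ((towerField_mono p (Nat.le_add_right j m)).trans h) g = 1)

/-- the `p^j * p^m`-form and the `p^(j+m)`-form of the level `j + m` character have the same carry
cochains. -/
theorem carry_towerCharMulL {k : Type} [CommRing k] (C : Rep k (GalL Ω)) (a : C) :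
    carry C (towerCharMulL p Ω hp2 j m h) a = carry C (towerCharL p Ω hp2 (j + m) h) a :=
  carry_eq_of_val_eq C (pow_add p j m).symm _ _
    (fun g => val_chiVal_towerCharMulL p hp2 Ω j m h g) a

/-- **the seam, cochain form**: over `H = Gal(Ω/K)`, `K ⊇ ℚ_j`, the carry cochains of the restricted
global character of level `j + m` are those of the character `towerCharK` (onto `ℤ/p^m` when
`K ∩ ℚ_∞ = ℚ_j`). -/
theorem carry_towerCharL_comp_subtype {k : Type} [CommRing k] (C : Rep k H) (a : C) :
    carry C ((towerCharL p Ω hp2 (j + m) h).comp H.subtype) a =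
      carry C (towerCharK p hp2 Ω H j m h hj) a := by
  rw [← carry_towerCharK p hp2 Ω H j m h hj C a]
  exact carry_eq_of_val_eq C (pow_add p j m) _ _
    (fun g => (val_chiVal_towerCharMulL p hp2 Ω j m h (g : GalL Ω)).symm) a

/-- **the seam, class form**: `δχ_{j+m}|_H ∪ a = δχ^K_m ∪ a` in `H²(H, C)`. -/
theorem carryH2_towerCharL_comp_subtype {k : Type} [CommRing k] (C : Rep.{0, 0, 0} k H)
    (a : C.ρ.invariants) :
    carryH2 C ((towerCharL p Ω hp2 (j + m) h).comp H.subtype) a =
      carryH2 C (towerCharK p hp2 Ω H j m h hj) a := by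
  rw [carryH2_apply, carryH2_apply]
  congr 1
  exact Subtype.ext (carry_towerCharL_comp_subtype p hp2 Ω H j m h hj C (a : C))

end Tower

end Fermat.Agent.S55.CycloGlobal87
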