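/-
S55 leaf 35-D2-TOWER-LEVEL, complements (helper87):

* `exists_towerCharK_data_HV`: the data `(j₀, hje, hj, hex)` of the onto tower character over `K` at
  every deep enough level of `LevV S V`, in the shape of the binders `(j m hle hj hm hex)` of
  helper54's `IdeleCoh54.ToH2Bridge.D2.finLayerHyp_towerCharK'` (`hex` instead of surjectivity);
* the degenerate layer `m = 0` (needed by `halpha` at the levels `Ω_i` with `p ∤ [Ω_i : K]`):
  `carry_eq_zero_of_subsingleton`, `carryH2_eq_zero_of_subsingleton`, `finLayerHyp_sesRes_zero`.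
-/
import Mathlib
import Fermat.Agent.S55.CycloGlobal87.D2Level
import Fermat.Agent.S55.GlobalInv91.InstD2
import Fermat.Agent.S55.CLDescent35.FinFields

set_option autoImplicit false
set_option linter.unusedSectionVars false

namespace Fermat.Agent.S55.CycloGlobal87.D2Level

open CategoryTheory groupCohomology Rep
open Fermat.Agent.S55.Profin15 Fermat.Agent.S55.Idele73.Basic
open Fermat.Agent.S55.ESDiv20 hiding GQ Qb
open Fermat.Agent.S55.CS79.FamilyCS Fermat.Agent.S55.CS79.Limit
open Fermat.Agent.S55.LimDesc99 Fermat.Agent.S55.LimDesc99.D2 Fermat.Agent.S55.CD3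
open Fermat.Agent.S55.GlobalInv91 Fermat.Agent.S55.CycloGlobal87
open Fermat.Agent.Lib.FrobeniusExists (isAlgebraic_Qb isAlgClosure_Qb isGalois_Qb)

attribute [local instance] isAlgebraic_Qb isAlgClosure_Qb isGalois_Qb

section Data

variable (p : ℕ) [hp : Fact p.Prime] (hp2 : p ≠ 2) (S : Finset Nat.Primes) (V : Subgroup GQ)

/-- **the data of the onto tower character over `K`, `hex` form**: `j₀` = the exact level of
`K ∩ ℚ_∞` (`Gal(Ω_j/K)` fixes `ℚ_{j₀}` and does not fix `ℚ_{j₀+1}`), and `j₀ + e ≤ M`. -/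
theorem exists_towerCharK_data_HV (e : ℕ) (he : 1 ≤ e) :
    ∃ M₁, ∀ M ≥ M₁, ∀ (j : LevV S V) (hM : towerField p M ≤ j.1.1),
      ∃ (j₀ : ℕ) (hje : j₀ + e ≤ M)
        (_ : ∀ g ∈ HV S V j, towerCharL p j.1.1 hp2 j₀
          ((towerField_mono p (Nat.le_add_right j₀ e)).trans
            ((towerField_mono p hje).trans hM)) g = 1),
        ∃ g ∈ HV S V j, towerCharL p j.1.1 hp2 (j₀ + 1)
          ((towerField_mono p (Nat.add_le_add_left he j₀)).trans
            ((towerField_mono p hje).trans hM)) g ≠ 1 := by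
  refine ⟨V.index + e, fun M hM j hMj => ?_⟩
  obtain ⟨j₀, hj₀M, hj₀, hex⟩ := exists_towerLevel p hp2 j.1.1 (HV S V j) M hMj
  have hdvd : p ^ j₀ ∣ (HV S V j).index :=
    pow_dvd_index_of_towerCharL_eq_one p hp2 j.1.1 (HV S V j) j₀ _ hj₀
  rw [index_HV] at hdvd
  have h1 : p ^ j₀ ≤ V.index :=
    Nat.le_of_dvd (Nat.pos_of_ne_zero (index_ne_zero_of_levV S V j)) hdvd
  have h2 : j₀ < p ^ j₀ := Nat.lt_pow_self hp.out.one_lt
  have hje : j₀ + e ≤ M := by omega
  exact ⟨j₀, hje, hj₀, hex (by omega)⟩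

end Data

/-! ### the degenerate layer `m = 0` -/

section Zero

universe u

variable {k Γ : Type u} [CommRing k] [Group Γ] (C : Rep k Γ) {n : ℕ} [NeZero n]

/-- the carry cocycle of a character with values in the trivial group `ℤ/1` vanishes. -/
theorem carry_eq_zero_of_subsingleton [Subsingleton (ZMod n)]
    (χ : Γ →* Multiplicative (ZMod n)) (a : C) : carry C χ a = 0 := by
  funext x
  rw [carry, Pi.zero_apply]
  have hn : n = 1 := by
    by_contra hne
    have : Nontrivial (ZMod n) := by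
      have : Fact (1 < n) := ⟨lt_of_le_of_ne (Nat.one_le_iff_ne_zero.mpr (NeZero.ne n))
        (Ne.symm hne)⟩
      exact ZMod.nontrivial n
    exact not_subsingleton (ZMod n) ‹_›
  subst hn
  have h0 : ∀ z : ZMod 1, z.val = 0 := fun z => by
    have := ZMod.val_lt z
    omega
  show carryNat 1 (chiVal χ x.1) (chiVal χ x.2) • a = 0
  unfold carryNat
  rw [h0, h0]
  simp

theorem carryH2_eq_zero_of_subsingleton [Subsingleton (ZMod n)]
    (χ : Γ →* Multiplicative (ZMod n)) (a : C.ρ.invariants) : carryH2 C χ a = 0 := by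
  rw [carryH2_eq_zero_iff, carry_eq_zero_of_subsingleton]
  exact ⟨fun _ => 0, fun g h => by simp⟩

end Zero

section ZeroLayer

open Fermat.Agent.S55.IdeleVal44 Fermat.Agent.S55.CLDescent35.Hilbert90
  Fermat.Agent.S55.Adapt77.HcycGlue Fermat.Agent.S55.CLDescent35

variable {p : ℕ} [Fact p.Prime] {L : IntermediateField ℚ Qbar} [Normal ℚ L]
  [FiniteDimensional ℚ L] {S : Finset Nat.Primes} (h : UnrOutside L S) (hS : S.Nonempty)
  (H : Subgroup (GalL L))

include hS in
/-- **the degenerate tower layer `m = 0`** in the D2 model (binders of helper35's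
`CLDescent35.FinFields.finLayerHyp_of`): needed by `halpha` of `SCFamily.exists_invCp` at the levels
`Ω_i` with `p ∤ [Ω_i : K]`, where the exact `p`-power of the index is `p^0`. -/
theorem finLayerHyp_zero (h31 : FirstIneqOut (CS h) ⊤ p) {H₁ : Subgroup (GalL L)}
    (hH : OutTop.H0 p L ≤ H₁) (h32 : SecondIneqOut (CS h) H₁ p)
    (χ : ↥H →* Multiplicative (ZMod (p ^ 0))) {T : Type*} [AddCommGroup T]
    (invJ : H2 (sesRes h H).X₂ →+ T) :
    FinLayerHyp (sesRes h H) p 0 χ invJ := by
  have hsub : Subsingleton (ZMod (p ^ 0)) := by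
    rw [pow_zero]; infer_instance
  refine FinFields.finLayerHyp_of h hS H h31 hH h32 χ invJ ⟨1, Subsingleton.elim _ _⟩
    (fun b => ?_) ⟨0, ?_⟩
  · rw [carryH2_eq_zero_of_subsingleton, map_zero, map_zero]
  · rw [map_zero, map_zero, addOrderOf_zero, pow_zero]

end ZeroLayer

end Fermat.Agent.S55.CycloGlobal87.D2Level
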