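/-
S55 / 35-D2 halpha (helper87): the carry seam for the character of
`N = ker (Gal(Ω_i·ℚ_M/K) → Gal(Ω_i/K))` of `D2Level.exists_alpha_char`:

`hcarry_kerQ`: the carry cochains of `χN = towerCharK ∘ kerQEquiv` on `N ≤ ↥(HV S V j)` are those of
the restricted GLOBAL tower character `towerCharL p Ω_j hp2 (j₁+e₁) _` — literally the binder
`hcarry` of helper91's `GlobalInv91.SysSub.toH2_restrict_carryH2 / toH2_restrict_pushS₂_carryH2`
(with `χ'' := towerCharL …`), so that `hrecTN` of `alpha_extras_sesRes` is helper37's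
`RecTInfl.totalSysU_carry_eq_zero'` after one rewrite.
-/
import Mathlib
import Fermat.Agent.S55.CycloGlobal87.D2Level
import Fermat.Agent.S55.CycloGlobal87.CarrySeam
import Fermat.Agent.S55.GlobalInv91.SysSub
import Fermat.Agent.S55.CycloRecip37.RecTInfl

set_option autoImplicit false
set_option linter.unusedSectionVars false

namespace Fermat.Agent.S55.CycloGlobal87.D2Level

open CategoryTheory groupCohomology
open Fermat.Agent.S55.Profin15 Fermat.Agent.S55.Idele73.Basic
open Fermat.Agent.S55.ESDiv20 hiding GQ Qb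
open Fermat.Agent.S55.CS79.FamilyCS Fermat.Agent.S55.CS79.Limit Fermat.Agent.S55.CS79.LevelClass
open Fermat.Agent.S55.LimDesc99 Fermat.Agent.S55.LimDesc99.D2 Fermat.Agent.S55.CD3
open Fermat.Agent.S55.GlobalInv91 Fermat.Agent.S55.CycloGlobal87
open Fermat.Agent.S55.CycloRecip37.DescendK
open Fermat.Agent.S55.CycloRecip37 Fermat.Agent.S55.CycloRecip37.GSys
open Fermat.Agent.S55.CycloRecip37.SysH2 Fermat.Agent.S55.CycloRecip37.SysMore
open Fermat.Agent.S55.CycloRecip37.RecT Fermat.Agent.S55.CycloRecip37.Uncond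
open Fermat.Agent.S55.IdeleVal44 Fermat.Agent.S55.QZ33
open Fermat.Agent.S55.CLDescent35.Hilbert90
open Fermat.Agent.Lib.FrobeniusExists (isAlgebraic_Qb isAlgClosure_Qb isGalois_Qb)

attribute [local instance] isAlgebraic_Qb isAlgClosure_Qb isGalois_Qb
attribute [local instance] factPrimes44

variable (p : ℕ) [hp : Fact p.Prime] (hp2 : p ≠ 2) (S : Finset Nat.Primes)
  (hpS : (⟨p, hp.out⟩ : Nat.Primes) ∈ S) (V : Subgroup GQ)
  (hV : IsOpenSub (globalLevels S) V) (hS : S.Nonempty)

/-- **the binder `hcarry` of `SysSub.toH2_restrict_(pushS₂_)carryH2`** for the character of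
`exists_alpha_char`. -/
theorem hcarry_kerQ (i : LevV S V) (M : ℕ) (j₁ e₁ : ℕ)
    (h : towerField p (j₁ + e₁) ≤ (towerLevV p S hpS V i M).1.1)
    (hj₁ : ∀ g ∈ kerQL p S hpS V hV hS i M,
      towerCharL p (towerLevV p S hpS V i M).1.1 hp2 j₁
        ((towerField_mono p (Nat.le_add_right j₁ e₁)).trans h) g = 1)
    {k : Type} [CommRing k] (C : Rep.{0, 0, 0} k (GalL (towerLevV p S hpS V i M).1.1))
    (a : C) :
    carry (resH (resH C (HV S V (towerLevV p S hpS V i M)))
        (SCDatum.q ((scFamV S V hV hS).mono (towerLevV_le p S hpS V i M))).ker)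
      ((towerCharK p hp2 (towerLevV p S hpS V i M).1.1 (kerQL p S hpS V hV hS i M) j₁ e₁ h
        hj₁).comp (kerQEquiv p S hpS V hV hS i M).toMonoidHom) a =
    carry (resH (resH C (HV S V (towerLevV p S hpS V i M)))
        (SCDatum.q ((scFamV S V hV hS).mono (towerLevV_le p S hpS V i M))).ker)
      (((towerCharL p (towerLevV p S hpS V i M).1.1 hp2 (j₁ + e₁) h).comp
        (HV S V (towerLevV p S hpS V i M)).subtype).comp
          (SCDatum.q ((scFamV S V hV hS).mono (towerLevV_le p S hpS V i M))).ker.subtype) a := by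
  funext x
  have key := congrFun (carry_towerCharL_comp_subtype p hp2 (towerLevV p S hpS V i M).1.1
    (kerQL p S hpS V hV hS i M) j₁ e₁ h hj₁ (resH C (kerQL p S hpS V hV hS i M)) a)
    (kerQEquiv p S hpS V hV hS i M x.1, kerQEquiv p S hpS V hV hS i M x.2)
  exact key.symm

/-- **the binder `hrecTN` of `GlobalInv91.alpha_extras_sesRes`** at `H := HV S V j`,
`N := ker (Gal(Ω_j/K) → Gal(Ω_i/K))`, `χN` of `exists_alpha_char`,
`invJN := toH2 (restrict (HV S V j) (totalSysU hp2 Ω_j S)) N`: reciprocity on the tower classes of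
`N` (helper37's depth-free `RecTInfl.totalSysU_carry_eq_zero'` through helper91's `SysSub`). -/
theorem hrecTN_kerQ (i : LevV S V) (M : ℕ) (j₁ e₁ : ℕ)
    (h : towerField p (j₁ + e₁) ≤ (towerLevV p S hpS V i M).1.1)
    (hj₁ : ∀ g ∈ kerQL p S hpS V hV hS i M,
      towerCharL p (towerLevV p S hpS V i M).1.1 hp2 j₁
        ((towerField_mono p (Nat.le_add_right j₁ e₁)).trans h) g = 1)
    (b : (Rep.res (SCDatum.q ((scFamV S V hV hS).mono (towerLevV_le p S hpS V i M))).ker.subtype
      (sesRes (unrOutside S (towerLevV p S hpS V i M).1.1 (towerLevV p S hpS V i M).1.unr)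
        (HV S V (towerLevV p S hpS V i M))).X₁).ρ.invariants) :
    toH2 (restrict (HV S V (towerLevV p S hpS V i M))
        (totalSysU hp2 (towerLevV p S hpS V i M).1.1 S))
      (SCDatum.q ((scFamV S V hV hS).mono (towerLevV_le p S hpS V i M))).ker
      ((pushS₂ (sesRes (unrOutside S (towerLevV p S hpS V i M).1.1
          (towerLevV p S hpS V i M).1.unr) (HV S V (towerLevV p S hpS V i M))).f
        (SCDatum.q ((scFamV S V hV hS).mono (towerLevV_le p S hpS V i M))).ker).hom
        (carryH2 (Rep.res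
          (SCDatum.q ((scFamV S V hV hS).mono (towerLevV_le p S hpS V i M))).ker.subtype
          (sesRes (unrOutside S (towerLevV p S hpS V i M).1.1 (towerLevV p S hpS V i M).1.unr)
            (HV S V (towerLevV p S hpS V i M))).X₁)
          ((towerCharK p hp2 (towerLevV p S hpS V i M).1.1 (kerQL p S hpS V hV hS i M) j₁ e₁ h
            hj₁).comp (kerQEquiv p S hpS V hV hS i M).toMonoidHom) b)) = 0 := by
  have key := SysSub.toH2_restrict_pushS₂_carryH2
    (totalSysU hp2 (towerLevV p S hpS V i M).1.1 S)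
    (deltaS (unrOutside S (towerLevV p S hpS V i M).1.1 (towerLevV p S hpS V i M).1.unr))
    (HV S V (towerLevV p S hpS V i M))
    (SCDatum.q ((scFamV S V hV hS).mono (towerLevV_le p S hpS V i M))).ker
    (towerCharL p (towerLevV p S hpS V i M).1.1 hp2 (j₁ + e₁) h)
    ((towerCharK p hp2 (towerLevV p S hpS V i M).1.1 (kerQL p S hpS V hV hS i M) j₁ e₁ h
      hj₁).comp (kerQEquiv p S hpS V hV hS i M).toMonoidHom)
    (fun a => hcarry_kerQ p hp2 S hpS V hV hS i M j₁ e₁ h hj₁ (Lx (towerLevV p S hpS V i M).1.1) a)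
    b
  refine key.trans ?_
  refine RecTInfl.totalSysU_carry_eq_zero' hp2 (towerLevV p S hpS V i M).1.unr
    (unrOutside S (towerLevV p S hpS V i M).1.1 (towerLevV p S hpS V i M).1.unr) hpS (j₁ + e₁) h _
    _ ?_
  rintro g ⟨g', hg', rfl⟩
  exact b.2 ⟨g', hg'⟩

end Fermat.Agent.S55.CycloGlobal87.D2Level
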