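/-
S55 leaf 35-D2-TOWER-LEVEL, complement 2 (helper87): the data of helper37's
`CycloRecip37.RecTSeam.finLayerHyp_D2` at the levels of `LevV S V`.

`finLayerHyp_D2` asks `ℚ_{j+m+s} ⊆ L` with `p^s ≥` the `p`-part of `[Gal(L/ℚ) : core Gal(L/K)]`
(= degree of the Galois closure of `K`).  This index does not depend on the level:

* `normalCore_map_comap`, `index_normalCore_HV : (HV S V j).normalCore.index = V.normalCore.index`;
* `exists_core_bound : ∃ s, ∀ j i, p^i ∣ (HV S V j).normalCore.index → i ≤ s`;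
* `exists_finLayerHyp_D2_data`: for `e ≥ 1` and every level `Ω_j ⊇ ℚ_M`, `M ≥ M₁(V, e)`, the binders
  `(j₀, s, h', hj, hex, hs)` of `finLayerHyp_D2` with `m := e`.
-/
import Mathlib
import Fermat.Agent.S55.CycloGlobal87.D2Level

set_option autoImplicit false
set_option linter.unusedSectionVars false

namespace Fermat.Agent.S55.CycloGlobal87.D2Level

open Fermat.Agent.S55.Profin15 Fermat.Agent.S55.Idele73.Basic
open Fermat.Agent.S55.ESDiv20 hiding GQ Qb
open Fermat.Agent.S55.CS79.FamilyCS Fermat.Agent.S55.CS79.Limit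
open Fermat.Agent.S55.LimDesc99 Fermat.Agent.S55.LimDesc99.D2 Fermat.Agent.S55.CD3
open Fermat.Agent.S55.GlobalInv91 Fermat.Agent.S55.CycloGlobal87
open Fermat.Agent.Lib.FrobeniusExists (isAlgebraic_Qb isAlgClosure_Qb isGalois_Qb)

attribute [local instance] isAlgebraic_Qb isAlgClosure_Qb isGalois_Qb

section Core

/-- the normal core of the image under a surjection whose kernel is contained in the subgroup. -/
theorem normalCore_map_comap {G Q : Type*} [Group G] [Group Q] (f : G →* Q)
    (hf : Function.Surjective f) (V : Subgroup G) (hV : f.ker ≤ V) :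
    (V.map f).normalCore.comap f = V.normalCore := by
  ext x
  rw [Subgroup.mem_comap]
  constructor
  · intro hx g
    have h1 : f g * f x * (f g)⁻¹ ∈ V.map f := hx (f g)
    rw [← map_mul, ← map_inv, ← map_mul, ← Subgroup.mem_comap,
      Subgroup.comap_map_eq_self hV] at h1
    exact h1
  · intro hx b
    obtain ⟨g, rfl⟩ := hf b
    rw [← map_mul, ← map_inv, ← map_mul]
    exact Subgroup.mem_map_of_mem f (hx g)

theorem index_normalCore_map {G Q : Type*} [Group G] [Group Q] (f : G →* Q)
    (hf : Function.Surjective f) (V : Subgroup G) (hV : f.ker ≤ V) :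
    (V.map f).normalCore.index = V.normalCore.index := by
  rw [← normalCore_map_comap f hf V hV, Subgroup.index_comap_of_surjective _ hf]

end Core

variable (p : ℕ) [hp : Fact p.Prime] (hp2 : p ≠ 2) (S : Finset Nat.Primes) (V : Subgroup GQ)

/-- the degree of the Galois closure of `K` does not depend on the level. -/
theorem index_normalCore_HV (j : LevV S V) :
    (HV S V j).normalCore.index = V.normalCore.index :=
  index_normalCore_map (resL j.1.1) (resL_surjective j.1.1) V j.2

/-- **the bound `s` of `finLayerHyp_D2` is uniform in the level.** -/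
theorem exists_core_bound :
    ∃ s, ∀ (j : LevV S V) (i : ℕ), p ^ i ∣ (HV S V j).normalCore.index → i ≤ s := by
  refine ⟨V.normalCore.index, fun j i hi => ?_⟩
  have hne : (HV S V j).normalCore.index ≠ 0 := Subgroup.index_ne_zero_of_finite
  rw [index_normalCore_HV] at hi hne
  have h1 : p ^ i ≤ V.normalCore.index := Nat.le_of_dvd (Nat.pos_of_ne_zero hne) hi
  have h2 : i < p ^ i := Nat.lt_pow_self hp.out.one_lt
  omega

/-- **the binders `(j m s h' hj hm hex hs)` of `CycloRecip37.RecTSeam.finLayerHyp_D2`** (with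
`m := e`, `H := HV S V j`, `L := Ω_j`) at every level `Ω_j ⊇ ℚ_M`, `M ≥ M₁(V, e)`. -/
theorem exists_finLayerHyp_D2_data (e : ℕ) (he : 1 ≤ e) :
    ∃ (s M₁ : ℕ), ∀ M ≥ M₁, ∀ (j : LevV S V) (hM : towerField p M ≤ j.1.1),
      ∃ (j₀ : ℕ) (hje : j₀ + e + s ≤ M)
        (_ : ∀ g ∈ HV S V j, towerCharL p j.1.1 hp2 j₀
          ((towerField_mono p (Nat.le_add_right j₀ e)).trans
            ((towerField_mono p (Nat.le_add_right (j₀ + e) s)).trans
              ((towerField_mono p hje).trans hM))) g = 1)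
        (_ : ∃ g ∈ HV S V j, towerCharL p j.1.1 hp2 (j₀ + 1)
          ((towerField_mono p (Nat.add_le_add_left he j₀)).trans
            ((towerField_mono p (Nat.le_add_right (j₀ + e) s)).trans
              ((towerField_mono p hje).trans hM))) g ≠ 1),
        ∀ i, p ^ i ∣ (HV S V j).normalCore.index → i ≤ s := by
  obtain ⟨s, hs⟩ := exists_core_bound p S V
  refine ⟨s, V.index + e + s, fun M hM j hMj => ?_⟩
  obtain ⟨j₀, hj₀M, hj₀, hex⟩ := exists_towerLevel p hp2 j.1.1 (HV S V j) M hMj
  have hdvd : p ^ j₀ ∣ (HV S V j).index :=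
    pow_dvd_index_of_towerCharL_eq_one p hp2 j.1.1 (HV S V j) j₀ _ hj₀
  rw [index_HV] at hdvd
  have h1 : p ^ j₀ ≤ V.index :=
    Nat.le_of_dvd (Nat.pos_of_ne_zero (index_ne_zero_of_levV S V j)) hdvd
  have h2 : j₀ < p ^ j₀ := Nat.lt_pow_self hp.out.one_lt
  have hje : j₀ + e + s ≤ M := by omega
  exact ⟨j₀, hje, hj₀, hex (by omega), hs j⟩

end Fermat.Agent.S55.CycloGlobal87.D2Level
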