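/-
S55 / 35-D2 (helper87): SEAM TEST — the tower layer of helper37's
`CycloRecip37.RecTSeam.finLayerHyp_D2` at the levels of helper99's D2 family.

`exists_finLayerHyp_HV`: for every degree `p^e` (`e ≥ 1`) there is `M₁ = M₁(V, e)` such that at
EVERY level `Ω_j ⊇ ℚ_M`, `M ≥ M₁`, of `LevV S V` the onto tower character
`χ = towerCharK … : ↥(HV S V j) →* ℤ/p^e` satisfies `FinLayerHyp (sesRes h_j (HV S V j)) p e χ invJ_j`
with `invJ_j = toH2top (restrict (HV S V j) (totalSysU hp2 Ω_j S))` — the first conjunct of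
`hsplit` / `halpha` of `LimDesc99.D2.exists_invCp_V_fin`.  The two inequalities are binders
(unconditional on main: helper77 `Leaf33Final`, helper30 `SecondInst30`).
-/
import Mathlib
import Fermat.Agent.S55.CycloGlobal87.D2Level3
import Fermat.Agent.S55.CycloRecip37.RecTSeam

set_option autoImplicit false
set_option linter.unusedSectionVars false

namespace Fermat.Agent.S55.CycloGlobal87.D2Level

open Fermat.Agent.S55.Profin15 Fermat.Agent.S55.Idele73.Basic
open Fermat.Agent.S55.ESDiv20 hiding GQ Qb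
open Fermat.Agent.S55.CS79.FamilyCS Fermat.Agent.S55.CS79.Limit Fermat.Agent.S55.CS79.LevelClass
open Fermat.Agent.S55.LimDesc99 Fermat.Agent.S55.LimDesc99.D2 Fermat.Agent.S55.CD3
open Fermat.Agent.S55.GlobalInv91 Fermat.Agent.S55.CycloGlobal87
open Fermat.Agent.S55.CycloRecip37.GSys Fermat.Agent.S55.CycloRecip37.SysH2
  Fermat.Agent.S55.CycloRecip37.RecT Fermat.Agent.S55.CycloRecip37.TowerRecip
  Fermat.Agent.S55.IdeleVal44 Fermat.Agent.S55.CLDescent35.Hilbert90
  Fermat.Agent.S55.Adapt77.HcycGlue Fermat.Agent.S55.CLDescent35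
open Fermat.Agent.Lib.FrobeniusExists (isAlgebraic_Qb isAlgClosure_Qb isGalois_Qb)

attribute [local instance] isAlgebraic_Qb isAlgClosure_Qb isGalois_Qb

variable {p : ℕ} [hp : Fact p.Prime] (hp2 : p ≠ 2) (S : Finset Nat.Primes) (hpS : pp p ∈ S)
  (V : Subgroup GQ)

include hpS in
/-- **`FinLayerHyp` at every deep enough level of the D2 family**, any prescribed degree `p^e`. -/
theorem exists_finLayerHyp_HV (e : ℕ) (he : 1 ≤ e)
    (h31 : ∀ j : LevV S V, FirstIneqOut (CS (unrOutside S j.1.1 j.1.unr)) ⊤ p)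
    (h32 : ∀ j : LevV S V, SecondIneqOut (CS (unrOutside S j.1.1 j.1.unr))
      (OutTop.H0 p j.1.1) p) :
    ∃ M₁, ∀ M ≥ M₁, ∀ (j : LevV S V) (_hM : towerField p M ≤ j.1.1),
      ∃ (j₀ : ℕ) (hle : towerField p (j₀ + e) ≤ j.1.1)
        (hj : ∀ g ∈ HV S V j, towerCharL p j.1.1 hp2 j₀
          ((towerField_mono p (Nat.le_add_right j₀ e)).trans hle) g = 1),
        FinLayerHyp (sesRes (unrOutside S j.1.1 j.1.unr) (HV S V j)) p e
          (towerCharK p hp2 j.1.1 (HV S V j) j₀ e hle hj)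
          (toH2top (restrict (HV S V j) (totalSysU hp2 j.1.1 S))) := by
  obtain ⟨s, M₁, hM₁⟩ := exists_finLayerHyp_D2_data p hp2 S V e he
  refine ⟨M₁, fun M hM j hMj => ?_⟩
  obtain ⟨j₀, hje, hj, hex, hs⟩ := hM₁ M hM j hMj
  exact ⟨j₀, _, hj,
    Fermat.Agent.S55.CycloRecip37.RecTSeam.finLayerHyp_D2 hp2 j.1.unr
      (unrOutside S j.1.1 j.1.unr) hpS (HV S V j) (h31 j) le_rfl (h32 j) j₀ e s
      ((towerField_mono p hje).trans hMj) hj he hex hs⟩

end Fermat.Agent.S55.CycloGlobal87.D2Level
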