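/-
S55 / 35-D2 (helper87): **`hsplit` of `LimDesc99.D2.exists_invCp_V_fin` / `A3.hasFormationDatum_of_D2`
for the concrete family `D2.scFamV`, LITERAL**, with
`invJU j := toH2top (restrict (HV S V j) (totalSysU hp2 Ω_j S))` (helper37's total system).

= helper22 `DegSum22.D2.exists_level_res₂_tr₂_towerCharK` (the class dies on the tower layer at every
deep level) + `D2Level.towerLevV` (such a level exists in `LevV S V`) + `D2Level.exists_finLayerHyp_HV`
(the tower layer satisfies `FinLayerHyp`: helper37 `finLayerHyp_D2`).  Remaining binders: the two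
inequalities at the levels (unconditional on main) and the injectivity of the local systems.
-/
import Mathlib
import Fermat.Agent.S55.CycloGlobal87.D2Layer
import Fermat.Agent.S55.DegSum22.D2Hsplit
import Fermat.Agent.S55.Adapt77.FinLayer33V
import Fermat.Agent.S55.Adapt77.Leaf33Final

set_option autoImplicit false
set_option linter.unusedSectionVars false

namespace Fermat.Agent.S55.CycloGlobal87.D2Level

open CategoryTheory groupCohomology
open Fermat.Agent.S55.Profin15 Fermat.Agent.S55.Idele73.Basic Fermat.Agent.S55.Idele73.Local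
open Fermat.Agent.S55.ESDiv20 hiding GQ Qb
open Fermat.Agent.S55.CS79.FamilyCS Fermat.Agent.S55.CS79.Limit Fermat.Agent.S55.CS79.LevelClass
open Fermat.Agent.S55.LimDesc99 Fermat.Agent.S55.LimDesc99.D2 Fermat.Agent.S55.CD3
open Fermat.Agent.S55.GlobalInv91 Fermat.Agent.S55.CycloGlobal87
open Fermat.Agent.S55.CycloRecip37 Fermat.Agent.S55.CycloRecip37.GSys
  Fermat.Agent.S55.CycloRecip37.SysH2
  Fermat.Agent.S55.CycloRecip37.RecT Fermat.Agent.S55.CycloRecip37.TowerRecip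
  Fermat.Agent.S55.IdeleVal44 Fermat.Agent.S55.CLDescent35.Hilbert90
  Fermat.Agent.S55.Adapt77.HcycGlue Fermat.Agent.S55.CLDescent35 Fermat.Agent.S55.QZ33
open Fermat.Agent.Lib.FrobeniusExists (isAlgebraic_Qb isAlgClosure_Qb isGalois_Qb)

attribute [local instance] isAlgebraic_Qb isAlgClosure_Qb isGalois_Qb
attribute [local instance] factPrimes44

variable {p : ℕ} [hp : Fact p.Prime] (hp2 : p ≠ 2) (S : Finset Nat.Primes) (hpS : pp p ∈ S)
  (V : Subgroup GQ) (hV : IsOpenSub (globalLevels S) V)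

/-- the finite-level total invariant of the D2 family (helper37's `totalSysU`). -/
noncomputable def invJU87 (j : LevV S V) :
    H2 ((scFamV S V hV ⟨_, hpS⟩).d j).Y.X₂ →+ QZ :=
  show H2 (sesRes (unrOutside S j.1.1 j.1.unr) (HV S V j)).X₂ →+ QZ from
    toH2top (restrict (HV S V j) (totalSysU hp2 j.1.1 S))

theorem invJU87_eq (j : LevV S V) :
    invJU87 hp2 S hpS V hV j = toH2top (restrict (HV S V j) (totalSysU hp2 j.1.1 S)) := rfl

/-- `FinLayerHyp` in the vocabulary of the family. -/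
theorem finLayerHyp_scFamV (j : LevV S V) {m : ℕ}
    (χ : ↥(HV S V j) →* Multiplicative (ZMod (p ^ m)))
    (hfin : FinLayerHyp (sesRes (unrOutside S j.1.1 j.1.unr) (HV S V j)) p m χ
      (toH2top (restrict (HV S V j) (totalSysU hp2 j.1.1 S)))) :
    FinLayerHyp ((scFamV S V hV ⟨_, hpS⟩).d j).Y p m χ (invJU87 hp2 S hpS V hV j) :=
  hfin

/-- **`hsplit` for the D2 family, literal.** -/
theorem hsplit_D2
    (h31 : ∀ j : LevV S V, FirstIneqOut (CS (unrOutside S j.1.1 j.1.unr)) ⊤ p)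
    (h32 : ∀ j : LevV S V, SecondIneqOut (CS (unrOutside S j.1.1 j.1.unr))
      (OutTop.H0 p j.1.1) p)
    {T : Type*} [AddCommGroup T]
    (I : ∀ (j : LevV S V) (q : InS S), GSys.Sys (EUnits q.1.1 j.1.1) T)
    (hinj : ∀ (j : LevV S V) (q : InS S) (D : Subgroup (DE q.1.1 j.1.1))
      (f : DE q.1.1 j.1.1 × DE q.1.1 j.1.1 → EUnits q.1.1 j.1.1),
      IsCocOn (EUnits q.1.1 j.1.1) D f → (I j q).S D f = 0 →
        IsCobOn (EUnits q.1.1 j.1.1) D f)
    (i : LevV S V) (x : H2 ((scFamV S V hV ⟨_, hpS⟩).d i).Y.X₂) (n : ℕ)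
    (hx : (p ^ n) • x = 0) :
    ∃ (j : LevV S V) (h : j ≤ i) (m : ℕ)
      (χ : ((scFamV S V hV ⟨_, hpS⟩).d j).Q →* Multiplicative (ZMod (p ^ m))),
      FinLayerHyp ((scFamV S V hV ⟨_, hpS⟩).d j).Y p m χ (invJU87 hp2 S hpS V hV j) ∧
      (res₂ ((scFamV S V hV ⟨_, hpS⟩).d j).Y.X₂ χ.ker).hom
        ((SCDatum.tr₂ ((scFamV S V hV ⟨_, hpS⟩).mono h)).hom x) = 0 := by
  have h0 := Fermat.Agent.S55.DegSum22.D2.exists_level_res₂_tr₂_towerCharK (T := T)
    S V hV ⟨_, hpS⟩ p hp2 i x n hx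
  cases h0 with
  | intro M₀ hM₀ =>
  have he1 : 1 ≤ max M₀ 1 := le_max_right _ _
  have h1 := exists_finLayerHyp_HV hp2 S hpS V (max M₀ 1) he1 h31 h32
  cases h1 with
  | intro M₁ hM₁ =>
  have hpS' : (⟨p, hp.out⟩ : Nat.Primes) ∈ S := hpS
  have h2 := hM₁ M₁ le_rfl (towerLevV p S hpS' V i M₁) (towerField_le_towerLevV p S hpS' V i M₁)
  cases h2 with
  | intro j₀ h3 =>
  cases h3 with
  | intro hle h4 =>
  cases h4 with
  | intro hj hfin =>
  exact ⟨towerLevV p S hpS' V i M₁, towerLevV_le p S hpS' V i M₁, max M₀ 1,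
    towerCharK p hp2 (towerLevV p S hpS' V i M₁).1.1 (HV S V (towerLevV p S hpS' V i M₁)) j₀
      (max M₀ 1) hle hj,
    finLayerHyp_scFamV hp2 S hpS V hV _ _ hfin,
    hM₀ j₀ (max M₀ 1) (le_trans (le_max_left _ _) (Nat.le_add_left _ j₀))
      (towerLevV p S hpS' V i M₁) (towerLevV_le p S hpS' V i M₁) hle hj
      (I (towerLevV p S hpS' V i M₁)) (hinj (towerLevV p S hpS' V i M₁))⟩

/-! ### the unconditional form -/

include hpS in
/-- `FinLayerHyp` at every deep enough level, with the second inequality at `H₁ = ⊤`. -/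
theorem exists_finLayerHyp_HV_top (e : ℕ) (he : 1 ≤ e)
    (h31 : ∀ j : LevV S V, FirstIneqOut (CS (unrOutside S j.1.1 j.1.unr)) ⊤ p)
    (h32 : ∀ j : LevV S V, SecondIneqOut (CS (unrOutside S j.1.1 j.1.unr)) ⊤ p) :
    ∃ M₁, ∀ M ≥ M₁, ∀ (j : LevV S V) (_hM : towerField p M ≤ j.1.1),
      ∃ (j₀ : ℕ) (hle : towerField p (j₀ + e) ≤ j.1.1)
        (hj : ∀ g ∈ HV S V j, towerCharL p j.1.1 hp2 j₀
          ((towerField_mono p (Nat.le_add_right j₀ e)).trans hle) g = 1),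
        FinLayerHyp (sesRes (unrOutside S j.1.1 j.1.unr) (HV S V j)) p e
          (towerCharK p hp2 j.1.1 (HV S V j) j₀ e hle hj)
          (toH2top (restrict (HV S V j) (totalSysU hp2 j.1.1 S))) := by
  obtain ⟨s, M₁, hM₁⟩ := exists_finLayerHyp_D2_data p hp2 S V e he
  refine ⟨M₁, fun M hM j hMj => ?_⟩
  obtain ⟨j₀, hje, hj, hex, hs⟩ := hM₁ M hM j hMj
  exact ⟨j₀, _, hj,
    Fermat.Agent.S55.CycloRecip37.RecTSeam.finLayerHyp_D2 hp2 j.1.unr
      (unrOutside S j.1.1 j.1.unr) hpS (HV S V j) (h31 j) le_top (h32 j) j₀ e s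
      ((towerField_mono p hje).trans hMj) hj he hex hs⟩

include hpS hp2 in
/-- the two inequalities at every level of `LevV S V`, unconditionally (`μ_p ⊆ K`). -/
theorem firstIneqOut_levV (j : LevV S V) :
    FirstIneqOut (CS (unrOutside S j.1.1 j.1.unr)) ⊤ p :=
  Fermat.Agent.S55.Adapt77.Leaf33Final.firstIneqOut_CS ⟨_, hpS⟩ hp2 (unrOutside S j.1.1 j.1.unr)

include hpS hp2 in
theorem secondIneqOut_levV (hmu : ∀ σ ∈ V, ExtCitation.cycloChar p σ = 1) (j : LevV S V) :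
    SecondIneqOut (CS (unrOutside S j.1.1 j.1.unr)) ⊤ p := by
  have hex := Fermat.Agent.S55.Adapt77.FinLayer33V.exists_primitiveRoot_of_ker_le (p := p)
    j.1.1 j.2 hmu
  exact Fermat.Agent.S55.Adapt77.Leaf33Final.secondIneqOut_top hpS hp2 j.1.unr
    (unrOutside S j.1.1 j.1.unr) hex.choose hex.choose_spec

/-- **`hsplit` for the D2 family from any producer of the tower layers.** -/
theorem hsplit_D2_of_fin
    (hFin : ∀ e : ℕ, 1 ≤ e → ∃ M₁, ∀ M ≥ M₁, ∀ (j : LevV S V) (_hM : towerField p M ≤ j.1.1),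
      ∃ (j₀ : ℕ) (hle : towerField p (j₀ + e) ≤ j.1.1)
        (hj : ∀ g ∈ HV S V j, towerCharL p j.1.1 hp2 j₀
          ((towerField_mono p (Nat.le_add_right j₀ e)).trans hle) g = 1),
        FinLayerHyp (sesRes (unrOutside S j.1.1 j.1.unr) (HV S V j)) p e
          (towerCharK p hp2 j.1.1 (HV S V j) j₀ e hle hj)
          (toH2top (restrict (HV S V j) (totalSysU hp2 j.1.1 S))))
    {T : Type*} [AddCommGroup T]
    (I : ∀ (j : LevV S V) (q : InS S), GSys.Sys (EUnits q.1.1 j.1.1) T)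
    (hinj : ∀ (j : LevV S V) (q : InS S) (D : Subgroup (DE q.1.1 j.1.1))
      (f : DE q.1.1 j.1.1 × DE q.1.1 j.1.1 → EUnits q.1.1 j.1.1),
      IsCocOn (EUnits q.1.1 j.1.1) D f → (I j q).S D f = 0 →
        IsCobOn (EUnits q.1.1 j.1.1) D f)
    (i : LevV S V) (x : H2 ((scFamV S V hV ⟨_, hpS⟩).d i).Y.X₂) (n : ℕ)
    (hx : (p ^ n) • x = 0) :
    ∃ (j : LevV S V) (h : j ≤ i) (m : ℕ)
      (χ : ((scFamV S V hV ⟨_, hpS⟩).d j).Q →* Multiplicative (ZMod (p ^ m))),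
      FinLayerHyp ((scFamV S V hV ⟨_, hpS⟩).d j).Y p m χ (invJU87 hp2 S hpS V hV j) ∧
      (res₂ ((scFamV S V hV ⟨_, hpS⟩).d j).Y.X₂ χ.ker).hom
        ((SCDatum.tr₂ ((scFamV S V hV ⟨_, hpS⟩).mono h)).hom x) = 0 := by
  have h0 := Fermat.Agent.S55.DegSum22.D2.exists_level_res₂_tr₂_towerCharK (T := T)
    S V hV ⟨_, hpS⟩ p hp2 i x n hx
  cases h0 with
  | intro M₀ hM₀ =>
  have he1 : 1 ≤ max M₀ 1 := le_max_right _ _
  have h1 := hFin (max M₀ 1) he1
  cases h1 with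
  | intro M₁ hM₁ =>
  have hpS' : (⟨p, hp.out⟩ : Nat.Primes) ∈ S := hpS
  have h2 := hM₁ M₁ le_rfl (towerLevV p S hpS' V i M₁) (towerField_le_towerLevV p S hpS' V i M₁)
  cases h2 with
  | intro j₀ h3 =>
  cases h3 with
  | intro hle h4 =>
  cases h4 with
  | intro hj hfin =>
  exact ⟨towerLevV p S hpS' V i M₁, towerLevV_le p S hpS' V i M₁, max M₀ 1,
    towerCharK p hp2 (towerLevV p S hpS' V i M₁).1.1 (HV S V (towerLevV p S hpS' V i M₁)) j₀
      (max M₀ 1) hle hj,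
    finLayerHyp_scFamV hp2 S hpS V hV _ _ hfin,
    hM₀ j₀ (max M₀ 1) (le_trans (le_max_left _ _) (Nat.le_add_left _ j₀))
      (towerLevV p S hpS' V i M₁) (towerLevV_le p S hpS' V i M₁) hle hj
      (I (towerLevV p S hpS' V i M₁)) (hinj (towerLevV p S hpS' V i M₁))⟩

/-- **`hsplit` for the D2 family, UNCONDITIONAL** (`p` odd, `p ∈ S`, `μ_p ⊆ K`): the literal
`hsplit` binder of `LimDesc99.D2.exists_invCp_V_fin` / `LimDesc99.A3.hasFormationDatum_of_D2` with
`invJU := invJU87 hp2 S hpS V hV` (= `toH2top (restrict (HV S V j) (totalSysU hp2 Ω_j S))`). -/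
theorem hsplit_D2_uncond (hmu : ∀ σ ∈ V, ExtCitation.cycloChar p σ = 1)
    (i : LevV S V) (x : H2 ((scFamV S V hV ⟨_, hpS⟩).d i).Y.X₂) (n : ℕ)
    (hx : (p ^ n) • x = 0) :
    ∃ (j : LevV S V) (h : j ≤ i) (m : ℕ)
      (χ : ((scFamV S V hV ⟨_, hpS⟩).d j).Q →* Multiplicative (ZMod (p ^ m))),
      FinLayerHyp ((scFamV S V hV ⟨_, hpS⟩).d j).Y p m χ (invJU87 hp2 S hpS V hV j) ∧
      (res₂ ((scFamV S V hV ⟨_, hpS⟩).d j).Y.X₂ χ.ker).hom
        ((SCDatum.tr₂ ((scFamV S V hV ⟨_, hpS⟩).mono h)).hom x) = 0 :=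
  hsplit_D2_of_fin hp2 S hpS V hV
    (fun e he => exists_finLayerHyp_HV_top hp2 S hpS V e he
      (firstIneqOut_levV hp2 S hpS V) (secondIneqOut_levV hp2 S hpS V hmu))
    (fun j q => Fermat.Agent.S55.CycloRecip37.Uncond.locSysU q.1 j.1.1)
    (fun _ _ _ _ hf h0 => Fermat.Agent.S55.CycloRecip37.WildInst.locSysE_inj _ hf h0)
    i x n hx

end Fermat.Agent.S55.CycloGlobal87.D2Level
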