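/-
S55 / 35-D2 halpha (helper87, insurance twin of helper91's D2Wire part 2): **the named Prop
`LimDesc99.A3.HAlpha hp2 S V hV ⟨_, hpS⟩` UNCONDITIONALLY** (`p` odd, `p ∈ S`, `μ_p ⊆ K = ℚbar^V`).

For a level `i`: `e := v_p |Gal(Ω_i/K)|`, `j := Ω_i·ℚ_M` (`M` deep enough for the tower layer of
degree `p^e` over `K`), `N := ker (Gal(Ω_j/K) → Gal(Ω_i/K)) ≅ Gal(ℚ_M/ℚ_M ∩ Ω_i)` cyclic of order
`p^{e₁}`.

* the layer: helper77 `FinLayerV.finLayerHyp_D2_V` (helper37 `finLayerHyp_D2`) with the tower data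
  of `D2Level.exists_finLayerHyp_D2_data`; `e = 0`: `FinLayerV.finLayerHyp_zero_V`;
* `|H²(Gal(Ω_i/K), C_S(Ω_i))(p)| ∣ p^e`: helper77 `FinLayer33V.hb`; `p^e ∣ [Gal(Ω_j/K) : N]`:
  `D2Level.index_ker_q`;
* `N`: helper91 `alpha_extras_sesRes` with `(g, χN)` of `D2Level.exists_alpha_char`, `hrecTN` of
  `D2AlphaSeam.hrecTN_kerQ` (helper37 depth-free reciprocity), `c₀` of helper6
  `FullDeg6.exists_totalSysU_carry_addOrderOf` through helper91 `SysSub.toH2_restrict_carryH2`;
  `hJ1` = helper37 `SysH2.toH2_res₂` + helper54 `toH2top_restrict`.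
-/
import Mathlib
import Fermat.Agent.S55.CycloGlobal87.D2AlphaSeam
import Fermat.Agent.S55.CycloGlobal87.D2HsplitWire
import Fermat.Agent.S55.GlobalInv91.InstD2Alpha
import Fermat.Agent.S55.FullDeg6.SigmaFull
import Fermat.Agent.S55.Adapt77.FinLayerV
import Fermat.Agent.S55.IdeleCoh54.ToH2Bridge

set_option autoImplicit false
set_option linter.unusedSectionVars false

namespace Fermat.Agent.S55.CycloGlobal87.D2Level

open CategoryTheory groupCohomology
open Fermat.Agent.S55.Profin15 Fermat.Agent.S55.Idele73.Basic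
open Fermat.Agent.S55.ESDiv20 hiding GQ Qb
open Fermat.Agent.S55.CS79.FamilyCS Fermat.Agent.S55.CS79.Limit Fermat.Agent.S55.CS79.LevelClass
open Fermat.Agent.S55.LimDesc99 Fermat.Agent.S55.LimDesc99.D2 Fermat.Agent.S55.CD3
open Fermat.Agent.S55.GlobalInv91 Fermat.Agent.S55.CycloGlobal87
open Fermat.Agent.S55.CycloRecip37.DescendK
open Fermat.Agent.S55.CycloRecip37 Fermat.Agent.S55.CycloRecip37.GSys
open Fermat.Agent.S55.CycloRecip37.SysH2 Fermat.Agent.S55.CycloRecip37.SysMore
open Fermat.Agent.S55.CycloRecip37.RecT Fermat.Agent.S55.CycloRecip37.Uncond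
open Fermat.Agent.S55.IdeleVal44 Fermat.Agent.S55.QZ33
open Fermat.Agent.S55.CLDescent35.Hilbert90
open Fermat.Agent.Lib.FrobeniusExists (isAlgebraic_Qb isAlgClosure_Qb isGalois_Qb)

attribute [local instance] isAlgebraic_Qb isAlgClosure_Qb isGalois_Qb
attribute [local instance] factPrimes44

variable (p : ℕ) [hp : Fact p.Prime] (hp2 : p ≠ 2) (S : Finset Nat.Primes)
  (hpS : (⟨p, hp.out⟩ : Nat.Primes) ∈ S) (V : Subgroup GQ)
  (hV : IsOpenSub (globalLevels S) V) (hS : S.Nonempty)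

/-- **the binders `c₀ hc₀` of `alpha_extras_sesRes`** for `N = ker q`: a class of `H²(N, J_S × I^S)`
whose total invariant has exact order `p^{e₁} = |N|` (helper6's prime of degree one). -/
theorem exists_c₀_kerQ (i : LevV S V) (M : ℕ) (j₁ e₁ : ℕ)
    (h : towerField p (j₁ + e₁) ≤ (towerLevV p S hpS V i M).1.1)
    (hj₁ : ∀ g ∈ kerQL p S hpS V hV hS i M,
      towerCharL p (towerLevV p S hpS V i M).1.1 hp2 j₁
        ((towerField_mono p (Nat.le_add_right j₁ e₁)).trans h) g = 1)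
    (hsurj : Function.Surjective (towerCharK p hp2 (towerLevV p S hpS V i M).1.1
      (kerQL p S hpS V hV hS i M) j₁ e₁ h hj₁)) :
    ∃ c₀ : H2 (Rep.res
        (SCDatum.q ((scFamV S V hV hS).mono (towerLevV_le p S hpS V i M))).ker.subtype
        (sesRes (unrOutside S (towerLevV p S hpS V i M).1.1 (towerLevV p S hpS V i M).1.unr)
          (HV S V (towerLevV p S hpS V i M))).X₂),
      addOrderOf (toH2 (restrict (HV S V (towerLevV p S hpS V i M))
          (totalSysU hp2 (towerLevV p S hpS V i M).1.1 S))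
        (SCDatum.q ((scFamV S V hV hS).mono (towerLevV_le p S hpS V i M))).ker c₀) = p ^ e₁ := by
  rcases Nat.eq_zero_or_pos e₁ with he | he
  · subst he
    refine ⟨0, ?_⟩
    exact (congrArg addOrderOf (map_zero _)).trans (addOrderOf_zero.trans (pow_zero p).symm)
  · obtain ⟨z, hz, hord⟩ := Fermat.Agent.S55.FullDeg6.exists_totalSysU_carry_addOrderOf p
      (towerLevV p S hpS V i M).1.1 S hp2 (towerLevV p S hpS V i M).1.unr
      (kerQL p S hpS V hV hS i M) j₁ e₁ h hj₁ he hsurj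
    have hinv : ∀ n : ↥(SCDatum.q ((scFamV S V hV hS).mono (towerLevV_le p S hpS V i M))).ker,
        (resH (resH (JIS (towerLevV p S hpS V i M).1.1 S) (HV S V (towerLevV p S hpS V i M)))
          (SCDatum.q ((scFamV S V hV hS).mono (towerLevV_le p S hpS V i M))).ker).ρ n z = z :=
      fun n => hz _ ⟨n.1, n.2, rfl⟩
    refine ⟨carryH2 (resH (resH (JIS (towerLevV p S hpS V i M).1.1 S)
        (HV S V (towerLevV p S hpS V i M)))
        (SCDatum.q ((scFamV S V hV hS).mono (towerLevV_le p S hpS V i M))).ker)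
      ((towerCharK p hp2 (towerLevV p S hpS V i M).1.1 (kerQL p S hpS V hV hS i M) j₁ e₁ h
        hj₁).comp (kerQEquiv p S hpS V hV hS i M).toMonoidHom) ⟨z, hinv⟩, ?_⟩
    have key := SysSub.toH2_restrict_carryH2
      (totalSysU hp2 (towerLevV p S hpS V i M).1.1 S)
      (HV S V (towerLevV p S hpS V i M))
      (SCDatum.q ((scFamV S V hV hS).mono (towerLevV_le p S hpS V i M))).ker
      (towerCharL p (towerLevV p S hpS V i M).1.1 hp2 (j₁ + e₁) h)
      ((towerCharK p hp2 (towerLevV p S hpS V i M).1.1 (kerQL p S hpS V hV hS i M) j₁ e₁ h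
        hj₁).comp (kerQEquiv p S hpS V hV hS i M).toMonoidHom)
      (fun a => hcarry_kerQ p hp2 S hpS V hV hS i M j₁ e₁ h hj₁
        (JIS (towerLevV p S hpS V i M).1.1 S) a)
      ⟨z, hinv⟩
    exact (congrArg addOrderOf key).trans hord

/-- `alpha_tail_kerQ` with the data of `exists_alpha_char` as binders. -/
theorem alpha_tail_kerQ_aux (hmu : ∀ σ ∈ V, ExtCitation.cycloChar p σ = 1) (i : LevV S V) (M : ℕ)
    (j₁ e₁ : ℕ) (h : towerField p (j₁ + e₁) ≤ (towerLevV p S hpS V i M).1.1)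
    (hj₁ : ∀ g ∈ kerQL p S hpS V hV hS i M,
      towerCharL p (towerLevV p S hpS V i M).1.1 hp2 j₁
        ((towerField_mono p (Nat.le_add_right j₁ e₁)).trans h) g = 1)
    (hsurj : Function.Surjective (towerCharK p hp2 (towerLevV p S hpS V i M).1.1
      (kerQL p S hpS V hV hS i M) j₁ e₁ h hj₁))
    (g : ↥(SCDatum.q ((scFamV S V hV hS).mono (towerLevV_le p S hpS V i M))).ker)
    (hg : ∀ x, x ∈ Subgroup.zpowers g) (hgn : g ^ (p ^ e₁) = 1)
    (hs : chiVal ((towerCharK p hp2 (towerLevV p S hpS V i M).1.1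
          (kerQL p S hpS V hV hS i M) j₁ e₁ h hj₁).comp
            (kerQEquiv p S hpS V hV hS i M).toMonoidHom) g = 1) :
    Limits.IsZero (groupCohomology (Rep.res
      (SCDatum.q ((scFamV S V hV hS).mono (towerLevV_le p S hpS V i M))).ker.subtype
      (sesRes (unrOutside S (towerLevV p S hpS V i M).1.1 (towerLevV p S hpS V i M).1.unr)
        (HV S V (towerLevV p S hpS V i M))).X₃) 1) ∧
    ∃ invJN : H2 (Rep.res
        (SCDatum.q ((scFamV S V hV hS).mono (towerLevV_le p S hpS V i M))).ker.subtype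
        (sesRes (unrOutside S (towerLevV p S hpS V i M).1.1 (towerLevV p S hpS V i M).1.unr)
          (HV S V (towerLevV p S hpS V i M))).X₂) →+ QZ,
      (∀ y : H2 (sesRes (unrOutside S (towerLevV p S hpS V i M).1.1
          (towerLevV p S hpS V i M).1.unr) (HV S V (towerLevV p S hpS V i M))).X₂,
        invJN ((res₂ (sesRes (unrOutside S (towerLevV p S hpS V i M).1.1
          (towerLevV p S hpS V i M).1.unr) (HV S V (towerLevV p S hpS V i M))).X₂
          (SCDatum.q ((scFamV S V hV hS).mono (towerLevV_le p S hpS V i M))).ker).hom y) =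
        (SCDatum.q ((scFamV S V hV hS).mono (towerLevV_le p S hpS V i M))).ker.index •
          toH2 (totalSysU hp2 (towerLevV p S hpS V i M).1.1 S)
            (HV S V (towerLevV p S hpS V i M)) y) ∧
      ∃ invCN : H2 (Rep.res
          (SCDatum.q ((scFamV S V hV hS).mono (towerLevV_le p S hpS V i M))).ker.subtype
          (sesRes (unrOutside S (towerLevV p S hpS V i M).1.1 (towerLevV p S hpS V i M).1.unr)
            (HV S V (towerLevV p S hpS V i M))).X₃) →+ QZ,
        Function.Injective invCN ∧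
        ∀ x : H2 (Rep.res
            (SCDatum.q ((scFamV S V hV hS).mono (towerLevV_le p S hpS V i M))).ker.subtype
            (sesRes (unrOutside S (towerLevV p S hpS V i M).1.1 (towerLevV p S hpS V i M).1.unr)
              (HV S V (towerLevV p S hpS V i M))).X₂),
          invCN ((pushS₂ (sesRes (unrOutside S (towerLevV p S hpS V i M).1.1
            (towerLevV p S hpS V i M).1.unr) (HV S V (towerLevV p S hpS V i M))).g
            (SCDatum.q ((scFamV S V hV hS).mono (towerLevV_le p S hpS V i M))).ker).hom x) =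
          invJN x := by
  have hne : NeZero (p ^ e₁) := ⟨pow_ne_zero _ hp.out.ne_zero⟩
  have hc := exists_c₀_kerQ p hp2 S hpS V hV hS i M j₁ e₁ h hj₁ hsurj
  refine Exists.elim hc fun c₀ hc₀ => ?_
  have key := alpha_extras_sesRes p
    (unrOutside S (towerLevV p S hpS V i M).1.1 (towerLevV p S hpS V i M).1.unr) hS
    (firstIneqOut_levV hp2 S hpS V (towerLevV p S hpS V i M))
    (secondIneqOut_levV hp2 S hpS V hmu (towerLevV p S hpS V i M))
    (HV S V (towerLevV p S hpS V i M)) le_top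
    (SCDatum.q ((scFamV S V hV hS).mono (towerLevV_le p S hpS V i M))).ker
    (isPGroup_ker_q p hp2 S hpS V hV hS i M) g hg
    ((towerCharK p hp2 (towerLevV p S hpS V i M).1.1 (kerQL p S hpS V hV hS i M) j₁ e₁ h
      hj₁).comp (kerQEquiv p S hpS V hV hS i M).toMonoidHom) hgn hs
    (toH2 (restrict (HV S V (towerLevV p S hpS V i M))
        (totalSysU hp2 (towerLevV p S hpS V i M).1.1 S))
      (SCDatum.q ((scFamV S V hV hS).mono (towerLevV_le p S hpS V i M))).ker)
    (hrecTN_kerQ p hp2 S hpS V hV hS i M j₁ e₁ h hj₁) c₀ hc₀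
  refine ⟨key.1, toH2 (restrict (HV S V (towerLevV p S hpS V i M))
        (totalSysU hp2 (towerLevV p S hpS V i M).1.1 S))
      (SCDatum.q ((scFamV S V hV hS).mono (towerLevV_le p S hpS V i M))).ker, ?_, key.2⟩
  intro y
  have h1 := toH2_res₂ (restrict (HV S V (towerLevV p S hpS V i M))
        (totalSysU hp2 (towerLevV p S hpS V i M).1.1 S))
      (SCDatum.q ((scFamV S V hV hS).mono (towerLevV_le p S hpS V i M))).ker y
  rw [Fermat.Agent.S55.IdeleCoh54.ToH2Bridge.toH2top_restrict] at h1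
  exact h1

/-- **the `N`-part of `halpha`** (`h1N invJN hJ1 invCN hinjN hcompN`) at the level
`j = towerLevV i M`, for EVERY `M`: helper91's `alpha_extras_sesRes` with all its inputs. -/
theorem alpha_tail_kerQ (hmu : ∀ σ ∈ V, ExtCitation.cycloChar p σ = 1) (i : LevV S V) (M : ℕ) :
    Limits.IsZero (groupCohomology (Rep.res
      (SCDatum.q ((scFamV S V hV hS).mono (towerLevV_le p S hpS V i M))).ker.subtype
      (sesRes (unrOutside S (towerLevV p S hpS V i M).1.1 (towerLevV p S hpS V i M).1.unr)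
        (HV S V (towerLevV p S hpS V i M))).X₃) 1) ∧
    ∃ invJN : H2 (Rep.res
        (SCDatum.q ((scFamV S V hV hS).mono (towerLevV_le p S hpS V i M))).ker.subtype
        (sesRes (unrOutside S (towerLevV p S hpS V i M).1.1 (towerLevV p S hpS V i M).1.unr)
          (HV S V (towerLevV p S hpS V i M))).X₂) →+ QZ,
      (∀ y : H2 (sesRes (unrOutside S (towerLevV p S hpS V i M).1.1
          (towerLevV p S hpS V i M).1.unr) (HV S V (towerLevV p S hpS V i M))).X₂,
        invJN ((res₂ (sesRes (unrOutside S (towerLevV p S hpS V i M).1.1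
          (towerLevV p S hpS V i M).1.unr) (HV S V (towerLevV p S hpS V i M))).X₂
          (SCDatum.q ((scFamV S V hV hS).mono (towerLevV_le p S hpS V i M))).ker).hom y) =
        (SCDatum.q ((scFamV S V hV hS).mono (towerLevV_le p S hpS V i M))).ker.index •
          toH2 (totalSysU hp2 (towerLevV p S hpS V i M).1.1 S)
            (HV S V (towerLevV p S hpS V i M)) y) ∧
      ∃ invCN : H2 (Rep.res
          (SCDatum.q ((scFamV S V hV hS).mono (towerLevV_le p S hpS V i M))).ker.subtype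
          (sesRes (unrOutside S (towerLevV p S hpS V i M).1.1 (towerLevV p S hpS V i M).1.unr)
            (HV S V (towerLevV p S hpS V i M))).X₃) →+ QZ,
        Function.Injective invCN ∧
        ∀ x : H2 (Rep.res
            (SCDatum.q ((scFamV S V hV hS).mono (towerLevV_le p S hpS V i M))).ker.subtype
            (sesRes (unrOutside S (towerLevV p S hpS V i M).1.1 (towerLevV p S hpS V i M).1.unr)
              (HV S V (towerLevV p S hpS V i M))).X₂),
          invCN ((pushS₂ (sesRes (unrOutside S (towerLevV p S hpS V i M).1.1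
            (towerLevV p S hpS V i M).1.unr) (HV S V (towerLevV p S hpS V i M))).g
            (SCDatum.q ((scFamV S V hV hS).mono (towerLevV_le p S hpS V i M))).ker).hom x) =
          invJN x := by
  refine Exists.elim (exists_alpha_char p hp2 S hpS V hV hS i M) fun j₁ h1 => ?_
  refine Exists.elim h1 fun e₁ h2 => ?_
  refine Exists.elim h2 fun _ h3 => ?_
  refine Exists.elim h3 fun h h4 => ?_
  refine Exists.elim h4 fun hj₁ h5 => ?_
  refine Exists.elim h5.2 fun g hg => ?_
  exact alpha_tail_kerQ_aux p hp2 S hpS V hV hS hmu i M j₁ e₁ h hj₁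
    (Function.Surjective.of_comp (g := kerQEquiv p S hpS V hV hS i M) h5.1.2) g hg.1 hg.2.1 hg.2.2

/-- the `halpha` conclusion at the level `i` from a tower layer at `j = towerLevV i M`. -/
theorem halpha_level_of_layer (hmu : ∀ σ ∈ V, ExtCitation.cycloChar p σ = 1) (i : LevV S V)
    (M m : ℕ)
    (χ : ↥(HV S V (towerLevV p S hpS V i M)) →* Multiplicative (ZMod (p ^ m)))
    (hyp : FinLayerHyp ((scFamV S V hV ⟨_, hpS⟩).d (towerLevV p S hpS V i M)).Y p m χ
      (toH2 (totalSysU hp2 (towerLevV p S hpS V i M).1.1 S) (HV S V (towerLevV p S hpS V i M))))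
    (hm : (Nat.card ↥(HV S V i)).factorization p = m) :
    ∃ (j : LevV S V) (h : j ≤ i) (m : ℕ)
      (χ : ((scFamV S V hV ⟨_, hpS⟩).d j).Q →* Multiplicative (ZMod (p ^ m))),
      FinLayerHyp ((scFamV S V hV ⟨_, hpS⟩).d j).Y p m χ
        (toH2 (totalSysU hp2 j.1.1 S) (HV S V j)) ∧
      Nat.card (Fermat.Agent.S55.InfRes9.pPrimary p
        (H2 ((scFamV S V hV ⟨_, hpS⟩).d i).Y.X₃)) ∣ p ^ m ∧
      p ^ m ∣ (SCDatum.q ((scFamV S V hV ⟨_, hpS⟩).mono h)).ker.index ∧
      Limits.IsZero (groupCohomology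
        (Rep.res (SCDatum.q ((scFamV S V hV ⟨_, hpS⟩).mono h)).ker.subtype
          ((scFamV S V hV ⟨_, hpS⟩).d j).Y.X₃) 1) ∧
      ∃ invJN : H2 (Rep.res (SCDatum.q ((scFamV S V hV ⟨_, hpS⟩).mono h)).ker.subtype
          ((scFamV S V hV ⟨_, hpS⟩).d j).Y.X₂) →+ QZ,
        (∀ y : H2 ((scFamV S V hV ⟨_, hpS⟩).d j).Y.X₂,
          invJN ((res₂ ((scFamV S V hV ⟨_, hpS⟩).d j).Y.X₂
            (SCDatum.q ((scFamV S V hV ⟨_, hpS⟩).mono h)).ker).hom y) =
            (SCDatum.q ((scFamV S V hV ⟨_, hpS⟩).mono h)).ker.index •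
              toH2 (totalSysU hp2 j.1.1 S) (HV S V j) y) ∧
        ∃ invCN : H2 (Rep.res (SCDatum.q ((scFamV S V hV ⟨_, hpS⟩).mono h)).ker.subtype
            ((scFamV S V hV ⟨_, hpS⟩).d j).Y.X₃) →+ QZ,
          Function.Injective invCN ∧
          ∀ x : H2 (Rep.res (SCDatum.q ((scFamV S V hV ⟨_, hpS⟩).mono h)).ker.subtype
              ((scFamV S V hV ⟨_, hpS⟩).d j).Y.X₂),
            invCN ((pushS₂ ((scFamV S V hV ⟨_, hpS⟩).d j).Y.g
              (SCDatum.q ((scFamV S V hV ⟨_, hpS⟩).mono h)).ker).hom x) = invJN x := by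
  refine ⟨towerLevV p S hpS V i M, towerLevV_le p S hpS V i M, m, χ, hyp, ?_, ?_, ?_⟩
  · exact Fermat.Agent.S55.Adapt77.FinLayer33V.hb hpS hp2 hmu i hm
  · rw [index_ker_q S V hV ⟨_, hpS⟩ (towerLevV_le p S hpS V i M), ← hm]
    exact Nat.ordProj_dvd _ _
  · exact alpha_tail_kerQ p hp2 S hpS V hV ⟨_, hpS⟩ hmu i M

/-- the layer of `halpha` at the level `i`: a level `M` and a tower layer of degree
`p^e`, `e = v_p |Gal(Ω_i/K)|`, at `j = towerLevV i M`. -/
theorem exists_alpha_layer (hmu : ∀ σ ∈ V, ExtCitation.cycloChar p σ = 1) (i : LevV S V) :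
    ∃ (M : ℕ) (χ : ↥(HV S V (towerLevV p S hpS V i M)) →*
        Multiplicative (ZMod (p ^ (Nat.card ↥(HV S V i)).factorization p))),
      FinLayerHyp ((scFamV S V hV ⟨_, hpS⟩).d (towerLevV p S hpS V i M)).Y p
        ((Nat.card ↥(HV S V i)).factorization p) χ
        (toH2 (totalSysU hp2 (towerLevV p S hpS V i M).1.1 S)
          (HV S V (towerLevV p S hpS V i M))) := by
  generalize (Nat.card ↥(HV S V i)).factorization p = e
  rcases Nat.eq_zero_or_pos e with he | he
  · subst he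
    exact ⟨0, 1, Fermat.Agent.S55.Adapt77.FinLayerV.finLayerHyp_zero_V hV hpS hp2 hmu
      (towerLevV p S hpS V i 0) 1 _⟩
  · obtain ⟨s, M₁, hM₁⟩ := exists_finLayerHyp_D2_data p hp2 S V e he
    obtain ⟨j₀, hje, hj, hex, hs⟩ := hM₁ M₁ le_rfl (towerLevV p S hpS V i M₁)
      (towerField_le_towerLevV p S hpS V i M₁)
    exact ⟨M₁, _, Fermat.Agent.S55.Adapt77.FinLayerV.finLayerHyp_D2_V hV hpS hp2 hmu
      (towerLevV p S hpS V i M₁) j₀ e s
      ((towerField_mono p hje).trans (towerField_le_towerLevV p S hpS V i M₁)) hj he hex hs⟩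

/-- **the binder `halpha` of `SCFamily.exists_invCp` / `LimDesc99.A3.HAlpha` at the level `i`**,
unconditional. -/
theorem halpha_level (hmu : ∀ σ ∈ V, ExtCitation.cycloChar p σ = 1) (i : LevV S V) :
    ∃ (j : LevV S V) (h : j ≤ i) (m : ℕ)
      (χ : ((scFamV S V hV ⟨_, hpS⟩).d j).Q →* Multiplicative (ZMod (p ^ m))),
      FinLayerHyp ((scFamV S V hV ⟨_, hpS⟩).d j).Y p m χ
        (toH2 (totalSysU hp2 j.1.1 S) (HV S V j)) ∧
      Nat.card (Fermat.Agent.S55.InfRes9.pPrimary p
        (H2 ((scFamV S V hV ⟨_, hpS⟩).d i).Y.X₃)) ∣ p ^ m ∧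
      p ^ m ∣ (SCDatum.q ((scFamV S V hV ⟨_, hpS⟩).mono h)).ker.index ∧
      Limits.IsZero (groupCohomology
        (Rep.res (SCDatum.q ((scFamV S V hV ⟨_, hpS⟩).mono h)).ker.subtype
          ((scFamV S V hV ⟨_, hpS⟩).d j).Y.X₃) 1) ∧
      ∃ invJN : H2 (Rep.res (SCDatum.q ((scFamV S V hV ⟨_, hpS⟩).mono h)).ker.subtype
          ((scFamV S V hV ⟨_, hpS⟩).d j).Y.X₂) →+ QZ,
        (∀ y : H2 ((scFamV S V hV ⟨_, hpS⟩).d j).Y.X₂,
          invJN ((res₂ ((scFamV S V hV ⟨_, hpS⟩).d j).Y.X₂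
            (SCDatum.q ((scFamV S V hV ⟨_, hpS⟩).mono h)).ker).hom y) =
            (SCDatum.q ((scFamV S V hV ⟨_, hpS⟩).mono h)).ker.index •
              toH2 (totalSysU hp2 j.1.1 S) (HV S V j) y) ∧
        ∃ invCN : H2 (Rep.res (SCDatum.q ((scFamV S V hV ⟨_, hpS⟩).mono h)).ker.subtype
            ((scFamV S V hV ⟨_, hpS⟩).d j).Y.X₃) →+ QZ,
          Function.Injective invCN ∧
          ∀ x : H2 (Rep.res (SCDatum.q ((scFamV S V hV ⟨_, hpS⟩).mono h)).ker.subtype
              ((scFamV S V hV ⟨_, hpS⟩).d j).Y.X₂),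
            invCN ((pushS₂ ((scFamV S V hV ⟨_, hpS⟩).d j).Y.g
              (SCDatum.q ((scFamV S V hV ⟨_, hpS⟩).mono h)).ker).hom x) = invJN x :=
  Exists.elim (exists_alpha_layer p hp2 S hpS V hV hmu i) fun M hM =>
    Exists.elim hM fun χ hyp =>
      halpha_level_of_layer p hp2 S hpS V hV hmu i M _ χ hyp rfl

end Fermat.Agent.S55.CycloGlobal87.D2Level
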