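/-
S55 / 35-D2 halpha (helper87, insurance twin of helper91's D2Wire part 2): **the named Prop
`LimDesc99.A3.HAlpha hp2 S V hV ⟨_, hpS⟩` of helper99's `AllCoreFinal`, UNCONDITIONALLY**
(`p` odd, `p ∈ S`, `μ_p ⊆ K = ℚbar^V`) = `D2Level.halpha_level` (file `D2Alpha.lean`).
Same signature as helper99's `A3.hSplit`.
-/
import Fermat.Agent.S55.CycloGlobal87.D2Alpha
import Fermat.Agent.S55.LimDesc99.AllCoreFinal

set_option autoImplicit false
set_option linter.unusedSectionVars false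

namespace Fermat.Agent.S55.CycloGlobal87.D2Level

open Fermat.Agent.S55.Profin15 Fermat.Agent.S55.Idele73.Basic Fermat.Agent.S55.CD3
open Fermat.Agent.S55.LimDesc99 Fermat.Agent.S55.LimDesc99.D2

variable {p : ℕ} [hp : Fact p.Prime] (hp2 : p ≠ 2) {S : Finset Nat.Primes} {V : Subgroup GQ}
  (hV : IsOpenSub (globalLevels S) V)

/-- **(HAlpha), unconditional.** -/
theorem hAlpha87 (hpS : ExtCitation.pPrime p ∈ S)
    (hmu : ∀ σ ∈ V, ExtCitation.cycloChar p σ = 1) :
    Fermat.Agent.S55.LimDesc99.A3.HAlpha hp2 S V hV ⟨_, hpS⟩ :=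
  fun i => halpha_level p hp2 S hpS V hV hmu i

end Fermat.Agent.S55.CycloGlobal87.D2Level
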