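/-
S55 / 35-GLOBAL-INV, J-SPLIT with CANONICAL support (helper87, on top of helper9's
`Shapiro9.JSplitD2`).

`Shapiro9.JSplitD2.exists_finset_rsMap_JIS_eq_zero` produces a finite set `F` of primes outside `S`
(the support of a chosen cocycle).  For the passage to a higher level `Ω' ⊇ Ω·ℚ_M` (needed to
realise the tower layer) the support has to be known BEFORE `M` is chosen; so we use the canonical
support of the class, `{ℓ ∉ S | ps (compOut L S ℓ) H x ≠ 0}` (the `ℓ`-components of `x` in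
`H²(H, Z_ℓ)`), which does not grow under the transition maps (naturality of `ps`).

* `rsMap_JIS_eq_zero_of_supp`: (J3) for `JIS L S` with `hpow` only at the canonical support;
* `finite_supp`;
* `exists_level_rsMap_JIS_eq_zero` (+ `_towerCharK`): the tower form, `M₀ = M₀(p, S, T, k, t)`.
-/
import Mathlib
import Fermat.Agent.S55.Shapiro9.JSplitD2
import Fermat.Agent.S55.DegSum22.SplitChain
import Fermat.Agent.S55.CycloGlobal87.IdealSplit

set_option autoImplicit false
set_option linter.style.haveILetI false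
set_option linter.unusedSectionVars false

namespace Fermat.Agent.S55.CycloGlobal87.JSplitSupp

open CategoryTheory groupCohomology Rep
open Fermat.Agent.S55.GlobalInv91 Fermat.Agent.S55.DegSum22 Fermat.Agent.S55.IdeleVal44
open Fermat.Agent.S55.Idele73 Fermat.Agent.S55.Idele73.Basic Fermat.Agent.S55.Idele73.Local
open Fermat.Agent.S55.Shapiro9.SumSplit Fermat.Agent.S55.CycloRecip37.DescendK
open Fermat.Agent.S55.Shapiro9 Fermat.Agent.S55.Shapiro9.JSplitD2

attribute [local instance] Fermat.Agent.S55.IdeleVal44.factPrimes44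

section Main

variable (L : IntermediateField ℚ Qbar) [Normal ℚ L] [FiniteDimensional ℚ L]
  (S : Finset Nat.Primes) {T : Type*} [AddCommGroup T]

/-- **(J3) for the full idele module, canonical support.** -/
theorem rsMap_JIS_eq_zero_of_supp (n : ℕ)
    (I : ∀ q : InS S, LocInvSystem (EUnits q.1.1 L) T)
    (hinj : ∀ (q : InS S) (D : Subgroup (DE q.1.1 L))
      (u : H2 (Rep.res D.subtype (EUnits q.1.1 L))), n • u = 0 → (I q).inv D u = 0 → u = 0)
    (H : Subgroup (GalL L)) (x : H2 (Rep.res H.subtype (JIS L S))) (hx : n • x = 0)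
    (M : Subgroup (GalL L)) (h : M ≤ H)
    (hS : ∀ (q : InS S) (g : GalL L), n ∣ (Mackey.twSub (jE q.1.1 L) M g).relIndex
        (Mackey.twSub (jE q.1.1 L) H g))
    (hF : ∀ ℓ : OutS S, ps (compOut L S ℓ) H x ≠ 0 →
      ∀ (s : M) (γ : GalL L), γ * s * γ⁻¹ ∈ (locHom ℓ.1.1 L).range →
        ∃ s' : H, γ * s' * γ⁻¹ ∈ (locHom ℓ.1.1 L).range ∧ (s : GalL L) = (s' : GalL L) ^ n) :
    rsMap (JIS L S) h x = 0 := by
  classical
  have : Finite (GalL L) := inferInstance
  induction x using H2_induction_on with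
  | h c =>
  have hcob : IsCob₂ (Rep.res H.subtype (JIS L S)) (n • (c : H × H → JIS L S)) :=
    isCob₂_nsmul_of_nsmul_H2π H n c hx
  rw [rsMap_H2π]
  refine (H2π_eq_zero_iff _).2 ?_
  rw [← isCob₂_iff_mem]
  apply isCob₂_res_prodRep
  · apply isCob₂_res_dsRep
    intro q
    have hq : rsMap (Rep.coind (jE q.1.1 L) (EUnits q.1.1 L)) h
        (ps (compS L S q) H ((H2π (Rep.res H.subtype (JIS L S))).hom c)) = 0 := by
      apply JSplit.rsMap_eq_zero_of_nsmul_eq_zero (EUnits q.1.1 L) (jE_injective q.1.1 L) (I q) n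
        (hinj q) h
      · rw [← map_nsmul, hx, map_zero]
      · exact hS q
    have hq' : rsMap (Jq q.1.1 L) h
        (ps (projS L S q) H ((H2π (Rep.res H.subtype (JIS L S))).hom c)) = 0 := by
      rw [← compS_hom L S q, ps_comp, rsMap_ps, hq, map_zero]
    exact isCob₂_of_rsMap_ps_eq_zero (projS L S q) h c hq'
  · apply isCob₂_res_dsRep
    intro ℓ
    by_cases hℓ : ps (compOut L S ℓ) H ((H2π (Rep.res H.subtype (JIS L S))).hom c) = 0
    · -- the `ℓ`-component of the class vanishes on `H` already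
      have h0 : rsMap (Zq L ℓ.1.1) h
          (ps (compOut L S ℓ) H ((H2π (Rep.res H.subtype (JIS L S))).hom c)) = 0 := by
        rw [hℓ, map_zero]
      exact isCob₂_of_rsMap_ps_eq_zero (compOut L S ℓ) h c h0
    · letI : Fintype (GalL L) := Fintype.ofFinite _
      have hc' : (fun p : H × H => (compOut L S ℓ).hom (c p)) ∈
          cocycles₂ (resH (IdeleCoh54.UnrSum.coindInt (locHom ℓ.1.1 L)) H) :=
        hom_comp_mem_cocycles₂ (compOut L S ℓ) H c
      have hm' : IsCob₂ (resH (IdeleCoh54.UnrSum.coindInt (locHom ℓ.1.1 L)) H)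
          (n • fun p : H × H => (compOut L S ℓ).hom (c p)) := by
        have h3 := IsCob₂.hom_comp (compOut L S ℓ) H hcob
        have e : (n • fun p : H × H => (compOut L S ℓ).hom (c p)) =
            fun p : H × H => (compOut L S ℓ).hom ((n • (c : H × H → JIS L S)) p) := by
          funext p
          rw [Pi.smul_apply, Pi.smul_apply, map_nsmul]
        rw [e]
        exact h3
      exact IdeleCoh54.UnrLocal.res_isCob₂_of_nsmul (locHom ℓ.1.1 L) H h n hc' hm' (hF ℓ hℓ)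

/-- **the canonical support is finite.** -/
theorem finite_supp (H : Subgroup (GalL L)) (x : H2 (Rep.res H.subtype (JIS L S))) :
    {ℓ : OutS S | ps (compOut L S ℓ) H x ≠ 0}.Finite := by
  classical
  have : Finite (GalL L) := inferInstance
  induction x using H2_induction_on with
  | h c =>
  have hfin : Set.Finite (⋃ p : H × H, ((dsRep.toDS (fun ℓ : OutS S => Zq L ℓ.1.1)
      (prodRep.p2 (JS L S) (IS L S) (c p))).support : Set (OutS S))) :=
    Set.finite_iUnion (fun p => Finset.finite_toSet _)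
  refine hfin.subset ?_
  intro ℓ hℓ
  rw [Set.mem_ofPred_eq] at hℓ
  by_contra hne
  apply hℓ
  rw [ps_H2π]
  refine (H2π_eq_zero_iff _).2 ?_
  rw [← isCob₂_iff_mem]
  refine ⟨fun _ => 0, fun g h' => ?_⟩
  rw [map_zero, sub_zero, add_zero]
  symm
  by_contra hne'
  apply hne
  rw [Set.mem_iUnion]
  refine ⟨(g, h'), ?_⟩
  rw [Finset.mem_coe, DFinsupp.mem_support_toFun]
  exact hne'

end Main

/-! ### the tower form -/

section Tower

open Fermat.Agent.Lib.FrobeniusExists Fermat.Agent.S55.CycloGlobal87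
  Fermat.Agent.S55.CycloGlobal87.IdealSplit

variable (p : ℕ) [hp : Fact p.Prime] (hp2 : p ≠ 2)

/-- **`hdeg` uniformly over a finite set `S` of primes** (shape of `rsMap_JIS_eq_zero_of_supp`). -/
theorem exists_level_hdeg_finset (S : Finset Nat.Primes) (k t : ℕ) :
    ∃ M₀, ∀ M ≥ M₀, ∀ q ∈ S,
      ∀ (Ω : IntermediateField ℚ Qbar) [Normal ℚ Ω] [FiniteDimensional ℚ Ω]
      (h : towerField p M ≤ Ω) (H : Subgroup (GalL Ω)) (_hH : H.index < p ^ (t + 1))
      (x : GalL Ω),
      p ^ k ∣ (Mackey.twSub (jE q.1 Ω) (H ⊓ (towerCharL p Ω hp2 M h).ker) x).relIndex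
        (Mackey.twSub (jE q.1 Ω) H x) :=
  exists_uniform_level (fun q => exists_level_pow_dvd_relIndex_twSub_jE p hp2 q.1 k t) S

/-- **(J3) for `J_S × I^S` on the tower layer, canonical support.**  `M₀` depends only on
`(p, S, T, k, t)`: for every level `Ω ⊇ ℚ_M`, `M ≥ M₀`, unramified outside `S`, every
`H = Gal(Ω/K)` of index `< p^(t+1)`, a `p^k`-torsion class of `H²(H, J_S(Ω) × I^S(Ω))` whose
components outside `S` are supported in `T` dies on the tower layer `H ⊓ ker χ_M`. -/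
theorem exists_level_rsMap_JIS_eq_zero (S : Finset Nat.Primes) (T : Finset Nat.Primes)
    (k t : ℕ) {A : Type*} [AddCommGroup A] :
    ∃ M₀, ∀ M ≥ M₀,
      ∀ (Ω : IntermediateField ℚ Qbar) [Normal ℚ Ω] [FiniteDimensional ℚ Ω]
      (_hΩ : Ω.IsUnramifiedOutside S) (h : towerField p M ≤ Ω)
      (I : ∀ q : InS S, LocInvSystem (EUnits q.1.1 Ω) A)
      (_hinj : ∀ (q : InS S) (D : Subgroup (DE q.1.1 Ω))
        (u : H2 (Rep.res D.subtype (EUnits q.1.1 Ω))), p ^ k • u = 0 → (I q).inv D u = 0 → u = 0)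
      (H : Subgroup (GalL Ω)) (_hH : H.index < p ^ (t + 1))
      (x : H2 (Rep.res H.subtype (JIS Ω S))) (_hx : p ^ k • x = 0)
      (_hsupp : ∀ ℓ : OutS S, ps (compOut Ω S ℓ) H x ≠ 0 → ℓ.1 ∈ T),
      rsMap (JIS Ω S) (inf_le_left : H ⊓ (towerCharL p Ω hp2 M h).ker ≤ H) x = 0 := by
  obtain ⟨M₁, hM₁⟩ := exists_level_hdeg_finset p hp2 S k t
  obtain ⟨M₂, hM₂⟩ := exists_level_hpow_finset p hp2 T k t
  refine ⟨max M₁ M₂, fun M hM Ω _ _ hΩ h I hinj H hH x hx hsupp => ?_⟩
  refine rsMap_JIS_eq_zero_of_supp Ω S (p ^ k) I hinj H x hx _ inf_le_left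
    (fun q g => hM₁ M (le_trans (le_max_left _ _) hM) q.1 q.2 Ω h H hH g)
    (fun ℓ hℓ s γ hs => ?_)
  have hunr : FrobFin98.IsUnrAt ℓ.1.1 Ω := FrobFin98.isUnrAt_of_isUnramifiedOutside ℓ.1.1 Ω hΩ ℓ.2
  exact hM₂ M (le_trans (le_max_right _ _) hM) ℓ.1 (hsupp ℓ hℓ) Ω h H hH
    (FrobFin98.isCyclic_range hunr) s γ hs

/-- transport of a vanishing restriction along an equality of subgroups. -/
theorem rsMap_eq_zero_congr {k Γ : Type} [CommRing k] [Group Γ] (C : Rep.{0} k Γ)
    {H M M' : Subgroup Γ} (e : M = M') (h : M ≤ H) (h' : M' ≤ H)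
    (x : H2 (Rep.res H.subtype C)) (hx : rsMap C h' x = 0) : rsMap C h x = 0 := by
  subst e
  exact hx

/-- **the literal `FinLayerHyp`/`hsplit` shape** `(res₂ (Res_H (J_S × I^S)) Z) x = 0`, for any
`Z ≤ ↥H` which is the tower layer `H ⊓ ker χ_M` (e.g. the kernel of any character of `↥H` with the
same kernel as the restriction of `χ_M`). -/
theorem exists_level_res₂_JIS_eq_zero (S : Finset Nat.Primes) (T : Finset Nat.Primes)
    (k t : ℕ) {A : Type*} [AddCommGroup A] :
    ∃ M₀, ∀ M ≥ M₀,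
      ∀ (Ω : IntermediateField ℚ Qbar) [Normal ℚ Ω] [FiniteDimensional ℚ Ω]
      (_hΩ : Ω.IsUnramifiedOutside S) (h : towerField p M ≤ Ω)
      (I : ∀ q : InS S, LocInvSystem (EUnits q.1.1 Ω) A)
      (_hinj : ∀ (q : InS S) (D : Subgroup (DE q.1.1 Ω))
        (u : H2 (Rep.res D.subtype (EUnits q.1.1 Ω))), p ^ k • u = 0 → (I q).inv D u = 0 → u = 0)
      (H : Subgroup (GalL Ω)) (_hH : H.index < p ^ (t + 1))
      (Z : Subgroup ↥H) (_hZ : Z.map H.subtype = H ⊓ (towerCharL p Ω hp2 M h).ker)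
      (x : H2 (Rep.res H.subtype (JIS Ω S))) (_hx : p ^ k • x = 0)
      (_hsupp : ∀ ℓ : OutS S, ps (compOut Ω S ℓ) H x ≠ 0 → ℓ.1 ∈ T),
      (res₂ (Rep.res H.subtype (JIS Ω S)) Z).hom x = 0 := by
  obtain ⟨M₀, hM₀⟩ := exists_level_rsMap_JIS_eq_zero p hp2 S T k t (A := A)
  refine ⟨M₀, fun M hM Ω _ _ hΩ h I hinj H hH Z hZ x hx hsupp => ?_⟩
  rw [res₂_eq_zero_iff_rsMap]
  exact rsMap_eq_zero_congr (JIS Ω S) hZ _ inf_le_left x
    (hM₀ M hM Ω hΩ h I hinj H hH x hx hsupp)

/-- **the same for the kernel of the ONTO tower character over `K = Ω^H`** (`OverK.towerCharK`, the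
`χ` of `GlobalInv91.FinLayerHyp` at `Γ := ↥H`): literally the second conjunct of `hsplit` of
`GlobalInv91.SCFamily.exists_invCp` once `x` is the transported class. -/
theorem exists_level_res₂_JIS_eq_zero_towerCharK (S : Finset Nat.Primes) (T : Finset Nat.Primes)
    (k t : ℕ) {A : Type*} [AddCommGroup A] :
    ∃ M₀, ∀ (j m : ℕ), M₀ ≤ j + m →
      ∀ (Ω : IntermediateField ℚ Qbar) [Normal ℚ Ω] [FiniteDimensional ℚ Ω]
      (_hΩ : Ω.IsUnramifiedOutside S) (h : towerField p (j + m) ≤ Ω)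
      (I : ∀ q : InS S, LocInvSystem (EUnits q.1.1 Ω) A)
      (_hinj : ∀ (q : InS S) (D : Subgroup (DE q.1.1 Ω))
        (u : H2 (Rep.res D.subtype (EUnits q.1.1 Ω))), p ^ k • u = 0 → (I q).inv D u = 0 → u = 0)
      (H : Subgroup (GalL Ω)) (_hH : H.index < p ^ (t + 1))
      (hj : ∀ g ∈ H, towerCharL p Ω hp2 j
        ((towerField_mono p (Nat.le_add_right j m)).trans h) g = 1)
      (x : H2 (Rep.res H.subtype (JIS Ω S))) (_hx : p ^ k • x = 0)
      (_hsupp : ∀ ℓ : OutS S, ps (compOut Ω S ℓ) H x ≠ 0 → ℓ.1 ∈ T),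
      (res₂ (Rep.res H.subtype (JIS Ω S)) (towerCharK p hp2 Ω H j m h hj).ker).hom x = 0 := by
  obtain ⟨M₀, hM₀⟩ := exists_level_res₂_JIS_eq_zero p hp2 S T k t (A := A)
  refine ⟨M₀, fun j m hjm Ω _ _ hΩ h I hinj H hH hj x hx hsupp => ?_⟩
  exact hM₀ (j + m) hjm Ω hΩ h I hinj H hH _ (map_ker_towerCharK p hp2 Ω H j m h hj) x hx hsupp

end Tower

end Fermat.Agent.S55.CycloGlobal87.JSplitSupp
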